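/-
TEAM CFT -> S55, layer [GLOB-GR] (architect helper74): WEAK RECIPROCITY `InGRw` for `qDatum`.

`x ∈ H²(G_S, μ_p)` locally trivial at all `w ∈ S`, `w ≠ l`  ⟹  `x` is locally trivial at `l`.

ROUTE (report 835).  Choose a prime `r ≠ p, l` such that `l` has order `p²` modulo `r`; let
`L ⊆ ℚ(ζ_r)` be the subfield cut out by `Hr` = prime-to-`p` part of `(ℤ/r)ˣ`; `L/ℚ` is cyclic of
`p`-power degree and the local degree at `l` is divisible by `p`.  `x` is locally trivial at all
`q ≠ l`; over `L` it is locally trivial everywhere (degree divisible by `p` kills `Br(ℚ_l)[p]`), so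
by the Hasse principle it dies over `L`, hence `x = inf [a]`, `a ∈ ℚˣ`, a cyclic class.
`a` is a local norm from `L` at all `q ≠ l`; elementary reciprocity in `ℚ(ζ_r)` (only unramified
and tame local computations) shows that `a` is a local norm at `l`.  So `x` dies at `l`.

This file: definitions (finite groups acting on fields, explicit multiplicative cochains, layers).
-/
import Fermat.Agent.CFT.Local.Tower
import Fermat.Agent.CFT.Top.Inputs2

set_option autoImplicit false

noncomputable section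

namespace Fermat.Agent.CFT.GR

open groupCohomology Fermat.Agent.CFT.Top Fermat.Agent.CFT.Local ExtCitation

attribute [local instance] Units.mulDistribMulActionRight
attribute [local instance] quotAct

/-! ### explicit cochains -/

/-- multiplicative standard 2-cochain of a finite cyclic group `⟨g⟩` attached to `a`
(multiplicative version of `P0.cycCochain`). -/
def mcyc {C X : Type} [Group C] [Finite C] [One X] (g : C) (a : X) : C × C → X :=
  fun x => if Nat.card C ≤ P0.dlog g x.1 + P0.dlog g x.2 then a else 1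

/-- its inflation along `G → G ⧸ N` (`φ N` a generator of `G ⧸ N`). -/
def mInf {G X : Type} [Group G] [One X] (N : Subgroup G) [N.Normal] [Finite (G ⧸ N)] (φ : G)
    (a : X) : G × G → X :=
  fun x => mcyc (φ : G ⧸ N) a ((x.1 : G ⧸ N), (x.2 : G ⧸ N))

/-- restriction of a 2-cochain to a subgroup -/
def resTo {G X : Type} [Group G] (H : Subgroup G) (β : G × G → X) : H × H → X :=
  fun x => β ((x.1 : G), (x.2 : G))

/-- `a` is the norm of an `N`-invariant element (the norm from `L^N` to `L^G`). -/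
def IsNormFrom (G L : Type) [Group G] [Field L] [MulSemiringAction G L] (N : Subgroup G)
    (a : Lˣ) : Prop :=
  ∃ b : Lˣ, (∀ n ∈ N, n • b = b) ∧ a = ∏ᶠ c : G ⧸ N, (Quotient.out c : G) • b

/-! ### morphisms of field actions -/

/-- a morphism `(G, L) → (G', L')`: `f : G' → G`, `j : L → L'`, compatible. -/
structure ActHom (G L G' L' : Type) [Group G] [Field L] [MulSemiringAction G L]
    [Group G'] [Field L'] [MulSemiringAction G' L'] where
  f : G' →* G
  j : L →+* L'
  equivariant : ∀ (g : G') (x : L), j (f g • x) = g • j x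

namespace ActHom

variable {G L G' L' : Type} [Group G] [Field L] [MulSemiringAction G L]
  [Group G'] [Field L'] [MulSemiringAction G' L']

/-- the map on units -/
def u (X : ActHom G L G' L') : Lˣ →* L'ˣ := Units.map (X.j : L →* L')

@[simp] lemma coe_u (X : ActHom G L G' L') (a : Lˣ) : ((X.u a : L'ˣ) : L') = X.j a := rfl

/-- pull back of a 2-cochain -/
def pull₂ (X : ActHom G L G' L') (β : G × G → Lˣ) : G' × G' → L'ˣ :=
  fun x => X.u (β (X.f x.1, X.f x.2))

lemma u_smul (X : ActHom G L G' L') (g : G') (a : Lˣ) : X.u (X.f g • a) = g • X.u a :=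
  Units.ext (X.equivariant g a)

lemma map_mem_fixed (X : ActHom G L G' L') (U : Subgroup G) (x : FixedPoints.subfield U L) :
    X.j (x : L) ∈ FixedPoints.subfield (U.comap X.f) L' := by
  intro u
  have h1 : (⟨X.f u.1, u.2⟩ : U) • (x : L) = x := x.2 _
  show (u : G') • X.j (x : L) = X.j (x : L)
  rw [← X.equivariant]
  exact congrArg X.j h1

/-- the morphism induced on the layers `(G ⧸ U, L^U) → (G' ⧸ f⁻¹U, L'^(f⁻¹U))`. -/
def layer (X : ActHom G L G' L') (U : Subgroup G) [U.Normal] :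
    ActHom (G ⧸ U) (FixedPoints.subfield U L) (G' ⧸ U.comap X.f)
      (FixedPoints.subfield (U.comap X.f) L') where
  f := QuotientGroup.map (U.comap X.f) U X.f le_rfl
  j := (X.j.comp (FixedPoints.subfield U L).subtype).codRestrict
    (FixedPoints.subfield (U.comap X.f) L') (fun x => X.map_mem_fixed U x)
  equivariant := by
    intro g x
    induction g using QuotientGroup.induction_on with
    | H g => exact Subtype.ext (X.equivariant g (x : L))

end ActHom

/-- a "local datum" over `(G, L)`: a finite group acting faithfully on a field, with a morphism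
from `(G, L)`. -/
structure LocDat (G L : Type) [Group G] [Field L] [MulSemiringAction G L] where
  D : Type
  K : Type
  [grp : Group D]
  [fin : Finite D]
  [fld : Field K]
  [act : MulSemiringAction D K]
  [faith : FaithfulSMul D K]
  hom : ActHom G L D K

attribute [instance] LocDat.grp LocDat.fin LocDat.fld LocDat.act LocDat.faith

/-! ### layers: cochains of the layer `(𝒢 ⧸ U, Ω^U)` as cochains on `𝒢` -/

section Layer

variable {𝒢 Ω : Type} [Group 𝒢] [Field Ω] [MulSemiringAction 𝒢 Ω]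

/-- units of the layer as units of `Ω` -/
def layU (U : Subgroup 𝒢) : (FixedPoints.subfield U Ω)ˣ →* Ωˣ :=
  Units.map ((FixedPoints.subfield U Ω).subtype : FixedPoints.subfield U Ω →* Ω)

/-- inflation of a 1-cochain of the layer -/
def up₁ (U : Subgroup 𝒢) [U.Normal] (γ : 𝒢 ⧸ U → (FixedPoints.subfield U Ω)ˣ) : 𝒢 → Ωˣ :=
  fun g => layU U (γ (g : 𝒢 ⧸ U))

/-- inflation of a 2-cochain of the layer -/
def up₂ (U : Subgroup 𝒢) [U.Normal]
    (β : (𝒢 ⧸ U) × (𝒢 ⧸ U) → (FixedPoints.subfield U Ω)ˣ) : 𝒢 × 𝒢 → Ωˣ :=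
  fun x => layU U (β ((x.1 : 𝒢 ⧸ U), (x.2 : 𝒢 ⧸ U)))

/-- `γ : 𝒢 → X` is right-invariant under `V`. -/
def RInv {X : Type} (V : Subgroup 𝒢) (γ : 𝒢 → X) : Prop := ∀ g : 𝒢, ∀ v ∈ V, γ (g * v) = γ g

end Layer

/-! ### the concrete objects -/

/-- `ℚ̄` -/
abbrev Qb : Type := AlgebraicClosure ℚ

/-- the morphism `(G_ℚ, ℚ̄) → (G_{ℚ_q}, PadicAlgCl q)`. -/
def padicHom (q : ℕ) [Fact q.Prime] : ActHom GQ Qb (Gq q) (PadicAlgCl q) where
  f := localGaloisToGlobal q
  j := (padicEmbedding q).toRingHom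
  equivariant τ x := padicEmbedding_localGaloisToGlobal q τ x

/-- the subgroup of `G_ℚ` cut out by `Hr ≤ (ℤ/r)ˣ` (its fixed field is `L = ℚ(ζ_r)^{Hr}`). -/
abbrev NQ (r : ℕ) [Fact r.Prime] (Hr : Subgroup (ZMod r)ˣ) : Subgroup GQ := Hr.comap (cycloChar r)

/-- its preimage in `G_{ℚ_q}` -/
abbrev Nq (q r : ℕ) [Fact q.Prime] [Fact r.Prime] (Hr : Subgroup (ZMod r)ˣ) : Subgroup (Gq q) :=
  (NQ r Hr).comap (localGaloisToGlobal q)

/-- `a ∈ ℚˣ` is a norm from the completion of `L = ℚ(ζ_r)^{Hr}` at `q`. -/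
def IsLocNorm (q r : ℕ) [Fact q.Prime] [Fact r.Prime] (Hr : Subgroup (ZMod r)ˣ) (a : ℚˣ) : Prop :=
  IsNormFrom (Gq q) (PadicAlgCl q) (Nq q r Hr)
    (Units.map (algebraMap ℚ (PadicAlgCl q) : ℚ →* PadicAlgCl q) a)

/-- the class of the raw cochain `f : G_ℚ × G_ℚ → 𝔽_p = μ_p` dies in `H²(G_{ℚ_q}, μ_p)`. -/
def LocTrivAt (p q : ℕ) [Fact p.Prime] [Fact q.Prime] (f : GQ × GQ → ZMod p) : Prop :=
  ∃ c : Gq q → ZMod p, (∃ V ∈ (levq q).S, RInv V c) ∧
    ∀ g h : Gq q, f (localGaloisToGlobal q g, localGaloisToGlobal q h) =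
      ((cycloChar p (localGaloisToGlobal q g) : (ZMod p)ˣ) : ZMod p) * c h - c (g * h) + c g

/-- the layer cochain `β` is `ζ ^ f`. -/
def IsZetaPow {p : ℕ} (ζ : Qb) (f : GQ × GQ → ZMod p) (U : Subgroup GQ) [U.Normal]
    (β : (GQ ⧸ U) × (GQ ⧸ U) → (FixedPoints.subfield U Qb)ˣ) : Prop :=
  ∀ g h : GQ, (((β ((g : GQ ⧸ U), (h : GQ ⧸ U)) : (FixedPoints.subfield U Qb)ˣ) :
    FixedPoints.subfield U Qb) : Qb) = ζ ^ (f (g, h)).val

end Fermat.Agent.CFT.GR

end
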