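/-
TEAM CFT -> S55, layer [GLOB-GR] (architect helper74): statements-as-Props.
See the header of `GR/Defs.lean` for the route.  Each package proves
`theorem xxx (deps as hypotheses) : Stmt_xxx` in its own file `Fermat/Agent/CFT/GR/<Name>.lean`.
Put
  attribute [local instance] Units.mulDistribMulActionRight
  attribute [local instance] Fermat.Agent.CFT.Local.quotAct
at the top of your file.
-/
import Fermat.Agent.CFT.GR.Defs
import Fermat.Agent.CFT.Top.SCb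

set_option autoImplicit false

noncomputable section

namespace Fermat.Agent.CFT.GR

open groupCohomology Fermat.Agent.CFT.Top Fermat.Agent.CFT.Local ExtCitation

attribute [local instance] Units.mulDistribMulActionRight
attribute [local instance] quotAct

/-! ### A. pure algebra: finite groups acting faithfully on fields -/

/-- GR-A1 (IC) : a 2-cocycle of `G` with values in `Lˣ` which splits on `N` (`G ⧸ N` cyclic) is
cohomologous to an inflated cyclic cochain. -/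
def Stmt_IC : Prop :=
  ∀ (G L : Type) [Group G] [Finite G] [Field L] [MulSemiringAction G L] [FaithfulSMul G L]
    (N : Subgroup G) [N.Normal] (φ : G), (∀ x : G ⧸ N, x ∈ Subgroup.zpowers (φ : G ⧸ N)) →
    ∀ β : G × G → Lˣ, IsMulCocycle₂ β → IsMulCoboundary₂ (resTo N β) →
      ∃ a ∈ fixedU G L, IsMulCoboundary₂ (fun x => β x / mInf N φ a x)

/-- GR-A2 (RIC) : the pull back of an inflated cyclic cochain along `(G, L) → (G', L')` splits iff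
`j a` is a norm from `L'^(f⁻¹ N)`. -/
def Stmt_RIC : Prop :=
  ∀ (G L G' L' : Type) [Group G] [Finite G] [Field L] [MulSemiringAction G L]
    [Group G'] [Finite G'] [Field L'] [MulSemiringAction G' L'] [FaithfulSMul G' L']
    (X : ActHom G L G' L') (N : Subgroup G) [N.Normal] (φ : G),
    (∀ x : G ⧸ N, x ∈ Subgroup.zpowers (φ : G ⧸ N)) → ∀ a ∈ fixedU G L,
      (IsMulCoboundary₂ (X.pull₂ (mInf N φ a)) ↔ IsNormFrom G' L' (N.comap X.f) (X.u a))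

/-- GR-A3 (DL) : descent = injectivity of inflation, explicit form.  A 2-cocycle of the layer
`(𝒢 ⧸ U, Ω^U)` which becomes the coboundary of a cochain `γ : 𝒢 → Ωˣ` of some level splits in the
layer. -/
def Stmt_DL : Prop :=
  ∀ (𝒢 Ω : Type) [Group 𝒢] [Field Ω] [MulSemiringAction 𝒢 Ω] (𝒰 : LevelSys 𝒢),
    (∀ (V : Subgroup 𝒢) [V.Normal], V ∈ 𝒰.S → FaithfulSMul (𝒢 ⧸ V) (FixedPoints.subfield V Ω)) →
    ∀ (U : Subgroup 𝒢) [U.Normal], U ∈ 𝒰.S →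
    ∀ β : (𝒢 ⧸ U) × (𝒢 ⧸ U) → (FixedPoints.subfield U Ω)ˣ, IsMulCocycle₂ β →
    (∃ γ : 𝒢 → Ωˣ, (∃ V ∈ 𝒰.S, RInv V γ ∧ ∀ g : 𝒢, ∀ v ∈ V, v • γ g = γ g) ∧
      ∀ g h : 𝒢, g • γ h / γ (g * h) * γ g = up₂ U β (g, h)) →
    IsMulCoboundary₂ β

/-- GR-A4 (normLayer) : norms in a layer = norms in `Ω`. -/
def Stmt_normLayer : Prop :=
  ∀ (𝒢 Ω : Type) [Group 𝒢] [Field Ω] [MulSemiringAction 𝒢 Ω] (U N : Subgroup 𝒢) [U.Normal],
    U ≤ N → N.FiniteIndex → ∀ N₀ : Subgroup (𝒢 ⧸ U), N₀.comap (QuotientGroup.mk' U) = N →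
    ∀ a : (FixedPoints.subfield U Ω)ˣ,
      (IsNormFrom (𝒢 ⧸ U) (FixedPoints.subfield U Ω) N₀ a ↔ IsNormFrom 𝒢 Ω N (layU U a))

/-! ### B. local fields, finite level (on top of [LOC]) -/

/-- GR-B1 (DK) : "degree divisible by `p` kills `Br[p]`". -/
def Stmt_DK : Prop :=
  ∀ (D L : Type) [Group D] [Finite D] [NormedField L] [MulSemiringAction D L], LocAct D L →
    ∀ (N : Subgroup D) [N.Normal] (p : ℕ), p.Prime → p ∣ Nat.card (D ⧸ N) →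
    ∀ β : D × D → Lˣ, IsMulCocycle₂ β → IsMulCoboundary₂ (fun x => β x ^ p) →
      IsMulCoboundary₂ (resTo N β)

/-! ### C. the layers of `G_ℚ` -/

/-- GR-C1 (globalLayer) : the layers of `(G_ℚ, ℚ̄)`: finite, faithful, base field `ℚ`. -/
def Stmt_globalLayer : Prop :=
  ∀ (U : Subgroup GQ) [U.Normal], U ∈ levAll.S →
    Finite (GQ ⧸ U) ∧ FaithfulSMul (GQ ⧸ U) (FixedPoints.subfield U Qb) ∧
    ∀ a ∈ fixedU (GQ ⧸ U) (FixedPoints.subfield U Qb), ∃ t : ℚˣ,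
      layU U a = Units.map (algebraMap ℚ Qb : ℚ →* Qb) t

/-- GR-C2 (HPGR) : **the input from [GLOB-HP]** in the shape consumed here. -/
def Stmt_HPGR : Prop :=
  ∀ (p : ℕ) [Fact p.Prime], p ≠ 2 → ∀ (U N : Subgroup GQ) [U.Normal] [N.Normal], U ∈ levAll.S →
    U ≤ N → (∀ u ∈ U, cycloChar p u = 1) →
    ∀ β : (GQ ⧸ U) × (GQ ⧸ U) → (FixedPoints.subfield U Qb)ˣ, IsMulCocycle₂ β →
    (∀ x, β x ^ p = 1) →
    (∀ (q : ℕ) [Fact q.Prime], IsMulCoboundary₂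
      (resTo ((N.map (QuotientGroup.mk' U)).comap ((padicHom q).layer U).f)
        (((padicHom q).layer U).pull₂ β))) →
    IsMulCoboundary₂ (resTo (N.map (QuotientGroup.mk' U)) β)

/-! ### D. dictionary `Hlc` / raw cochains / layers -/

/-- GR-D1 (DI1) : a level constant cocycle `f` with values in `μ_p` gives the layer cocycles
`ζ ^ f`. -/
def Stmt_DI1 : Prop :=
  ∀ (p : ℕ) [Fact p.Prime] (S : Finset Nat.Primes) (ζ : Qb), IsPrimitiveRoot ζ p →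
    ∀ f : GQ × GQ → ZMod p, (f : GQ × GQ → muRep (ZMod p) (cycloChar p)) ∈
      Z2 (levS S) (muRep (ZMod p) (cycloChar p)) →
    ∃ U₀ ∈ (levS S).S, ∀ (U : Subgroup GQ) [U.Normal], U ≤ U₀ → (∀ u ∈ U, cycloChar p u = 1) →
      ∃ β : (GQ ⧸ U) × (GQ ⧸ U) → (FixedPoints.subfield U Qb)ˣ,
        IsZetaPow ζ f U β ∧ IsMulCocycle₂ β ∧ ∀ x, β x ^ p = 1

/-- GR-D2 (DI2) : local triviality with `μ_p`-coefficients ⟹ the layer cocycle splits locally. -/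
def Stmt_DI2 : Prop :=
  ∀ (p q : ℕ) [Fact p.Prime] [Fact q.Prime] (ζ : Qb), IsPrimitiveRoot ζ p →
    ∀ (f : GQ × GQ → ZMod p) (U : Subgroup GQ) [U.Normal], U ∈ levAll.S →
    ∀ β : (GQ ⧸ U) × (GQ ⧸ U) → (FixedPoints.subfield U Qb)ˣ, IsZetaPow ζ f U β →
      IsMulCocycle₂ β → LocTrivAt p q f → IsMulCoboundary₂ (((padicHom q).layer U).pull₂ β)

/-- GR-D3 (DO) : conversely (Kummer theory + Hilbert 90). -/
def Stmt_DO : Prop :=
  ∀ (p q : ℕ) [Fact p.Prime] [Fact q.Prime] (ζ : Qb), IsPrimitiveRoot ζ p →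
    ∀ (f : GQ × GQ → ZMod p) (U : Subgroup GQ) [U.Normal], U ∈ levAll.S →
    ∀ β : (GQ ⧸ U) × (GQ ⧸ U) → (FixedPoints.subfield U Qb)ˣ, IsZetaPow ζ f U β →
      IsMulCocycle₂ β → IsMulCoboundary₂ (((padicHom q).layer U).pull₂ β) → LocTrivAt p q f

/-- GR-D4 (LTO) : `S`-level cocycles with values in `μ_p` are locally trivial outside `S`
(`H²(ℤ̂, μ_p) = 0`). -/
def Stmt_LTO : Prop :=
  ∀ (p : ℕ) [Fact p.Prime] (S : Finset Nat.Primes), pPrime p ∈ S →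
    ∀ f : GQ × GQ → ZMod p, (f : GQ × GQ → muRep (ZMod p) (cycloChar p)) ∈
      Z2 (levS S) (muRep (ZMod p) (cycloChar p)) →
    ∀ (q : ℕ) [Fact q.Prime], (∀ s ∈ S, (s : ℕ) ≠ q) → LocTrivAt p q f

/-- GR-D5 (HlcLoc) : `LocTrivAt` is the vanishing of the restriction in `Hlc`. -/
def Stmt_HlcLoc : Prop :=
  ∀ (p : ℕ) [Fact p.Prime] (S : Finset Nat.Primes) (h : CycloTriv p S) (w : (qDatum p S h).ι)
    (q : ℕ) [Fact q.Prime], (((show ↥S from w) : Nat.Primes) : ℕ) = q →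
    ∀ f : Z2 (levS S) (muRep (ZMod p) (cycloChar p)),
    ((lcRes ((qDatum p S h).φ w) ((qDatum p S h).cont w) (qDatum p S h).mu).mapH 2
        (cls2 (levS S) (muRep (ZMod p) (cycloChar p)) f) = 0 ↔
      LocTrivAt p q (f.1 : GQ × GQ → ZMod p))

/-! ### E. reciprocity for `L ⊆ ℚ(ζ_r)` -/

/-- GR-E1 (UNR) : `ℚ_q(ζ_r)/ℚ_q`, `q ≠ r`: Frobenius, and the value group. -/
def Stmt_UNR : Prop :=
  ∀ (q r : ℕ) [Fact q.Prime] [Fact r.Prime], q ≠ r →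
    (∃ τ : Gq q, ((cycloChar r (localGaloisToGlobal q τ) : (ZMod r)ˣ) : ZMod r) = (q : ZMod r)) ∧
    (∀ τ : Gq q, ∃ i : ℕ,
      ((cycloChar r (localGaloisToGlobal q τ) : (ZMod r)ˣ) : ZMod r) = (q : ZMod r) ^ i) ∧
    (∀ y : PadicAlgCl q, y ≠ 0 →
      (∀ τ : Gq q, cycloChar r (localGaloisToGlobal q τ) = 1 → τ y = y) →
      ∃ k : ℤ, ‖y‖ = ‖(q : PadicAlgCl q)‖ ^ k)

/-- GR-E2 (RECu1) : a local norm at an unramified place has valuation divisible by the order of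
Frobenius. -/
def Stmt_RECu1 : Prop :=
  ∀ (q r : ℕ) [Fact q.Prime] [Fact r.Prime] (Hr : Subgroup (ZMod r)ˣ), q ≠ r → ∀ a : ℚˣ,
    IsLocNorm q r Hr a → ∀ u : (ZMod r)ˣ, (u : ZMod r) = (q : ZMod r) →
      u ^ padicValRat q (a : ℚ) ∈ Hr

/-- GR-E3 (RECu2) : the converse. -/
def Stmt_RECu2 : Prop :=
  ∀ (q r : ℕ) [Fact q.Prime] [Fact r.Prime] (Hr : Subgroup (ZMod r)ˣ), q ≠ r → ∀ a : ℚˣ,
    ∀ u : (ZMod r)ˣ, (u : ZMod r) = (q : ZMod r) → u ^ padicValRat q (a : ℚ) ∈ Hr →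
      IsLocNorm q r Hr a

/-- `u` is the residue modulo `r` of the unit part of `a`. -/
def IsUnitPart (r : ℕ) (a : ℚˣ) (u : (ZMod r)ˣ) : Prop :=
  ∃ (k m n : ℤ), ¬ (r : ℤ) ∣ m ∧ ¬ (r : ℤ) ∣ n ∧ (a : ℚ) * n = (r : ℚ) ^ k * m ∧
    (u : ZMod r) * (n : ZMod r) = (m : ZMod r)

/-- GR-E4 (RECt) : the tame place `r`: the unit part of a local norm lies in `Hr`. -/
def Stmt_RECt : Prop :=
  ∀ (r : ℕ) [Fact r.Prime] (Hr : Subgroup (ZMod r)ˣ) (a : ℚˣ), IsLocNorm r r Hr a →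
    ∀ u : (ZMod r)ˣ, IsUnitPart r a u → u ∈ Hr

/-- GR-E5 (RECe) : the elementary product formula. -/
def Stmt_RECe : Prop :=
  ∀ (r l : ℕ) [Fact r.Prime] [Fact l.Prime] (Hr : Subgroup (ZMod r)ˣ), Odd Hr.index → l ≠ r →
    ∀ a : ℚˣ,
    (∀ (q : ℕ) [Fact q.Prime], q ≠ r → q ≠ l → ∀ u : (ZMod r)ˣ, (u : ZMod r) = (q : ZMod r) →
      u ^ padicValRat q (a : ℚ) ∈ Hr) →
    (∀ u : (ZMod r)ˣ, IsUnitPart r a u → u ∈ Hr) →
    ∀ u : (ZMod r)ˣ, (u : ZMod r) = (l : ZMod r) → u ^ padicValRat l (a : ℚ) ∈ Hr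

/-- (REC) : reciprocity: a rational number which is a local norm from `L` at all `q ≠ l` is a
local norm at `l`. -/
def Stmt_REC : Prop :=
  ∀ (r l : ℕ) [Fact r.Prime] [Fact l.Prime] (Hr : Subgroup (ZMod r)ˣ), Odd Hr.index → l ≠ r →
    ∀ a : ℚˣ, (∀ (q : ℕ) [Fact q.Prime], q ≠ l → IsLocNorm q r Hr a) → IsLocNorm l r Hr a

/-- GR-E6 (AUX) : the auxiliary prime and subgroup. -/
def Stmt_AUX : Prop :=
  ∀ (p l : ℕ) [Fact p.Prime] [Fact l.Prime], p ≠ 2 →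
    ∃ (r : ℕ) (_ : Fact r.Prime) (Hr : Subgroup (ZMod r)ˣ), r ≠ p ∧ l ≠ r ∧ Odd Hr.index ∧
      ∀ u : (ZMod r)ˣ, (u : ZMod r) = (l : ZMod r) → ∀ k : ℕ, u ^ k ∈ Hr → p ∣ k

/-! ### F. the deliverable -/

/-- **(GRw)** weak reciprocity for the arithmetic datum. -/
def Stmt_GRw : Prop :=
  ∀ (p : ℕ) [Fact p.Prime], p ≠ 2 → ∀ (S : Finset Nat.Primes), pPrime p ∈ S →
    ∀ h : CycloTriv p S, (qDatum p S h).InGRw

end Fermat.Agent.CFT.GR

end
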