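/-
TEAM CFT, layer [GLOB-GR], GR-E6 (AUX): the auxiliary prime `r` and the subgroup `Hr`.
-/
import Fermat.Agent.CFT.GR.Interface
import Fermat.Agent.CFT.Global.CycChar

set_option autoImplicit false

namespace Fermat.Agent.CFT.GR

theorem gr_aux : Stmt_AUX := by
  intro p l hp hl hp2
  obtain ⟨r, hr, hrp, -, u0, hu0, hord⟩ :=
    Fermat.Agent.CFT.Global.CycChar.exists_prime_orderOf p l hl.out.two_le 0
  have hrF : Fact r.Prime := ⟨hr⟩
  have hr1 : r - 1 ≠ 0 := by have := hr.two_le; omega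
  obtain ⟨e, m, hpm, hrm⟩ := Nat.exists_eq_pow_mul_and_not_dvd hr1 p hp.out.ne_one
  have hcard : Nat.card (ZMod r)ˣ = r - 1 := by
    rw [Nat.card_eq_fintype_card, ZMod.card_units_eq_totient, Nat.totient_prime hr]
  refine ⟨r, hrF, (powMonoidHom m : (ZMod r)ˣ →* (ZMod r)ˣ).ker, hrp, ?_, ?_, ?_⟩
  · rintro rfl
    have h0 : ((u0 : (ZMod l)ˣ) : ZMod l) = 0 := by rw [hu0]; exact ZMod.natCast_self l
    exact u0.ne_zero h0
  · rw [Subgroup.index_ker]
    have hP : IsPGroup p (powMonoidHom m : (ZMod r)ˣ →* (ZMod r)ˣ).range := by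
      rintro ⟨y, x, rfl⟩
      refine ⟨e, ?_⟩
      apply Subtype.ext
      change (x ^ m) ^ p ^ e = 1
      rw [← pow_mul, mul_comm, ← hrm, ← hcard]
      exact pow_card_eq_one'
    obtain ⟨n, hn⟩ := IsPGroup.iff_card.1 hP
    rw [hn]
    exact (hp.out.odd_of_ne_two hp2).pow
  · intro u hu k hk
    have huu : u = u0 := Units.ext (by rw [hu, hu0])
    subst huu
    rw [MonoidHom.mem_ker, powMonoidHom_apply, ← pow_mul] at hk
    have h1 : p ^ (0 + 2) ∣ k * m := by
      rw [← hord]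
      exact orderOf_dvd_of_pow_eq_one hk
    have h2 : p ∣ k * m := Dvd.dvd.trans (dvd_pow_self p (by norm_num)) h1
    exact (hp.out.dvd_mul.1 h2).resolve_right hpm

end Fermat.Agent.CFT.GR
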