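/-
TEAM CFT, layer [GLOB-GR], package GR-D1 (DI1): a level constant `μ_p`-cocycle `f` gives the layer
cocycles `ζ ^ f`.
-/
import Fermat.Agent.CFT.GR.Interface
import Fermat.Agent.CFT.CycloBridge

set_option autoImplicit false

noncomputable section

namespace Fermat.Agent.CFT.GR

open groupCohomology Fermat.Agent.CFT.Top Fermat.Agent.CFT.Local ExtCitation

attribute [local instance] Units.mulDistribMulActionRight
attribute [local instance] quotAct

/-- exponents only matter modulo `p`. -/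
theorem DI1_pow_congr {X : Type} [Monoid X] {p : ℕ} {z : X} (hz : z ^ p = 1) {a b : ℕ}
    (hab : (a : ZMod p) = (b : ZMod p)) : z ^ a = z ^ b := by
  have h : a % p = b % p := (ZMod.natCast_eq_natCast_iff a b p).1 hab
  rw [pow_eq_pow_mod a hz, pow_eq_pow_mod b hz, h]

theorem di1 : Stmt_DI1 := by
  intro p _ S ζ hζ f hf
  have hp : NeZero p := ⟨(Fact.out : p.Prime).ne_zero⟩
  have h1p : Fact (1 < p) := ⟨(Fact.out : p.Prime).one_lt⟩
  obtain ⟨hcoc, hC2⟩ := mem_Z2.1 hf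
  have coc : ∀ g h j : GQ, f (g * h, j) + f (g, h) =
      ((cycloChar p g : (ZMod p)ˣ) : ZMod p) * f (h, j) + f (g, h * j) := fun g h j => hcoc g h j
  obtain ⟨U₀, hU₀, hlev, -⟩ := mem_C2.1 hC2
  have lev : ∀ g h : GQ, ∀ u ∈ U₀, ∀ u' ∈ U₀, f (g * u, h * u') = f (g, h) := hlev
  refine ⟨U₀, hU₀, ?_⟩
  intro U _ hUU₀ hχ
  have hζp : ζ ^ p = 1 := hζ.pow_eq_one
  have hζ0 : ζ ≠ 0 := hζ.ne_zero hp.out
  have hact : ∀ g : GQ, g • ζ = ζ ^ ((cycloChar p g : (ZMod p)ˣ) : ZMod p).val := fun g =>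
    Fermat.Agent.CFT.apply_eq_pow_cycloChar p g hζp
  have hfix : ζ ∈ FixedPoints.subfield U Qb := by
    intro u
    change (u : GQ) • ζ = ζ
    rw [hact, hχ u.1 u.2, Units.val_one, ZMod.val_one, pow_one]
  let ζU : (FixedPoints.subfield U Qb)ˣ :=
    Units.mk0 (⟨ζ, hfix⟩ : FixedPoints.subfield U Qb) (fun h => hζ0 (congrArg Subtype.val h))
  have hζU : ζU ^ p = 1 := by
    apply Units.ext
    apply Subtype.ext
    simpa [ζU] using hζp
  have hsm : ∀ g : GQ, (g : GQ ⧸ U) • ζU = ζU ^ ((cycloChar p g : (ZMod p)ˣ) : ZMod p).val := by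
    intro g
    apply Units.ext
    apply Subtype.ext
    have h1 : ((((g : GQ ⧸ U) • ζU : (FixedPoints.subfield U Qb)ˣ) :
        FixedPoints.subfield U Qb) : Qb) = g • ζ := rfl
    rw [h1, hact]
    simp [ζU]
  let β : (GQ ⧸ U) × (GQ ⧸ U) → (FixedPoints.subfield U Qb)ˣ :=
    fun x => ζU ^ (f (x.1.out, x.2.out)).val
  have hβ : ∀ g h : GQ, β ((g : GQ ⧸ U), (h : GQ ⧸ U)) = ζU ^ (f (g, h)).val := by
    intro g h
    obtain ⟨u, hu⟩ := QuotientGroup.mk_out_eq_mul U g
    obtain ⟨u', hu'⟩ := QuotientGroup.mk_out_eq_mul U h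
    change ζU ^ (f ((g : GQ ⧸ U).out, (h : GQ ⧸ U).out)).val = _
    rw [hu, hu', lev g h u (hUU₀ u.2) u' (hUU₀ u'.2)]
  refine ⟨β, ?_, ?_, ?_⟩
  · intro g h
    rw [hβ]
    simp [ζU]
  · intro x y w
    induction x using QuotientGroup.induction_on with
    | H g =>
    induction y using QuotientGroup.induction_on with
    | H h =>
    induction w using QuotientGroup.induction_on with
    | H j =>
    rw [← QuotientGroup.mk_mul, ← QuotientGroup.mk_mul, hβ, hβ, hβ, hβ, smul_pow', hsm,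
      ← pow_mul, ← pow_add, ← pow_add]
    apply DI1_pow_congr hζU
    push_cast
    simp only [ZMod.natCast_zmod_val]
    exact coc g h j
  · intro x
    change (ζU ^ _) ^ p = 1
    rw [← pow_mul, mul_comm, pow_mul, hζU, one_pow]

end Fermat.Agent.CFT.GR
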