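import Fermat.Agent.CFT.GR.Interface
import Fermat.Agent.CFT.Local.Final
import Fermat.Agent.CFT.CycloBridge

/-! # CFT / GR, package D2 (DI2): local triviality with `μ_p`-coefficients ⟹ the layer cocycle
splits locally (helper29) -/

set_option autoImplicit false

noncomputable section

namespace Fermat.Agent.CFT.GR

open groupCohomology Fermat.Agent.CFT.Top Fermat.Agent.CFT.Local ExtCitation

attribute [local instance] Units.mulDistribMulActionRight
attribute [local instance] quotAct

/-- pull back of a 2-cocycle is a 2-cocycle -/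
theorem DI2_pull_cocycle {G L G' L' : Type} [Group G] [Field L] [MulSemiringAction G L]
    [Group G'] [Field L'] [MulSemiringAction G' L'] (X : ActHom G L G' L') (β : G × G → Lˣ)
    (hβ : IsMulCocycle₂ β) : IsMulCocycle₂ (X.pull₂ β) := by
  intro g h j
  have := congrArg X.u (hβ (X.f g) (X.f h) (X.f j))
  rw [map_mul, map_mul, X.u_smul] at this
  simpa only [ActHom.pull₂, map_mul] using this

/-- powers of an element of order dividing `p` only depend on the exponent modulo `p` -/
theorem DI2_zpow {X : Type} [Group X] {p : ℕ} [NeZero p] {z : X} (hz : z ^ p = 1) (n : ℤ)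
    (a : ZMod p) (h : (n : ZMod p) = a) : z ^ n = z ^ a.val := by
  have h1 : ((n - (a.val : ℤ) : ℤ) : ZMod p) = 0 := by
    push_cast
    rw [h, ZMod.natCast_val, ZMod.cast_id, sub_self]
  obtain ⟨k, hk⟩ := (ZMod.intCast_zmod_eq_zero_iff_dvd _ p).1 h1
  have h2 : n = (a.val : ℤ) + p * k := by omega
  rw [h2, zpow_add, zpow_mul, zpow_natCast, zpow_natCast, hz, one_zpow, mul_one]

theorem DI2_ker_mem (p : ℕ) [Fact p.Prime] : (cycloChar p).ker ∈ levAll.S := by
  refine ⟨inferInstance, cycloField p, inferInstance, ?_⟩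
  intro s hs
  exact MonoidHom.mem_ker.2 ((cycloChar_eq_one_iff_mem_fixingSubgroup p s).2 hs)

theorem di2 (hDL : Stmt_DL) : Stmt_DI2 := by
  intro p q _ _ ζ hζ f U _ hU β hβz hβ hloc
  obtain ⟨c, ⟨V, hV, hcV⟩, hc⟩ := hloc
  have hp : NeZero p := ⟨(Fact.out : p.Prime).ne_zero⟩
  have hζp : ζ ^ p = 1 := hζ.pow_eq_one
  have hζ0 : ζ ≠ 0 := hζ.ne_zero hp.out
  -- the root of unity in `PadicAlgCl q`
  obtain ⟨zu, hzudef⟩ : ∃ zu : (PadicAlgCl q)ˣ, zu = (padicHom q).u (Units.mk0 ζ hζ0) := ⟨_, rfl⟩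
  have hzu : zu ^ p = 1 := by
    rw [hzudef, ← map_pow]
    have : (Units.mk0 ζ hζ0) ^ p = 1 := Units.ext hζp
    rw [this, map_one]
  have hact : ∀ g : Gq q, g • zu
      = zu ^ ((cycloChar p (localGaloisToGlobal q g) : (ZMod p)ˣ) : ZMod p).val := by
    intro g
    rw [hzudef]
    refine ((padicHom q).u_smul g _).symm.trans ?_
    rw [← map_pow]
    congr 1
    apply Units.ext
    exact apply_eq_pow_cycloChar p (localGaloisToGlobal q g) hζp
  -- the level of `γ`
  obtain ⟨V', hV', hV'V, hV'W⟩ := (levq q).dir V hV ((cycloChar p).ker.comap (localGaloisToGlobal q))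
    ⟨_, DI2_ker_mem p, rfl⟩
  have hfaith : ∀ (W : Subgroup (Gq q)) [W.Normal], W ∈ (levq q).S →
      FaithfulSMul (Gq q ⧸ W) (FixedPoints.subfield W (PadicAlgCl q)) := by
    intro W _ hW
    have := (levq q).fin W hW
    exact ((all_padicTower q).layer W hW).faithful
  refine hDL (Gq q) (PadicAlgCl q) (levq q) hfaith (U.comap (padicHom q).f) ⟨U, hU, rfl⟩ _
    (DI2_pull_cocycle _ β hβ) ⟨fun g => zu ^ (c g).val, ⟨V', hV', ?_, ?_⟩, ?_⟩
  · intro g v hv
    show zu ^ (c (g * v)).val = zu ^ (c g).val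
    rw [hcV g v (hV'V hv)]
  · intro g v hv
    show v • (zu ^ (c g).val) = zu ^ (c g).val
    have h1 : cycloChar p (localGaloisToGlobal q v) = 1 := MonoidHom.mem_ker.1 (hV'W hv)
    have h2 : Fact (1 < p) := ⟨(Fact.out : p.Prime).one_lt⟩
    rw [smul_pow', hact, h1, Units.val_one, ZMod.val_one, pow_one]
  · intro g h
    show g • (zu ^ (c h).val) / zu ^ (c (g * h)).val * zu ^ (c g).val = _
    have e1 : up₂ (U.comap (padicHom q).f) (((padicHom q).layer U).pull₂ β) (g, h)
        = zu ^ (f (localGaloisToGlobal q g, localGaloisToGlobal q h)).val := by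
      rw [hzudef, ← map_pow]
      apply Units.ext
      show (padicHom q).j _ = (padicHom q).j _
      congr 1
      exact hβz _ _
    rw [e1, smul_pow', hact, ← pow_mul, div_eq_mul_inv, ← zpow_natCast, ← zpow_natCast,
      ← zpow_natCast, ← zpow_neg, ← zpow_add, ← zpow_add]
    apply DI2_zpow hzu
    rw [hc]
    push_cast
    simp only [ZMod.natCast_val, ZMod.cast_id', id_eq]
    ring

end Fermat.Agent.CFT.GR

end

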