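/-
TEAM CFT -> S55, layer [GLOB-GR], package GR-B1 (DK): "degree divisible by `p` kills `Br[p]`".

`H²(D, Lˣ)` is cyclic of order `|D|` and `H²(N, Lˣ)` has order `|N|` (local class module), so a
class killed by `p` with `p ∣ [D : N]` is a multiple of `|N|` times the generator and hence
restricts to zero.
-/
import Fermat.Agent.CFT.GR.Interface
import Fermat.Agent.CFT.Local.All
import Fermat.Agent.CFT.Local.TowerLayer

set_option autoImplicit false

noncomputable section

namespace Fermat.Agent.CFT.GR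

open CategoryTheory groupCohomology Fermat.Agent.CFT.Top Fermat.Agent.CFT.Local

attribute [local instance] Units.mulDistribMulActionRight
attribute [local instance] Fermat.Agent.CFT.Local.quotAct

/-- the counting argument: a homomorphism from a cyclic group of order `q * |Y|` to `Y` kills the
`p`-torsion for all `p ∣ q`. -/
theorem DK_abstract {X Y : Type} [AddCommGroup X] [AddCommGroup Y] (r : X →+ Y) (γ : X)
    (hγ : ∀ x : X, ∃ m : ℤ, x = m • γ) (q p : ℕ) (hp : 0 < p)
    (hcard : Nat.card X = q * Nat.card Y) (hpq : p ∣ q) (x : X) (hx : p • x = 0) : r x = 0 := by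
  obtain ⟨m, rfl⟩ := hγ x
  have hord : addOrderOf γ = Nat.card X := by
    apply addOrderOf_eq_card_of_forall_mem_zmultiples
    intro x
    obtain ⟨m, rfl⟩ := hγ x
    exact AddSubgroup.zsmul_mem_zmultiples γ m
  have h1 : ((p : ℤ) * m) • γ = 0 := by
    rw [mul_smul, natCast_zsmul]
    exact hx
  have h2 : ((addOrderOf γ : ℕ) : ℤ) ∣ (p : ℤ) * m := addOrderOf_dvd_iff_zsmul_eq_zero.2 h1
  obtain ⟨q', rfl⟩ := hpq
  rw [hord, hcard] at h2
  push_cast at h2
  have h3 : ((q' : ℤ) * (Nat.card Y : ℤ)) ∣ m := by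
    rw [mul_assoc] at h2
    exact (mul_dvd_mul_iff_left (by exact_mod_cast hp.ne')).1 h2
  obtain ⟨k, rfl⟩ := (Dvd.intro_left _ rfl : (Nat.card Y : ℤ) ∣ (q' : ℤ) * (Nat.card Y : ℤ)).trans h3
  rw [map_zsmul, mul_comm, mul_smul, natCast_zsmul, card_nsmul_eq_zero', smul_zero]

/-- GR-B1 (DK) -/
theorem dk : Stmt_DK := by
  intro D L _ _ _ _ hLA N _ p hp hpN β hβ hβp
  have hC := all_classModule D L hLA
  obtain ⟨-, hcardT, hcycT⟩ := hC ⊤
  obtain ⟨-, hcardN, -⟩ := hC N
  have T := P0.topIso (unitsRep D L) 2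
  obtain ⟨γ, hγ⟩ := TowerLayer_transport T hcycT
  have hcardD : Nat.card (groupCohomology (unitsRep D L) 2) = Nat.card D := by
    rw [Nat.card_congr T.toLinearEquiv.toEquiv, hcardT, Subgroup.card_top]
  have hcard : Nat.card (groupCohomology (unitsRep D L) 2) =
      Nat.card (D ⧸ N) * Nat.card (groupCohomology (Rep.res N.subtype (unitsRep D L)) 2) := by
    rw [hcardD, hcardN, Subgroup.card_eq_card_quotient_mul_card_subgroup N]
  -- the class of `β`
  have hx : p • (H2π (unitsRep D L)).hom (cocyclesOfIsMulCocycle₂ hβ) = 0 := by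
    rw [← map_nsmul]
    apply (H2π_eq_zero_iff _).2
    exact (coboundariesOfIsMulCoboundary₂ hβp).2
  have h0 := DK_abstract (P0.resMap (unitsRep D L) N 2).hom.toAddMonoidHom γ hγ _ p hp.pos hcard
    hpN _ hx
  -- the restricted cocycle
  have hβN : IsMulCocycle₂ (resTo N β) := fun g h j => hβ g h j
  have h1 : (P0.resMap (unitsRep D L) N 2).hom
      ((H2π (unitsRep D L)).hom (cocyclesOfIsMulCocycle₂ hβ)) =
      (H2π (unitsRep N L)).hom (cocyclesOfIsMulCocycle₂ hβN) := by
    refine P0.CycH2.map_H2π_eq (f := N.subtype) (φ := 𝟙 _) _ _ _ _ ?_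
    have h00 : ∀ c : N × N → unitsRep N L, c - c ∈ coboundaries₂ (unitsRep N L) := fun c => by
      rw [sub_self]
      exact zero_mem _
    exact h00 _
  have h2 : (H2π (unitsRep N L)).hom (cocyclesOfIsMulCocycle₂ hβN) = 0 := h1.symm.trans h0
  exact isMulCoboundary₂_of_mem_coboundaries₂ _ ((H2π_eq_zero_iff _).1 h2)

end Fermat.Agent.CFT.GR

end
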