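/-
TEAM CFT -> S55, layer [GLOB-GR], GR-A3 (DL): inflation is injective on `H²`, explicit cochain form.
-/
import Fermat.Agent.CFT.GR.Interface
import Fermat.Agent.CFT.Local.H90

set_option autoImplicit false

noncomputable section

namespace Fermat.Agent.CFT.GR

open groupCohomology Fermat.Agent.CFT.Top Fermat.Agent.CFT.Local ExtCitation

attribute [local instance] Units.mulDistribMulActionRight
attribute [local instance] quotAct

namespace DLAux

theorem L1 {M : Type} [CommGroup M] (a b c d : M) (h : a / c * b = d) :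
    c / d = a / d * (b / d) := by
  have hc : c = a * b / d := by
    rw [← h, div_mul_eq_mul_div, div_div_eq_mul_div, mul_div_cancel_left]
  rw [hc, div_mul_div_comm, div_div]

theorem L2 {M : Type} [CommGroup M] (a b c P Q Y : M) :
    (a * P / Q) / (c * Y / Q) * (b * Y / P) = a / c * b := by
  rw [div_div_div_cancel_right, div_mul_div_comm, div_mul_eq_mul_div, div_eq_div_iff_mul_eq_mul]
  ac_rfl

theorem L3 {M : Type} [CommGroup M] (b d P Y : M) (h : P / Y = b / d) : b * Y / P = d := by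
  rw [div_eq_div_iff_mul_eq_mul] at h
  rw [div_eq_iff_eq_mul, mul_comm d P, h]

theorem L4 {M : Type} [CommGroup M] (e x y : M) (h : e / x * y = e) : x = y := by
  rw [div_mul_eq_mul_div, div_eq_iff_eq_mul] at h
  exact (mul_left_cancel h).symm

theorem L5 {M : Type} [CommGroup M] (a x d : M) (h : a / x * d = d) : x = a := by
  rw [mul_eq_right, div_eq_one] at h
  exact h.symm

variable {𝒢 Ω : Type} [Group 𝒢] [Field Ω] [MulSemiringAction 𝒢 Ω]

theorem layU_smul (W : Subgroup 𝒢) [W.Normal] (g : 𝒢) (a : (FixedPoints.subfield W Ω)ˣ) :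
    layU W ((g : 𝒢 ⧸ W) • a) = g • layU W a := Units.ext rfl

theorem layU_injective (W : Subgroup 𝒢) : Function.Injective (layU (Ω := Ω) W) := by
  intro a b hab
  apply Units.ext
  apply Subtype.ext
  exact congrArg (fun u : Ωˣ => (u : Ω)) hab

theorem layU_fixed (W : Subgroup 𝒢) (a : (FixedPoints.subfield W Ω)ˣ) (w : 𝒢) (hw : w ∈ W) :
    w • layU W a = layU W a := Units.ext ((a : FixedPoints.subfield W Ω).2 ⟨w, hw⟩)

/-- a cochain of level `W` descends to the layer. -/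
theorem exists_descend (W : Subgroup 𝒢) [W.Normal] (δ : 𝒢 → Ωˣ) (h1 : RInv W δ)
    (h2 : ∀ g : 𝒢, ∀ w ∈ W, w • δ g = δ g) :
    ∃ δ' : 𝒢 ⧸ W → (FixedPoints.subfield W Ω)ˣ, ∀ g : 𝒢, layU W (δ' (g : 𝒢 ⧸ W)) = δ g := by
  refine ⟨fun q => Units.mk0 ⟨(δ (Quotient.out q) : Ω), fun w =>
    congrArg (fun u : Ωˣ => (u : Ω)) (h2 _ w.1 w.2)⟩ (fun h =>
      (δ (Quotient.out q)).ne_zero (congrArg (fun x : FixedPoints.subfield W Ω => (x : Ω)) h)), ?_⟩
  intro g
  obtain ⟨w, hw⟩ := QuotientGroup.mk_out_eq_mul W g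
  have h3 : δ (Quotient.out (g : 𝒢 ⧸ W)) = δ g := by
    rw [hw]
    exact h1 g w.1 w.2
  rw [← h3]
  exact Units.ext rfl

end DLAux

open DLAux in
/-- GR-A3 (DL). -/
theorem dl : Stmt_DL := by
  intro 𝒢 Ω _ _ _ 𝒰 hfaith U _ hU β hβ hγ
  obtain ⟨γ, ⟨V₀, hV₀, hR₀, hF₀⟩, hγ⟩ := hγ
  obtain ⟨V, hV, hVV₀, hVU⟩ := 𝒰.dir V₀ hV₀ U hU
  have hR : RInv V γ := fun g v hv => hR₀ g v (hVV₀ hv)
  have hF : ∀ g : 𝒢, ∀ v ∈ V, v • γ g = γ g := fun g v hv => hF₀ g v (hVV₀ hv)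
  have hVn := 𝒰.normal V hV
  have hVf := 𝒰.fin V hV
  have hfin : Finite (𝒢 ⧸ V) := Subgroup.finite_quotient_of_finiteIndex
  have hfa := hfaith V hV
  set b1 : Ωˣ := layU U (β (1, 1)) with hb1
  have hmk : ∀ u ∈ U, ((u : 𝒢) : 𝒢 ⧸ U) = 1 := fun u hu => (QuotientGroup.eq_one_iff u).2 hu
  have hBug : ∀ u ∈ U, ∀ g : 𝒢, up₂ U β (u, g) = b1 := by
    intro u hu g
    show layU U (β ((u : 𝒢 ⧸ U), (g : 𝒢 ⧸ U))) = _
    rw [hmk u hu, map_one_fst_of_isMulCocycle₂ hβ]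
  have hBgu : ∀ u ∈ U, ∀ g : 𝒢, up₂ U β (g, u) = g • b1 := by
    intro u hu g
    show layU U (β ((g : 𝒢 ⧸ U), (u : 𝒢 ⧸ U))) = _
    rw [hmk u hu, map_one_snd_of_isMulCocycle₂ hβ, layU_smul]
  have hb1U : ∀ u ∈ U, u • b1 = b1 := fun u hu => layU_fixed U _ u hu
  -- descend `γ / b1` to the layer `V`
  obtain ⟨c, hc⟩ := exists_descend V (fun g => γ g / b1)
    (fun g v hv => by
      show γ (g * v) / b1 = γ g / b1
      rw [hR g v hv])
    (fun g v hv => by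
      show v • (γ g / b1) = γ g / b1
      rw [smul_div', hF g v hv, hb1U v (hVU hv)])
  -- Hilbert 90 for `U / V`
  let H : Subgroup (𝒢 ⧸ V) := U.map (QuotientGroup.mk' V)
  have hfaH : FaithfulSMul H (FixedPoints.subfield V Ω) :=
    ⟨fun hab => Subtype.ext (hfa.eq_of_smul_eq_smul hab)⟩
  have hcoc : IsMulCocycle₁ (fun h : H => c (h : 𝒢 ⧸ V)) := by
    rintro ⟨_, u, hu, rfl⟩ ⟨_, u', hu', rfl⟩
    apply layU_injective V
    show layU V (c ((u : 𝒢 ⧸ V) * (u' : 𝒢 ⧸ V))) =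
      layU V ((u : 𝒢 ⧸ V) • c (u' : 𝒢 ⧸ V) * c (u : 𝒢 ⧸ V))
    rw [← QuotientGroup.mk_mul, map_mul, layU_smul, hc, hc, hc, smul_div', hb1U u hu]
    apply L1
    rw [hγ, hBug u hu]
  obtain ⟨y, hy⟩ := H90_isMulCoboundary₁ _ hcoc
  set Y : Ωˣ := layU V y with hY
  have hYu : ∀ u ∈ U, u • Y / Y = γ u / b1 := by
    intro u hu
    have h1 := hy ⟨(u : 𝒢 ⧸ V), u, hu, rfl⟩
    have h2 := congrArg (layU V) h1
    rw [hc, map_div] at h2
    rw [← h2, hY, ← layU_smul]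
    rfl
  -- the modified cochain
  let γ' : 𝒢 → Ωˣ := fun g => γ g * Y / (g • Y)
  have hγ' : ∀ g h : 𝒢, g • γ' h / γ' (g * h) * γ' g = up₂ U β (g, h) := by
    intro g h
    rw [← hγ]
    show g • (γ h * Y / (h • Y)) / (γ (g * h) * Y / ((g * h) • Y)) * (γ g * Y / (g • Y)) = _
    rw [smul_div', smul_mul', ← mul_smul]
    exact L2 _ _ _ _ _ _
  have hγ'u : ∀ u ∈ U, γ' u = b1 := fun u hu => L3 _ _ _ _ (hYu u hu)
  have hγ'gu : ∀ g : 𝒢, ∀ u ∈ U, γ' (g * u) = γ' g := by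
    intro g u hu
    have h1 := hγ' g u
    rw [hBgu u hu, hγ'u u hu] at h1
    exact L4 _ _ _ h1
  have hγ'ug : ∀ g : 𝒢, ∀ u ∈ U, γ' (u * g) = u • γ' g := by
    intro g u hu
    have h1 := hγ' u g
    rw [hBug u hu, hγ'u u hu] at h1
    exact L5 _ _ _ h1
  have hγ'fix : ∀ g : 𝒢, ∀ u ∈ U, u • γ' g = γ' g := by
    intro g u hu
    rw [← hγ'ug g u hu]
    have h1 : u * g = g * (g⁻¹ * u * g) := by group
    rw [h1]
    apply hγ'gu
    have := (inferInstance : U.Normal).conj_mem u hu g⁻¹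
    simpa using this
  obtain ⟨x, hx⟩ := exists_descend U γ' hγ'gu hγ'fix
  refine ⟨x, ?_⟩
  intro g h
  induction g using QuotientGroup.induction_on with
  | H g =>
  induction h using QuotientGroup.induction_on with
  | H h =>
  apply layU_injective U
  rw [map_mul, map_div, layU_smul, ← QuotientGroup.mk_mul, hx, hx, hx, hγ']
  rfl

end Fermat.Agent.CFT.GR

end
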