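/-
TEAM CFT -> S55, layer [GLOB-GR] (architect helper74): second interface file:
the glue between the Hasse principle in raw form (team HPG) and the layer form consumed by GR.
-/
import Fermat.Agent.CFT.GR.Interface

set_option autoImplicit false

noncomputable section

namespace Fermat.Agent.CFT.GR

open groupCohomology Fermat.Agent.CFT.Top Fermat.Agent.CFT.Local ExtCitation

attribute [local instance] Units.mulDistribMulActionRight
attribute [local instance] quotAct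

/-- the raw cochain `f` (values in `μ_p`) is, on the subgroup `Nq ≤ G_{ℚ_q}`, the coboundary of a
level constant `μ_p`-valued cochain. -/
def LocTrivOn (p q : ℕ) [Fact p.Prime] [Fact q.Prime] (f : GQ × GQ → ZMod p)
    (Nq : Subgroup (Gq q)) : Prop :=
  ∃ c : Gq q → ZMod p, (∃ V ∈ (levq q).S, RInv V c) ∧
    ∀ g ∈ Nq, ∀ h ∈ Nq, f (localGaloisToGlobal q g, localGaloisToGlobal q h) =
      ((cycloChar p (localGaloisToGlobal q g) : (ZMod p)ˣ) : ZMod p) * c h - c (g * h) + c g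

/-- GR-D6 (DOsub) : subgroup version of `Stmt_DO`. -/
def Stmt_DOsub : Prop :=
  ∀ (p q : ℕ) [Fact p.Prime] [Fact q.Prime] (ζ : Qb), IsPrimitiveRoot ζ p →
    ∀ (f : GQ × GQ → ZMod p) (U N : Subgroup GQ) [U.Normal], U ∈ levAll.S → U ≤ N →
    ∀ β : (GQ ⧸ U) × (GQ ⧸ U) → (FixedPoints.subfield U Qb)ˣ, IsZetaPow ζ f U β →
      IsMulCocycle₂ β →
      IsMulCoboundary₂ (resTo ((N.map (QuotientGroup.mk' U)).comap ((padicHom q).layer U).f)
        (((padicHom q).layer U).pull₂ β)) →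
      LocTrivOn p q f (N.comap (localGaloisToGlobal q))

/-- GR-A5 (DLsub) : subgroup version of `Stmt_DL`. -/
def Stmt_DLsub : Prop :=
  ∀ (𝒢 Ω : Type) [Group 𝒢] [Field Ω] [MulSemiringAction 𝒢 Ω] (𝒰 : LevelSys 𝒢),
    (∀ (V : Subgroup 𝒢) [V.Normal], V ∈ 𝒰.S → FaithfulSMul (𝒢 ⧸ V) (FixedPoints.subfield V Ω)) →
    ∀ (U N : Subgroup 𝒢) [U.Normal], U ∈ 𝒰.S → U ≤ N →
    ∀ β : (𝒢 ⧸ U) × (𝒢 ⧸ U) → (FixedPoints.subfield U Ω)ˣ, IsMulCocycle₂ β →
    (∃ γ : 𝒢 → Ωˣ, (∃ V ∈ 𝒰.S, RInv V γ ∧ ∀ g : 𝒢, ∀ v ∈ V, v • γ g = γ g) ∧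
      ∀ g ∈ N, ∀ h ∈ N, g • γ h / γ (g * h) * γ g = up₂ U β (g, h)) →
    IsMulCoboundary₂ (resTo (N.map (QuotientGroup.mk' U)) β)

/-- (HPN) : **the Hasse principle in raw form, local conditions at the standard places only.**
`N` open normal in `G_ℚ`, `f` a twisted cocycle on `G_ℚ` of finite level. -/
def Stmt_HPN : Prop :=
  ∀ (p : ℕ) [Fact p.Prime], p ≠ 2 → ∀ (ζ : Qb), IsPrimitiveRoot ζ p →
    ∀ (f : GQ × GQ → ZMod p) (U N : Subgroup GQ) [U.Normal] [N.Normal], U ∈ levAll.S → U ≤ N →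
    (∀ g h : GQ, ∀ u ∈ U, ∀ u' ∈ U, f (g * u, h * u') = f (g, h)) →
    (∀ g h j : GQ, f (g * h, j) + f (g, h) =
      ((cycloChar p g : (ZMod p)ˣ) : ZMod p) * f (h, j) + f (g, h * j)) →
    (∀ (q : ℕ) [Fact q.Prime], LocTrivOn p q f (N.comap (localGaloisToGlobal q))) →
    ∃ γ : GQ → Qbˣ, (∃ V ∈ levAll.S, RInv V γ ∧ ∀ g : GQ, ∀ v ∈ V, v • γ g = γ g) ∧
      ∀ g ∈ N, ∀ h ∈ N, ((g • γ h / γ (g * h) * γ g : Qbˣ) : Qb) = ζ ^ (f (g, h)).val

/-- GR-C2' (HPGR') : the Hasse principle in the layer form consumed by the core of GR. -/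
def Stmt_HPGR' : Prop :=
  ∀ (p : ℕ) [Fact p.Prime], p ≠ 2 → ∀ (ζ : Qb), IsPrimitiveRoot ζ p →
    ∀ (f : GQ × GQ → ZMod p) (U N : Subgroup GQ) [U.Normal] [N.Normal], U ∈ levAll.S → U ≤ N →
    ∀ β : (GQ ⧸ U) × (GQ ⧸ U) → (FixedPoints.subfield U Qb)ˣ, IsZetaPow ζ f U β →
    IsMulCocycle₂ β →
    (∀ (q : ℕ) [Fact q.Prime], IsMulCoboundary₂
      (resTo ((N.map (QuotientGroup.mk' U)).comap ((padicHom q).layer U).f)
        (((padicHom q).layer U).pull₂ β))) →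
    IsMulCoboundary₂ (resTo (N.map (QuotientGroup.mk' U)) β)

end Fermat.Agent.CFT.GR

end
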