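/-
TEAM CFT -> S55, layer [GLOB-GR], GR-A5 (DLsub): subgroup version of DL.
-/
import Fermat.Agent.CFT.GR.Interface2
import Fermat.Agent.CFT.GR.DL

set_option autoImplicit false

noncomputable section

namespace Fermat.Agent.CFT.GR

open groupCohomology Fermat.Agent.CFT.Top Fermat.Agent.CFT.Local ExtCitation

attribute [local instance] Units.mulDistribMulActionRight
attribute [local instance] quotAct

open DLAux in
/-- GR-A5 (DLsub). -/
theorem dlsub : Stmt_DLsub := by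
  classical
  intro 𝒢 Ω _ _ _ 𝒰 hfaith U N _ hU hUN β hβ hγ
  obtain ⟨γ, ⟨V₀, hV₀, hR₀, hF₀⟩, hγ⟩ := hγ
  obtain ⟨V, hV, hVV₀, hVU⟩ := 𝒰.dir V₀ hV₀ U hU
  have hR : RInv V γ := fun g v hv => hR₀ g v (hVV₀ hv)
  have hF : ∀ g : 𝒢, ∀ v ∈ V, v • γ g = γ g := fun g v hv => hF₀ g v (hVV₀ hv)
  have hVn := 𝒰.normal V hV
  have hVf := 𝒰.fin V hV
  have hfin : Finite (𝒢 ⧸ V) := Subgroup.finite_quotient_of_finiteIndex
  have hfa := hfaith V hV
  set b1 : Ωˣ := layU U (β (1, 1)) with hb1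
  have hmk : ∀ u ∈ U, ((u : 𝒢) : 𝒢 ⧸ U) = 1 := fun u hu => (QuotientGroup.eq_one_iff u).2 hu
  have hBug : ∀ u ∈ U, ∀ g : 𝒢, up₂ U β (u, g) = b1 := by
    intro u hu g
    show layU U (β ((u : 𝒢 ⧸ U), (g : 𝒢 ⧸ U))) = _
    rw [hmk u hu, map_one_fst_of_isMulCocycle₂ hβ]
  have hBgu : ∀ u ∈ U, ∀ g : 𝒢, up₂ U β (g, u) = g • b1 := by
    intro u hu g
    show layU U (β ((g : 𝒢 ⧸ U), (u : 𝒢 ⧸ U))) = _
    rw [hmk u hu, map_one_snd_of_isMulCocycle₂ hβ, layU_smul]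
  have hb1U : ∀ u ∈ U, u • b1 = b1 := fun u hu => layU_fixed U _ u hu
  -- descend `γ / b1` to the layer `V`
  obtain ⟨c, hc⟩ := exists_descend V (fun g => γ g / b1)
    (fun g v hv => by
      show γ (g * v) / b1 = γ g / b1
      rw [hR g v hv])
    (fun g v hv => by
      show v • (γ g / b1) = γ g / b1
      rw [smul_div', hF g v hv, hb1U v (hVU hv)])
  -- Hilbert 90 for `U / V`
  let H : Subgroup (𝒢 ⧸ V) := U.map (QuotientGroup.mk' V)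
  have hfaH : FaithfulSMul H (FixedPoints.subfield V Ω) :=
    ⟨fun hab => Subtype.ext (hfa.eq_of_smul_eq_smul hab)⟩
  have hcoc : IsMulCocycle₁ (fun h : H => c (h : 𝒢 ⧸ V)) := by
    rintro ⟨_, u, hu, rfl⟩ ⟨_, u', hu', rfl⟩
    apply layU_injective V
    show layU V (c ((u : 𝒢 ⧸ V) * (u' : 𝒢 ⧸ V))) =
      layU V ((u : 𝒢 ⧸ V) • c (u' : 𝒢 ⧸ V) * c (u : 𝒢 ⧸ V))
    rw [← QuotientGroup.mk_mul, map_mul, layU_smul, hc, hc, hc, smul_div', hb1U u hu]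
    apply L1
    rw [hγ u (hUN hu) u' (hUN hu'), hBug u hu]
  obtain ⟨y, hy⟩ := H90_isMulCoboundary₁ _ hcoc
  set Y : Ωˣ := layU V y with hY
  have hYu : ∀ u ∈ U, u • Y / Y = γ u / b1 := by
    intro u hu
    have h1 := hy ⟨(u : 𝒢 ⧸ V), u, hu, rfl⟩
    have h2 := congrArg (layU V) h1
    rw [hc, map_div] at h2
    rw [← h2, hY, ← layU_smul]
    rfl
  -- the modified cochain
  let γ' : 𝒢 → Ωˣ := fun g => γ g * Y / (g • Y)
  have hγ' : ∀ g ∈ N, ∀ h ∈ N, g • γ' h / γ' (g * h) * γ' g = up₂ U β (g, h) := by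
    intro g hg h hh
    rw [← hγ g hg h hh]
    show g • (γ h * Y / (h • Y)) / (γ (g * h) * Y / ((g * h) • Y)) * (γ g * Y / (g • Y)) = _
    rw [smul_div', smul_mul', ← mul_smul]
    exact L2 _ _ _ _ _ _
  have hγ'u : ∀ u ∈ U, γ' u = b1 := fun u hu => L3 _ _ _ _ (hYu u hu)
  have hγ'gu : ∀ g ∈ N, ∀ u ∈ U, γ' (g * u) = γ' g := by
    intro g hg u hu
    have h1 := hγ' g hg u (hUN hu)
    rw [hBgu u hu, hγ'u u hu] at h1
    exact L4 _ _ _ h1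
  have hγ'ug : ∀ g ∈ N, ∀ u ∈ U, γ' (u * g) = u • γ' g := by
    intro g hg u hu
    have h1 := hγ' u (hUN hu) g hg
    rw [hBug u hu, hγ'u u hu] at h1
    exact L5 _ _ _ h1
  have hγ'fix : ∀ g ∈ N, ∀ u ∈ U, u • γ' g = γ' g := by
    intro g hg u hu
    rw [← hγ'ug g hg u hu]
    have h1 : u * g = g * (g⁻¹ * u * g) := by group
    rw [h1]
    apply hγ'gu g hg
    have := (inferInstance : U.Normal).conj_mem u hu g⁻¹
    simpa using this
  -- extend by `1` outside `N`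
  let δ : 𝒢 → Ωˣ := fun g => if g ∈ N then γ' g else 1
  have hδN : ∀ g ∈ N, δ g = γ' g := fun g hg => if_pos hg
  have hδR : RInv U δ := by
    intro g u hu
    by_cases hg : g ∈ N
    · rw [hδN g hg, hδN _ (N.mul_mem hg (hUN hu)), hγ'gu g hg u hu]
    · have hgu : g * u ∉ N := fun h => hg ((N.mul_mem_cancel_right (hUN hu)).1 h)
      show (if g * u ∈ N then γ' (g * u) else 1) = if g ∈ N then γ' g else 1
      rw [if_neg hg, if_neg hgu]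
  have hδF : ∀ g : 𝒢, ∀ u ∈ U, u • δ g = δ g := by
    intro g u hu
    by_cases hg : g ∈ N
    · rw [hδN g hg, hγ'fix g hg u hu]
    · show u • (if g ∈ N then γ' g else 1) = if g ∈ N then γ' g else 1
      rw [if_neg hg, smul_one]
  obtain ⟨x, hx⟩ := exists_descend U δ hδR hδF
  refine ⟨fun q => x (q : 𝒢 ⧸ U), ?_⟩
  rintro ⟨_, g, hg, rfl⟩ ⟨_, h, hh, rfl⟩
  apply layU_injective U
  show layU U ((g : 𝒢 ⧸ U) • x (h : 𝒢 ⧸ U) / x ((g : 𝒢 ⧸ U) * (h : 𝒢 ⧸ U)) * x (g : 𝒢 ⧸ U)) =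
    layU U (β ((g : 𝒢 ⧸ U), (h : 𝒢 ⧸ U)))
  rw [map_mul, map_div, layU_smul, ← QuotientGroup.mk_mul, hx, hx, hx, hδN g hg, hδN h hh,
    hδN _ (N.mul_mem hg hh), hγ' g hg h hh]
  rfl

end Fermat.Agent.CFT.GR

end
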