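/-
TEAM CFT -> S55, layer [GLOB-GR], package GR-D3 (DO) (helper81): a layer cocycle `ζ ^ f` which splits
locally is locally trivial with `μ_p`-coefficients (Kummer theory + Hilbert 90).
-/
import Fermat.Agent.CFT.GR.Interface
import Fermat.Agent.CFT.Local.Final
import Fermat.Agent.CFT.CycloBridge

set_option autoImplicit false

noncomputable section

namespace Fermat.Agent.CFT.GR

open groupCohomology Fermat.Agent.CFT.Top Fermat.Agent.CFT.Local ExtCitation

attribute [local instance] Units.mulDistribMulActionRight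
attribute [local instance] quotAct

namespace DO

section Abstract

variable {𝒢 Ω : Type} [Group 𝒢] [Field Ω] [MulSemiringAction 𝒢 Ω]

lemma layU_smul (W : Subgroup 𝒢) [W.Normal] (g : 𝒢) (a : (FixedPoints.subfield W Ω)ˣ) :
    layU W ((g : 𝒢 ⧸ W) • a) = g • layU W a := Units.ext rfl

lemma layU_injective (W : Subgroup 𝒢) : Function.Injective (layU (Ω := Ω) W) := by
  intro a b h
  apply Units.ext
  apply Subtype.ext
  exact congrArg (fun x : Ωˣ => (x : Ω)) h

/-- comparison of exponents of a primitive root. -/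
lemma pow_eq_pow_iff (p : ℕ) [Fact p.Prime] {z : Ω} (hz : IsPrimitiveRoot z p) (m n : ℕ) :
    z ^ m = z ^ n ↔ (m : ZMod p) = (n : ZMod p) := by
  have hp : p.Prime := Fact.out
  let zU : Ωˣ := Units.mk0 z (hz.ne_zero hp.ne_zero)
  have hzU : IsPrimitiveRoot zU p := IsPrimitiveRoot.coe_units_iff.mp hz
  have e : ∀ k : ℕ, z ^ k = ((zU ^ k : Ωˣ) : Ω) := fun k => by
    rw [Units.val_pow_eq_pow_val]; rfl
  rw [e, e, ← Units.ext_iff, pow_eq_pow_iff_modEq, ← hzU.eq_orderOf, ZMod.natCast_eq_natCast_iff]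

lemma comm_identity {M : Type} [CommGroup M] (A1 A2 A3 A4 A5 t : M) :
    A1 * A5 / A4 / (A2 * t / A4) * (A3 * t / A5) = A1 / A2 * A3 := by
  have h : ∀ a1 a2 a3 a4 a5 s : Additive M,
      a1 + a5 - a4 - (a2 + s - a4) + (a3 + s - a5) = a1 - a2 + a3 := by
    intros
    abel
  exact h (Additive.ofMul A1) (Additive.ofMul A2) (Additive.ofMul A3) (Additive.ofMul A4)
    (Additive.ofMul A5) (Additive.ofMul t)

theorem kummer (p : ℕ) [Fact p.Prime] [IsAlgClosed Ω] (𝒰 : LevelSys 𝒢)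
    (disc : ∀ x : Ω, ∃ U ∈ 𝒰.S, ∀ u ∈ U, u • x = x)
    (W : Subgroup 𝒢) [W.Normal] [Finite (𝒢 ⧸ W)] (hW : W ∈ 𝒰.S)
    [FaithfulSMul (𝒢 ⧸ W) (FixedPoints.subfield W Ω)]
    (z : Ω) (hz : IsPrimitiveRoot z p) (χ : 𝒢 → ZMod p) (hχ : ∀ g : 𝒢, g • z = z ^ (χ g).val)
    (F : 𝒢 × 𝒢 → ZMod p)
    (B : (𝒢 ⧸ W) × (𝒢 ⧸ W) → (FixedPoints.subfield W Ω)ˣ)
    (hB : ∀ g h : 𝒢, ((layU W (B ((g : 𝒢 ⧸ W), (h : 𝒢 ⧸ W))) : Ωˣ) : Ω) = z ^ (F (g, h)).val)
    (hcob : IsMulCoboundary₂ B) :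
    ∃ c : 𝒢 → ZMod p, (∃ V ∈ 𝒰.S, RInv V c) ∧
      ∀ g h : 𝒢, F (g, h) = χ g * c h - c (g * h) + c g := by
  have hp : p.Prime := Fact.out
  have : NeZero p := ⟨hp.ne_zero⟩
  obtain ⟨gbar, hg⟩ := hcob
  -- (1) `B ^ p = 1`
  have hBp : ∀ a b : 𝒢 ⧸ W, B (a, b) ^ p = 1 := by
    intro a b
    induction a using QuotientGroup.induction_on with
    | H a =>
      induction b using QuotientGroup.induction_on with
      | H b =>
        apply layU_injective W
        apply Units.ext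
        rw [map_pow, Units.val_pow_eq_pow_val, hB, map_one, Units.val_one, ← pow_mul, mul_comm,
          pow_mul, hz.pow_eq_one, one_pow]
  have hcoc : IsMulCocycle₁ (fun d : 𝒢 ⧸ W => gbar d ^ p) := by
    intro a b
    have h1 := congrArg (· ^ p) (hg a b)
    simp only [hBp, mul_pow, div_pow] at h1
    show gbar (a * b) ^ p = a • (gbar b ^ p) * gbar a ^ p
    rw [smul_pow']
    rw [div_mul_eq_mul_div, div_eq_one] at h1
    exact h1.symm
  obtain ⟨θ, hθ⟩ := H90_isMulCoboundary₁ _ hcoc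
  -- (2) a `p`-th root of `θ`
  obtain ⟨t, ht⟩ := IsAlgClosed.exists_pow_nat_eq ((layU W θ : Ωˣ) : Ω) hp.pos
  have ht0 : t ≠ 0 := by
    rintro rfl
    rw [zero_pow hp.ne_zero] at ht
    exact (layU W θ).ne_zero ht.symm
  let tU : Ωˣ := Units.mk0 t ht0
  have htU : tU ^ p = layU W θ := Units.ext (by rw [Units.val_pow_eq_pow_val]; exact ht)
  let u : 𝒢 → Ωˣ := fun g => layU W (gbar (g : 𝒢 ⧸ W)) * tU / (g • tU)
  have hup : ∀ g, u g ^ p = 1 := by
    intro g
    have h1 := congrArg (layU W) (hθ (g : 𝒢 ⧸ W))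
    rw [map_div, layU_smul, map_pow] at h1
    show (layU W (gbar (g : 𝒢 ⧸ W)) * tU / (g • tU)) ^ p = 1
    rw [div_pow, mul_pow, ← smul_pow', htU, ← h1]
    rw [div_mul_cancel, div_self']
  have hex : ∀ g, ∃ c : ZMod p, z ^ c.val = ((u g : Ωˣ) : Ω) := by
    intro g
    have h1 : ((u g : Ωˣ) : Ω) ^ p = 1 := by
      rw [← Units.val_pow_eq_pow_val, hup, Units.val_one]
    obtain ⟨i, hi, hzi⟩ := hz.eq_pow_of_pow_eq_one h1
    exact ⟨(i : ZMod p), by rw [ZMod.val_natCast_of_lt hi, hzi]⟩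
  choose c hc using hex
  refine ⟨c, ?_, ?_⟩
  · -- (4) the level
    obtain ⟨V0, hV0, hfix⟩ := disc t
    obtain ⟨V, hV, hVV0, hVW⟩ := 𝒰.dir V0 hV0 W hW
    refine ⟨V, hV, fun g v hv => ?_⟩
    have h1 : u (g * v) = u g := by
      show layU W (gbar ((g * v : 𝒢) : 𝒢 ⧸ W)) * tU / ((g * v) • tU)
        = layU W (gbar (g : 𝒢 ⧸ W)) * tU / (g • tU)
      have e1 : ((g * v : 𝒢) : 𝒢 ⧸ W) = (g : 𝒢 ⧸ W) := by
        rw [QuotientGroup.eq]
        simpa using W.inv_mem (hVW hv)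
      have e2 : v • tU = tU := Units.ext (hfix v (hVV0 hv))
      rw [e1, mul_smul, e2]
    have h2 : z ^ (c (g * v)).val = z ^ (c g).val := by rw [hc, hc, h1]
    rw [pow_eq_pow_iff p hz] at h2
    simpa using h2
  · -- (3) comparison of the exponents
    intro g h
    have h1 : g • u h / u (g * h) * u g = layU W (B ((g : 𝒢 ⧸ W), (h : 𝒢 ⧸ W))) := by
      rw [← hg, map_mul, map_div, layU_smul]
      show g • (layU W (gbar (h : 𝒢 ⧸ W)) * tU / (h • tU))
          / (layU W (gbar ((g * h : 𝒢) : 𝒢 ⧸ W)) * tU / ((g * h) • tU))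
          * (layU W (gbar (g : 𝒢 ⧸ W)) * tU / (g • tU)) = _
      rw [smul_div', smul_mul', mul_smul]
      have e : ((g * h : 𝒢) : 𝒢 ⧸ W) = (g : 𝒢 ⧸ W) * (h : 𝒢 ⧸ W) := rfl
      rw [e]
      exact comm_identity _ _ _ _ _ _
    have h2 : g • u h * u g = layU W (B ((g : 𝒢 ⧸ W), (h : 𝒢 ⧸ W))) * u (g * h) := by
      rw [← h1]
      rw [div_mul_eq_mul_div, div_mul_cancel]
    have h3 := congrArg (fun x : Ωˣ => (x : Ω)) h2
    simp only [Units.val_mul] at h3
    have h4 : ((g • u h : Ωˣ) : Ω) = z ^ ((χ g).val * (c h).val) := by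
      show g • ((u h : Ωˣ) : Ω) = _
      rw [← hc, smul_pow', hχ, ← pow_mul]
    rw [h4, hB, ← hc, ← hc, ← pow_add, ← pow_add, pow_eq_pow_iff p hz] at h3
    push_cast at h3
    simp only [ZMod.natCast_val, ZMod.cast_id', id_eq] at h3
    linear_combination -h3

end Abstract

end DO

open DO in
theorem dO : Stmt_DO := by
  intro p q _ _ ζ hζ f U _ hU β hβ _ hcob
  have hT := all_padicTower q
  have hW : U.comap (localGaloisToGlobal q) ∈ (levq q).S := ⟨U, hU, rfl⟩
  have : (U.comap (localGaloisToGlobal q)).FiniteIndex := (levq q).fin _ hW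
  have : Finite (Gq q ⧸ U.comap (localGaloisToGlobal q)) := inferInstance
  have : FaithfulSMul (Gq q ⧸ U.comap (localGaloisToGlobal q))
      (FixedPoints.subfield (U.comap (localGaloisToGlobal q)) (PadicAlgCl q)) :=
    (hT.layer _ hW).faithful
  have := hT.closed
  have hz : IsPrimitiveRoot (padicEmbedding q ζ) p :=
    hζ.map_of_injective (padicEmbedding q).toRingHom.injective
  refine kummer p (levq q) hT.disc (U.comap (localGaloisToGlobal q)) hW (padicEmbedding q ζ) hz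
    (fun g => ((cycloChar p (localGaloisToGlobal q g) : (ZMod p)ˣ) : ZMod p)) ?_
    (fun x => f (localGaloisToGlobal q x.1, localGaloisToGlobal q x.2))
    (((padicHom q).layer U).pull₂ β) ?_ hcob
  · intro g
    show g (padicEmbedding q ζ) = _
    rw [← padicEmbedding_localGaloisToGlobal, apply_eq_pow_cycloChar p _ hζ.pow_eq_one, map_pow]
  · intro g h
    have h1 := hβ (localGaloisToGlobal q g) (localGaloisToGlobal q h)
    have h2 := congrArg (padicEmbedding q) h1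
    rw [map_pow] at h2
    exact h2

end Fermat.Agent.CFT.GR

end
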