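/-
TEAM CFT -> S55, layer [GLOB-GR], package GR-D6 (DOsub): subgroup version of `Stmt_DO`
(Kummer theory + Hilbert 90).
-/
import Fermat.Agent.CFT.GR.Interface2
import Fermat.Agent.CFT.GR.DL
import Fermat.Agent.CFT.Local.Final
import Fermat.Agent.CFT.CycloBridge

set_option autoImplicit false

noncomputable section

namespace Fermat.Agent.CFT.GR

open groupCohomology Fermat.Agent.CFT.Top Fermat.Agent.CFT.Local ExtCitation

attribute [local instance] Units.mulDistribMulActionRight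
attribute [local instance] Fermat.Agent.CFT.Local.quotAct

namespace DOsubAux

/-! ### exponentials `ZMod p → M` -/

section Exp

variable {M : Type} [CommGroup M] {p : ℕ} [Fact p.Prime]

/-- `a ↦ Z ^ a` -/
def E (Z : M) (a : ZMod p) : M := Z ^ a.val

theorem E_natCast {Z : M} (hZ : Z ^ p = 1) (n : ℕ) : E Z (n : ZMod p) = Z ^ n := by
  rw [E, ZMod.val_natCast]
  exact (pow_eq_pow_mod n hZ).symm

theorem E_add {Z : M} (hZ : Z ^ p = 1) (a b : ZMod p) : E Z (a + b) = E Z a * E Z b := by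
  have h : a + b = ((a.val + b.val : ℕ) : ZMod p) := by
    rw [Nat.cast_add, ZMod.natCast_zmod_val, ZMod.natCast_zmod_val]
  rw [h, E_natCast hZ, pow_add]
  rfl

theorem E_sub {Z : M} (hZ : Z ^ p = 1) (a b : ZMod p) : E Z (a - b) = E Z a / E Z b := by
  rw [eq_div_iff_mul_eq', ← E_add hZ, sub_add_cancel]

theorem E_mul {Z : M} (hZ : Z ^ p = 1) (a b : ZMod p) : E Z (a * b) = (Z ^ a.val) ^ b.val := by
  have h : a * b = ((a.val * b.val : ℕ) : ZMod p) := by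
    rw [Nat.cast_mul, ZMod.natCast_zmod_val, ZMod.natCast_zmod_val]
  rw [h, E_natCast hZ, pow_mul]

end Exp

theorem exists_log {Ω : Type} [Field Ω] {p : ℕ} [Fact p.Prime] {Z : Ωˣ}
    (hz : IsPrimitiveRoot Z p) (x : Ωˣ) (hx : x ^ p = 1) : ∃ a : ZMod p, x = E Z a := by
  have : NeZero p := ⟨(Fact.out : p.Prime).ne_zero⟩
  have hz' : IsPrimitiveRoot (Z : Ω) p := IsPrimitiveRoot.coe_units_iff.2 hz
  have hx' : (x : Ω) ^ p = 1 := by
    rw [← Units.val_pow_eq_pow_val, hx, Units.val_one]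
  obtain ⟨i, hi, h⟩ := hz'.eq_pow_of_pow_eq_one hx'
  refine ⟨(i : ZMod p), ?_⟩
  rw [E, ZMod.val_cast_of_lt hi]
  apply Units.ext
  rw [Units.val_pow_eq_pow_val, h]

theorem E_injective {Ω : Type} [Field Ω] {p : ℕ} [Fact p.Prime] {Z : Ωˣ}
    (hz : IsPrimitiveRoot Z p) : Function.Injective (E (p := p) Z) := by
  have : NeZero p := ⟨(Fact.out : p.Prime).ne_zero⟩
  intro a b h
  exact ZMod.val_injective p (hz.pow_inj (ZMod.val_lt a) (ZMod.val_lt b) h)

/-! ### the Kummer step -/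

theorem K1 {M : Type} [CommGroup M] (a c b : M) (p : ℕ) (h : (a / c * b) ^ p = 1) :
    c ^ p = a ^ p * b ^ p := by
  rw [mul_pow, div_pow, div_mul_eq_mul_div, div_eq_one] at h
  exact h.symm

theorem K2 {M : Type} [CommGroup M] (a P Y : M) (h : P / Y = a) : a * Y / P = 1 := by
  rw [← h, div_mul_cancel, div_self']

open DLAux in
theorem kummer_step {𝒢 Ω : Type} [Group 𝒢] [Field Ω] [MulSemiringAction 𝒢 Ω] [IsAlgClosed Ω]
    (W : Subgroup 𝒢) [W.Normal] [Finite (𝒢 ⧸ W)]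
    [hfa : FaithfulSMul (𝒢 ⧸ W) (FixedPoints.subfield W Ω)]
    (D1 : Subgroup (𝒢 ⧸ W)) (p : ℕ) (hp : 0 < p)
    (B : (𝒢 ⧸ W) × (𝒢 ⧸ W) → (FixedPoints.subfield W Ω)ˣ) (hB : ∀ x, B x ^ p = 1)
    (h : IsMulCoboundary₂ (resTo D1 B)) :
    ∃ (u : 𝒢 → Ωˣ) (t : Ω), (∀ g : 𝒢, (g : 𝒢 ⧸ W) ∈ D1 → u g ^ p = 1) ∧
      (∀ g v : 𝒢, v ∈ W → v • t = t → u (g * v) = u g) ∧
      ∀ g h : 𝒢, (g : 𝒢 ⧸ W) ∈ D1 → (h : 𝒢 ⧸ W) ∈ D1 →
        g • u h / u (g * h) * u g = up₂ W B (g, h) := by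
  classical
  obtain ⟨g1, hg1⟩ := h
  have hfaH : FaithfulSMul D1 (FixedPoints.subfield W Ω) :=
    ⟨fun hab => Subtype.ext (hfa.eq_of_smul_eq_smul hab)⟩
  have hcoc : IsMulCocycle₁ (fun a : D1 => g1 a ^ p) := by
    intro a b
    show g1 (a * b) ^ p = a • (g1 b ^ p) * g1 a ^ p
    rw [smul_pow']
    apply K1
    rw [hg1]
    exact hB _
  obtain ⟨θ, hθ⟩ := H90_isMulCoboundary₁ _ hcoc
  obtain ⟨t, ht⟩ := IsAlgClosed.exists_pow_nat_eq (((θ : FixedPoints.subfield W Ω) : Ω)) hp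
  have ht0 : t ≠ 0 := by
    rintro rfl
    rw [zero_pow hp.ne'] at ht
    exact (layU W θ).ne_zero ht.symm
  set T : Ωˣ := Units.mk0 t ht0 with hT
  have hTp : T ^ p = layU W θ := Units.ext ht
  let g1' : 𝒢 ⧸ W → (FixedPoints.subfield W Ω)ˣ := fun d => if h : d ∈ D1 then g1 ⟨d, h⟩ else 1
  have hg1' : ∀ (d : 𝒢 ⧸ W) (h : d ∈ D1), g1' d = g1 ⟨d, h⟩ := fun d h => dif_pos h
  refine ⟨fun g => layU W (g1' (g : 𝒢 ⧸ W)) * T / (g • T), t, ?_, ?_, ?_⟩
  · intro g hg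
    show (layU W (g1' (g : 𝒢 ⧸ W)) * T / (g • T)) ^ p = 1
    rw [div_pow, mul_pow, ← smul_pow', hTp, ← map_pow, hg1' _ hg]
    apply K2
    have h1 := hθ ⟨(g : 𝒢 ⧸ W), hg⟩
    have h2 := congrArg (layU W) h1
    rw [map_div] at h2
    rw [← h2, ← layU_smul]
    rfl
  · intro g v hv hvt
    show layU W (g1' ((g * v : 𝒢) : 𝒢 ⧸ W)) * T / ((g * v) • T) =
      layU W (g1' (g : 𝒢 ⧸ W)) * T / (g • T)
    have h1 : ((g * v : 𝒢) : 𝒢 ⧸ W) = (g : 𝒢 ⧸ W) := by
      rw [QuotientGroup.mk_mul, (QuotientGroup.eq_one_iff v).2 hv, mul_one]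
    have h2 : v • T = T := Units.ext hvt
    rw [h1, mul_smul, h2]
  · intro g h hg hh
    show g • (layU W (g1' (h : 𝒢 ⧸ W)) * T / (h • T)) /
      (layU W (g1' ((g * h : 𝒢) : 𝒢 ⧸ W)) * T / ((g * h) • T)) *
      (layU W (g1' (g : 𝒢 ⧸ W)) * T / (g • T)) = _
    rw [smul_div', smul_mul', ← mul_smul, L2]
    have hgh : ((g * h : 𝒢) : 𝒢 ⧸ W) ∈ D1 := by
      rw [QuotientGroup.mk_mul]
      exact D1.mul_mem hg hh
    rw [hg1' _ hg, hg1' _ hh, hg1' _ hgh, ← layU_smul, ← map_div, ← map_mul]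
    exact congrArg (layU W) (hg1 ⟨_, hg⟩ ⟨_, hh⟩)

end DOsubAux

open DOsubAux in
/-- **GR-D6 (DOsub)**. -/
theorem dOsub : Stmt_DOsub := by
  intro p q _ _ ζ hζ f U N _ hU hUN β hβ _ hcob
  have hp : 0 < p := (Fact.out : p.Prime).pos
  have hT := all_padicTower q
  have hclosed : IsAlgClosed (PadicAlgCl q) := hT.closed
  set X := padicHom q with hX
  have hUq : U.comap X.f ∈ (levq q).S := ⟨U, hU, rfl⟩
  have hfinI := (levq q).fin _ hUq
  have hfin : Finite (Gq q ⧸ U.comap X.f) := Subgroup.finite_quotient_of_finiteIndex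
  have hfa : FaithfulSMul (Gq q ⧸ U.comap X.f) (FixedPoints.subfield (U.comap X.f) (PadicAlgCl q)) :=
    (hT.layer (U.comap X.f) hUq).faithful
  -- the root of unity
  have hz : IsPrimitiveRoot (X.j ζ) p := hζ.map_of_injective X.j.injective
  have hz0 : X.j ζ ≠ 0 := hz.ne_zero hp.ne'
  set Z : (PadicAlgCl q)ˣ := Units.mk0 (X.j ζ) hz0 with hZ
  have hZprim : IsPrimitiveRoot Z p := by
    rw [← IsPrimitiveRoot.coe_units_iff]
    exact hz
  have hZp : Z ^ p = 1 := hZprim.pow_eq_one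
  have hgZ : ∀ g : Gq q, g • Z = Z ^ ((cycloChar p (X.f g) : (ZMod p)ˣ) : ZMod p).val := by
    intro g
    apply Units.ext
    show g • X.j ζ = (X.j ζ) ^ _
    rw [← X.equivariant, ← map_pow]
    exact congrArg X.j (Fermat.Agent.CFT.apply_eq_pow_cycloChar p (X.f g) hζ.pow_eq_one)
  -- the pulled back cochain
  have hBval : ∀ g h : Gq q, up₂ (U.comap X.f) ((X.layer U).pull₂ β) (g, h) =
      E Z (f (X.f g, X.f h)) := by
    intro g h
    apply Units.ext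
    show X.j _ = (X.j ζ) ^ _
    rw [← map_pow]
    exact congrArg X.j (hβ (X.f g) (X.f h))
  have hBp : ∀ x, ((X.layer U).pull₂ β) x ^ p = 1 := by
    rintro ⟨a, b⟩
    induction a using QuotientGroup.induction_on with
    | H g =>
    induction b using QuotientGroup.induction_on with
    | H h =>
    apply DLAux.layU_injective (U.comap X.f)
    rw [map_pow, map_one]
    have := hBval g h
    rw [up₂] at this
    rw [this, E, ← pow_mul, mul_comm, pow_mul, hZp, one_pow]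
  obtain ⟨u, t, hu1, hu2, hu3⟩ := kummer_step (U.comap X.f)
    ((N.map (QuotientGroup.mk' U)).comap (X.layer U).f) p hp _ hBp hcob
  have hmem : ∀ g ∈ N.comap (localGaloisToGlobal q),
      ((g : Gq q) : Gq q ⧸ U.comap X.f) ∈ (N.map (QuotientGroup.mk' U)).comap (X.layer U).f :=
    fun g hg => ⟨X.f g, hg, rfl⟩
  classical
  let c : Gq q → ZMod p := fun g => if h : ∃ a : ZMod p, u g = E Z a then h.choose else 0
  have hc : ∀ g ∈ N.comap (localGaloisToGlobal q), u g = E Z (c g) := by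
    intro g hg
    have h : ∃ a : ZMod p, u g = E Z a := exists_log hZprim _ (hu1 g (hmem g hg))
    show u g = E Z (if h : ∃ a : ZMod p, u g = E Z a then h.choose else 0)
    rw [dif_pos h]
    exact h.choose_spec
  obtain ⟨V0, hV0, hV0t⟩ := hT.disc t
  obtain ⟨V, hV, hVV0, hVU⟩ := (levq q).dir V0 hV0 _ hUq
  refine ⟨c, ⟨V, hV, fun g v hv => ?_⟩, fun g hg h hh => ?_⟩
  · show (if h : ∃ a : ZMod p, u (g * v) = E Z a then h.choose else 0) =
      (if h : ∃ a : ZMod p, u g = E Z a then h.choose else 0)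
    rw [hu2 g v (hVU hv) (hV0t v (hVV0 hv))]
  · apply E_injective hZprim
    have h1 := hu3 g h (hmem g hg) (hmem h hh)
    rw [hBval, hc g hg, hc h hh, hc (g * h) (mul_mem hg hh)] at h1
    rw [E_add hZp, E_sub hZp, E_mul hZp]
    have hgZ' : g • Z = Z ^ ((cycloChar p (localGaloisToGlobal q g) : (ZMod p)ˣ) : ZMod p).val :=
      hgZ g
    rw [← hgZ', ← smul_pow']
    exact h1.symm

end Fermat.Agent.CFT.GR

end
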