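/-
TEAM CFT -> S55, layer [GLOB-GR] (helper74): the abstract core of weak reciprocity, and (REC).
-/
import Fermat.Agent.CFT.GR.Interface

set_option autoImplicit false

noncomputable section

namespace Fermat.Agent.CFT.GR

open groupCohomology Fermat.Agent.CFT.Top Fermat.Agent.CFT.Local ExtCitation

attribute [local instance] Units.mulDistribMulActionRight
attribute [local instance] quotAct

section Lemmas

variable {G L G' L' : Type} [Group G] [Field L] [MulSemiringAction G L]
  [Group G'] [Field L'] [MulSemiringAction G' L']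

lemma cob_pull (X : ActHom G L G' L') {β : G × G → Lˣ} (h : IsMulCoboundary₂ β) :
    IsMulCoboundary₂ (X.pull₂ β) := by
  obtain ⟨γ, hγ⟩ := h
  refine ⟨fun g => X.u (γ (X.f g)), fun g h => ?_⟩
  show g • X.u (γ (X.f h)) / X.u (γ (X.f (g * h))) * X.u (γ (X.f g)) = X.u (β (X.f g, X.f h))
  rw [← hγ, ← X.u_smul, map_mul X.f, map_mul X.u, map_div X.u]

lemma cob_mul {β β' : G × G → Lˣ} (h : IsMulCoboundary₂ β) (h' : IsMulCoboundary₂ β') :
    IsMulCoboundary₂ (fun x => β x * β' x) := by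
  obtain ⟨γ, hγ⟩ := h
  obtain ⟨γ', hγ'⟩ := h'
  refine ⟨fun g => γ g * γ' g, fun g h => ?_⟩
  show g • (γ h * γ' h) / (γ (g * h) * γ' (g * h)) * (γ g * γ' g) = β (g, h) * β' (g, h)
  rw [← hγ, ← hγ', smul_mul']
  simp only [div_eq_mul_inv, mul_inv]
  ac_rfl

lemma cob_div {β β' : G × G → Lˣ} (h : IsMulCoboundary₂ β) (h' : IsMulCoboundary₂ β') :
    IsMulCoboundary₂ (fun x => β x / β' x) := by
  obtain ⟨γ, hγ⟩ := h
  obtain ⟨γ', hγ'⟩ := h'
  refine ⟨fun g => γ g / γ' g, fun g h => ?_⟩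
  show g • (γ h / γ' h) / (γ (g * h) / γ' (g * h)) * (γ g / γ' g) = β (g, h) / β' (g, h)
  rw [← hγ, ← hγ', smul_div']
  generalize g • γ h = a, g • γ' h = b, γ (g * h) = c, γ' (g * h) = d, γ g = e, γ' g = f
  simp only [div_eq_mul_inv, mul_inv, inv_inv, mul_comm, mul_left_comm, mul_assoc]

lemma cob_resTo (H : Subgroup G) {β : G × G → Lˣ} (h : IsMulCoboundary₂ β) :
    IsMulCoboundary₂ (resTo H β) := by
  obtain ⟨γ, hγ⟩ := h
  exact ⟨fun g => γ g, fun g h => hγ g h⟩

lemma pull₂_div (X : ActHom G L G' L') (β β' : G × G → Lˣ) :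
    X.pull₂ (fun x => β x / β' x) = fun x => X.pull₂ β x / X.pull₂ β' x := by
  funext x
  exact map_div X.u _ _

end Lemmas

/-- **The abstract core.**  `G` a finite group acting faithfully on a field `L`, `N` normal with
cyclic quotient, `(X q)` a family of local data.  If the Hasse principle holds for `β` over `N`,
`β` dies over `N` at `l`, and reciprocity holds for norms from `L^N`, then a cocycle `β` which is
locally trivial at all `q ≠ l` is locally trivial at `l`. -/
theorem absW (hIC : Stmt_IC) (hRIC : Stmt_RIC)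
    (G L : Type) [Group G] [Finite G] [Field L] [MulSemiringAction G L] [FaithfulSMul G L]
    (N : Subgroup G) [N.Normal] (hcyc : IsCyclic (G ⧸ N)) {ι : Type} (X : ι → LocDat G L) (l : ι)
    (β : G × G → Lˣ) (hβ : IsMulCocycle₂ β)
    (hHP : (∀ q, IsMulCoboundary₂ (resTo (N.comap (X q).hom.f) ((X q).hom.pull₂ β))) →
      IsMulCoboundary₂ (resTo N β))
    (hDK : IsMulCoboundary₂ (resTo (N.comap (X l).hom.f) ((X l).hom.pull₂ β)))
    (hREC : ∀ a ∈ fixedU G L,
      (∀ q, q ≠ l → IsNormFrom (X q).D (X q).K (N.comap (X q).hom.f) ((X q).hom.u a)) →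
      IsNormFrom (X l).D (X l).K (N.comap (X l).hom.f) ((X l).hom.u a))
    (hloc : ∀ q, q ≠ l → IsMulCoboundary₂ ((X q).hom.pull₂ β)) :
    IsMulCoboundary₂ ((X l).hom.pull₂ β) := by
  classical
  obtain ⟨g, hg⟩ := hcyc.exists_generator
  obtain ⟨φ, rfl⟩ := QuotientGroup.mk_surjective g
  have h1 : IsMulCoboundary₂ (resTo N β) := by
    refine hHP fun q => ?_
    by_cases hq : q = l
    · subst hq; exact hDK
    · exact cob_resTo _ (hloc q hq)
  obtain ⟨a, ha, hcob⟩ := hIC G L N φ hg β hβ h1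
  -- `pull₂ β` and `pull₂ (mInf a)` differ by a coboundary
  have key : ∀ q, IsMulCoboundary₂
      (fun x => (X q).hom.pull₂ β x / (X q).hom.pull₂ (mInf N φ a) x) := by
    intro q
    have := cob_pull (X q).hom hcob
    rwa [pull₂_div] at this
  have h2 : ∀ q, q ≠ l → IsNormFrom (X q).D (X q).K (N.comap (X q).hom.f) ((X q).hom.u a) := by
    intro q hq
    rw [← hRIC G L (X q).D (X q).K (X q).hom N φ hg a ha]
    have := cob_div (hloc q hq) (key q)
    simpa using this
  have h3 := hREC a ha h2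
  rw [← hRIC G L (X l).D (X l).K (X l).hom N φ hg a ha] at h3
  have := cob_mul (key l) h3
  simpa using this

/-- (REC) from its four pieces. -/
theorem rec_of (h1 : Stmt_RECu1) (h2 : Stmt_RECu2) (h3 : Stmt_RECt) (h4 : Stmt_RECe) :
    Stmt_REC := by
  intro r l _ _ Hr hodd hlr a hloc
  have hcop : Nat.Coprime l r :=
    (Nat.coprime_primes (Fact.out : l.Prime) (Fact.out : r.Prime)).2 hlr
  refine h2 l r Hr hlr a (ZMod.unitOfCoprime l hcop) (ZMod.coe_unitOfCoprime l hcop) ?_
  refine h4 r l Hr hodd hlr a ?_ ?_ _ (ZMod.coe_unitOfCoprime l hcop)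
  · intro q _ hqr hql u hu
    exact h1 q r Hr hqr a (hloc q hql) u hu
  · intro u hu
    exact h3 r Hr a (hloc r (Ne.symm hlr)) u hu

end Fermat.Agent.CFT.GR

end
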