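/-
TEAM CFT -> S55, layer [GLOB-GR] (helper74): final assembly of weak reciprocity.
-/
import Fermat.Agent.CFT.GR.Core
import Fermat.Agent.CFT.GR.Interface2
import Fermat.Agent.CFT.CycloBridge

set_option autoImplicit false
set_option linter.style.haveILetI false

noncomputable section

namespace Fermat.Agent.CFT.GR

open groupCohomology Fermat.Agent.CFT.Top Fermat.Agent.CFT.Local ExtCitation

attribute [local instance] Units.mulDistribMulActionRight
attribute [local instance] quotAct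

lemma levAll_inf {U V : Subgroup GQ} (hU : U ∈ levAll.S) (hV : V ∈ levAll.S) :
    U ⊓ V ∈ levAll.S := by
  obtain ⟨hU, F, hF, hFU⟩ := hU
  obtain ⟨hV, F', hF', hFV⟩ := hV
  have := hF; have := hF'
  refine ⟨inferInstance, F ⊔ F', inferInstance, ?_⟩
  rw [IntermediateField.fixingSubgroup_sup]
  exact inf_le_inf hFU hFV

lemma ker_cycloChar_mem (p : ℕ) [Fact p.Prime] : (cycloChar p).ker ∈ levAll.S :=
  ⟨inferInstance, cycloField p, inferInstance, fun s hs =>
    (cycloChar_eq_one_iff_mem_fixingSubgroup p s).2 hs⟩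

lemma coc_pull {G L G' L' : Type} [Group G] [Field L] [MulSemiringAction G L]
    [Group G'] [Field L'] [MulSemiringAction G' L'] (X : ActHom G L G' L') {β : G × G → Lˣ}
    (h : IsMulCocycle₂ β) : IsMulCocycle₂ (X.pull₂ β) := by
  intro g h' j
  show X.u (β (X.f (g * h'), X.f j)) * X.u (β (X.f g, X.f h')) =
    g • X.u (β (X.f h', X.f j)) * X.u (β (X.f g, X.f (h' * j)))
  rw [← X.u_smul, ← map_mul X.u, ← map_mul X.u, map_mul X.f, map_mul X.f, h]

/-- the local datum at `q` of the layer `U`. -/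
def locDat (hT : Stmt_padicTower) (U : Subgroup GQ) [U.Normal] (hU : U ∈ levAll.S)
    (q : Nat.Primes) : LocDat (GQ ⧸ U) (FixedPoints.subfield U Qb) :=
  haveI : Fact (q : ℕ).Prime := ⟨q.2⟩
  have hm : U.comap (padicHom (q : ℕ)).f ∈ (levq (q : ℕ)).S := ⟨U, hU, rfl⟩
  haveI : (U.comap (padicHom (q : ℕ)).f).FiniteIndex := (levq (q : ℕ)).fin _ hm
  haveI : Finite (Gq (q : ℕ) ⧸ U.comap (padicHom (q : ℕ)).f) := inferInstance
  { D := Gq (q : ℕ) ⧸ U.comap (padicHom (q : ℕ)).f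
    K := FixedPoints.subfield (U.comap (padicHom (q : ℕ)).f) (PadicAlgCl (q : ℕ))
    faith := ((hT (q : ℕ)).layer _ hm).faithful
    hom := (padicHom (q : ℕ)).layer U }

/-- membership in `N.map (mk' U)` for `U ≤ N`. -/
lemma mk_mem_map_iff {G : Type} [Group G] {U N : Subgroup G} [U.Normal] (h : U ≤ N) (g : G) :
    (g : G ⧸ U) ∈ N.map (QuotientGroup.mk' U) ↔ g ∈ N := by
  constructor
  · rintro ⟨n, hn, hng⟩
    have : n⁻¹ * g ∈ U := QuotientGroup.eq.1 hng
    have h2 := N.mul_mem hn (h this)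
    simpa using h2
  · intro hg
    exact ⟨g, hg, rfl⟩

lemma isCyclic_layer_quot (r : ℕ) [Fact r.Prime] (Hr : Subgroup (ZMod r)ˣ) (U : Subgroup GQ)
    [U.Normal] [((NQ r Hr).map (QuotientGroup.mk' U)).Normal] :
    IsCyclic ((GQ ⧸ U) ⧸ (NQ r Hr).map (QuotientGroup.mk' U)) := by
  let ψ : GQ →* (ZMod r)ˣ ⧸ Hr := (QuotientGroup.mk' Hr).comp (cycloChar r)
  have h1 : IsCyclic (GQ ⧸ ψ.ker) :=
    isCyclic_of_injective (QuotientGroup.kerLift ψ) (QuotientGroup.kerLift_injective ψ)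
  have hle : ψ.ker ≤ ((NQ r Hr).map (QuotientGroup.mk' U)).comap (QuotientGroup.mk' U) := by
    intro g hg
    have hg' : cycloChar r g ∈ Hr := by
      have : ((cycloChar r g : (ZMod r)ˣ) : (ZMod r)ˣ ⧸ Hr) = 1 := hg
      exact (QuotientGroup.eq_one_iff _).1 this
    exact ⟨g, hg', rfl⟩
  refine isCyclic_of_surjective (QuotientGroup.map ψ.ker _ (QuotientGroup.mk' U) hle) ?_
  intro x
  induction x using QuotientGroup.induction_on with
  | H x =>
    induction x using QuotientGroup.induction_on with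
    | H g => exact ⟨(g : GQ ⧸ ψ.ker), rfl⟩

lemma comap_layer_eq (q : ℕ) [Fact q.Prime] (U N : Subgroup GQ) [U.Normal] (hUN : U ≤ N) :
    ((N.map (QuotientGroup.mk' U)).comap ((padicHom q).layer U).f).comap
      (QuotientGroup.mk' (U.comap (padicHom q).f)) = N.comap (localGaloisToGlobal q) := by
  ext g
  exact mk_mem_map_iff hUN (localGaloisToGlobal q g)

lemma finiteIndex_Nq (q r : ℕ) [Fact q.Prime] [Fact r.Prime] (Hr : Subgroup (ZMod r)ˣ) :
    (Nq q r Hr).FiniteIndex := by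
  have hm : ((cycloChar r).ker).comap (localGaloisToGlobal q) ∈ (levq q).S :=
    ⟨_, ker_cycloChar_mem r, rfl⟩
  have := (levq q).fin _ hm
  refine Subgroup.finiteIndex_of_le (H := ((cycloChar r).ker).comap (localGaloisToGlobal q)) ?_
  intro g hg
  have : cycloChar r (localGaloisToGlobal q g) = 1 := hg
  show cycloChar r (localGaloisToGlobal q g) ∈ Hr
  rw [this]
  exact Hr.one_mem

lemma isNormFrom_layer_iff (hNL : Stmt_normLayer) (q r : ℕ) [Fact q.Prime] [Fact r.Prime]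
    (Hr : Subgroup (ZMod r)ˣ) (U : Subgroup GQ) [U.Normal] (hUN : U ≤ NQ r Hr)
    (a : (FixedPoints.subfield U Qb)ˣ) (t : ℚˣ)
    (hat : layU U a = Units.map (algebraMap ℚ Qb : ℚ →* Qb) t) :
    IsNormFrom (Gq q ⧸ U.comap (padicHom q).f)
      (FixedPoints.subfield (U.comap (padicHom q).f) (PadicAlgCl q))
      (((NQ r Hr).map (QuotientGroup.mk' U)).comap ((padicHom q).layer U).f)
      (((padicHom q).layer U).u a) ↔ IsLocNorm q r Hr t := by
  rw [hNL (Gq q) (PadicAlgCl q) (U.comap (padicHom q).f) (Nq q r Hr)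
    (Subgroup.comap_mono hUN) (finiteIndex_Nq q r Hr) _ (comap_layer_eq q U (NQ r Hr) hUN)]
  have : layU (U.comap (padicHom q).f) (((padicHom q).layer U).u a) =
      Units.map (algebraMap ℚ (PadicAlgCl q) : ℚ →* PadicAlgCl q) t := by
    apply Units.ext
    have h1 : (((a : FixedPoints.subfield U Qb) : Qb)) = algebraMap ℚ Qb t :=
      congrArg Units.val hat
    show padicEmbedding q ((a : FixedPoints.subfield U Qb) : Qb) = algebraMap ℚ (PadicAlgCl q) t
    rw [h1]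
    exact (padicEmbedding q).commutes _
  rw [this]
  rfl

/-- the raw statement: everything in terms of `LocTrivAt`. -/
theorem grw_raw (hIC : Stmt_IC) (hRIC : Stmt_RIC) (hNL : Stmt_normLayer) (hDK : Stmt_DK)
    (hGL : Stmt_globalLayer) (hHP : Stmt_HPGR') (hDI1 : Stmt_DI1) (hDI2 : Stmt_DI2)
    (hDO : Stmt_DO) (hUNR : Stmt_UNR) (hREC : Stmt_REC) (hAUX : Stmt_AUX)
    (hT : Stmt_padicTower)
    (p : ℕ) [Fact p.Prime] (hp2 : p ≠ 2) (S : Finset Nat.Primes) (f : GQ × GQ → ZMod p)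
    (hf : (f : GQ × GQ → muRep (ZMod p) (cycloChar p)) ∈
      Z2 (levS S) (muRep (ZMod p) (cycloChar p)))
    (l : ℕ) [Fact l.Prime]
    (hloc : ∀ (q : ℕ) [Fact q.Prime], q ≠ l → LocTrivAt p q f) : LocTrivAt p l f := by
  classical
  -- a primitive `p`-th root of unity
  haveI : NeZero (p : Qb) := ⟨by exact_mod_cast (Fact.out : p.Prime).ne_zero⟩
  haveI : NeZero p := ⟨(Fact.out : p.Prime).ne_zero⟩
  obtain ⟨ζ, hζ⟩ := HasEnoughRootsOfUnity.exists_primitiveRoot Qb p
  obtain ⟨r, hr, Hr, hrp, hlr, hodd, hord⟩ := hAUX p l hp2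
  haveI := hr
  obtain ⟨U₀, hU₀, hβex⟩ := hDI1 p S ζ hζ f hf
  -- the level
  have hU₀' : U₀ ∈ levAll.S := levS_subset_levAll S hU₀
  set U : Subgroup GQ := U₀ ⊓ (cycloChar p).ker ⊓ (cycloChar r).ker with hUdef
  have hU : U ∈ levAll.S :=
    levAll_inf (levAll_inf hU₀' (ker_cycloChar_mem p)) (ker_cycloChar_mem r)
  haveI : U.Normal := levAll.normal U hU
  have hUN : U ≤ NQ r Hr := by
    intro u hu
    have : cycloChar r u = 1 := hu.2
    show cycloChar r u ∈ Hr
    rw [this]; exact Hr.one_mem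
  obtain ⟨β, hZ, hβ, hβp⟩ := hβex U (fun u hu => hu.1.1) (fun u hu => hu.1.2)
  obtain ⟨hfin, hfaith, hbase⟩ := hGL U hU
  haveI := hfin
  haveI := hfaith
  haveI hNn : ((NQ r Hr).map (QuotientGroup.mk' U)).Normal :=
    Subgroup.Normal.map inferInstance _ (QuotientGroup.mk'_surjective U)
  let lP : Nat.Primes := ⟨l, Fact.out⟩
  have main := absW hIC hRIC (GQ ⧸ U) (FixedPoints.subfield U Qb)
    ((NQ r Hr).map (QuotientGroup.mk' U)) (isCyclic_layer_quot r Hr U) (locDat hT U hU) lP β hβ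
    ?_ ?_ ?_ ?_
  · exact hDO p l ζ hζ f U hU β hZ hβ main
  · -- Hasse principle
    intro h
    refine hHP p hp2 ζ hζ f U (NQ r Hr) hU hUN β hZ hβ ?_
    intro q _
    exact h ⟨q, Fact.out⟩
  · -- degree kills
    have hm : U.comap (padicHom l).f ∈ (levq l).S := ⟨U, hU, rfl⟩
    haveI : (U.comap (padicHom l).f).FiniteIndex := (levq l).fin _ hm
    haveI : Finite (Gq l ⧸ U.comap (padicHom l).f) := inferInstance
    refine hDK (Gq l ⧸ U.comap (padicHom l).f)
      (FixedPoints.subfield (U.comap (padicHom l).f) (PadicAlgCl l)) ((hT l).layer _ hm)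
      (((NQ r Hr).map (QuotientGroup.mk' U)).comap ((padicHom l).layer U).f) p Fact.out ?_
      (((padicHom l).layer U).pull₂ β) (coc_pull _ hβ) ?_
    · obtain ⟨τ, hτ⟩ := (hUNR l r hlr).1
      set N' := ((NQ r Hr).map (QuotientGroup.mk' U)).comap ((padicHom l).layer U).f with hN'
      have h1 : (((τ : Gq l ⧸ U.comap (padicHom l).f) :
          (Gq l ⧸ U.comap (padicHom l).f) ⧸ N')) ^ Nat.card ((Gq l ⧸ U.comap (padicHom l).f) ⧸ N')
          = 1 := pow_card_eq_one'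
      have h2 : ((τ ^ Nat.card ((Gq l ⧸ U.comap (padicHom l).f) ⧸ N') : Gq l) :
          Gq l ⧸ U.comap (padicHom l).f) ∈ N' := by
        rw [← QuotientGroup.eq_one_iff]
        exact h1
      have h3 : localGaloisToGlobal l (τ ^ Nat.card ((Gq l ⧸ U.comap (padicHom l).f) ⧸ N'))
          ∈ NQ r Hr := (mk_mem_map_iff hUN _).1 h2
      refine hord (cycloChar r (localGaloisToGlobal l τ)) hτ _ ?_
      have h4 : cycloChar r (localGaloisToGlobal l
          (τ ^ Nat.card ((Gq l ⧸ U.comap (padicHom l).f) ⧸ N'))) ∈ Hr := h3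
      rwa [map_pow, map_pow] at h4
    · refine ⟨fun _ => 1, fun g h => ?_⟩
      show g • (1 : (FixedPoints.subfield (U.comap (padicHom l).f) (PadicAlgCl l))ˣ) / 1 * 1 =
        (((padicHom l).layer U).u (β _)) ^ p
      rw [← map_pow, hβp, map_one, smul_one, div_one, mul_one]
  · -- reciprocity
    intro a ha hq
    obtain ⟨t, ht⟩ := hbase a ha
    refine (isNormFrom_layer_iff hNL l r Hr U hUN a t ht).2 ?_
    refine hREC r l Hr hodd hlr t ?_
    intro q _ hql
    refine (isNormFrom_layer_iff hNL q r Hr U hUN a t ht).1 ?_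
    exact hq ⟨q, Fact.out⟩ (fun h => hql (congrArg (fun x : Nat.Primes => (x : ℕ)) h))
  · -- local triviality away from `l`
    intro q hq
    haveI : Fact (q : ℕ).Prime := ⟨q.2⟩
    exact hDI2 p q ζ hζ f U hU β hZ hβ
      (hloc q (fun h => hq (Subtype.ext h)))

/-- **Weak reciprocity** from the packages of `GR/Interface.lean`, `GR/Interface2.lean`. -/
theorem grw (hIC : Stmt_IC) (hRIC : Stmt_RIC) (hNL : Stmt_normLayer) (hDK : Stmt_DK)
    (hGL : Stmt_globalLayer) (hHP : Stmt_HPGR') (hDI1 : Stmt_DI1) (hDI2 : Stmt_DI2)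
    (hDO : Stmt_DO) (hUNR : Stmt_UNR) (hREC : Stmt_REC) (hAUX : Stmt_AUX)
    (hT : Stmt_padicTower) (hLTO : Stmt_LTO) (hHL : Stmt_HlcLoc) : Stmt_GRw := by
  intro p _ hp2 S hpS h v x hx
  obtain ⟨f, rfl⟩ := cls2_surjective (levS S) (muRep (ZMod p) (cycloChar p)) x
  haveI : Fact (((show ↥S from v) : Nat.Primes) : ℕ).Prime := ⟨(show ↥S from v).1.2⟩
  rw [hHL p S h v _ rfl f]
  refine grw_raw hIC hRIC hNL hDK hGL hHP hDI1 hDI2 hDO hUNR hREC hAUX hT p hp2 S f.1 f.2 _ ?_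
  intro q _ hq
  by_cases hqS : ∃ s ∈ S, (s : ℕ) = q
  · obtain ⟨s, hs, hsq⟩ := hqS
    have hne : (⟨s, hs⟩ : (qDatum p S h).ι) ≠ v := by
      intro hv
      apply hq
      rw [← hsq, ← hv]
    exact (hHL p S h ⟨s, hs⟩ q hsq f).1 (hx ⟨s, hs⟩ hne)
  · exact hLTO p S hpS f.1 f.2 q (fun s hs hsq => hqS ⟨s, hs, hsq⟩)

end Fermat.Agent.CFT.GR

end
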