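/-
TEAM CFT -> S55, layer [GLOB-GR], GR-C1: the layers of `(G_ℚ, ℚ̄)`: finite, faithful, base field `ℚ`.
-/
import Fermat.Agent.CFT.GR.Interface

set_option autoImplicit false

noncomputable section

namespace Fermat.Agent.CFT.GR

open groupCohomology Fermat.Agent.CFT.Top Fermat.Agent.CFT.Local ExtCitation

attribute [local instance] Units.mulDistribMulActionRight
attribute [local instance] Fermat.Agent.CFT.Local.quotAct

theorem globalLayer_isGalois : IsGalois ℚ (AlgebraicClosure ℚ) := by
  have : Algebra.IsAlgebraic ℚ (AlgebraicClosure ℚ) := AlgebraicClosure.isAlgebraic ℚ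
  have : IsAlgClosure ℚ (AlgebraicClosure ℚ) := ⟨inferInstance, inferInstance⟩
  have : Normal ℚ (AlgebraicClosure ℚ) := IsAlgClosure.normal ℚ (AlgebraicClosure ℚ)
  exact ⟨⟩

/-- an element of `G_ℚ` which fixes `ℚ̄^U` lies in `U` (`U` open). -/
theorem globalLayer_mem_of_fixes (U : Subgroup GQ) (hU : U ∈ levAll.S) (g : GQ)
    (hg : ∀ x : Qb, (∀ u ∈ U, u x = x) → g x = x) : g ∈ U := by
  have := globalLayer_isGalois
  obtain ⟨-, F, hF, hFU⟩ := hU
  have hopen : IsOpen (U : Set GQ) :=
    Subgroup.isOpen_mono hFU (IntermediateField.fixingSubgroup_isOpen F)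
  have hclosed : IsClosed (U : Set GQ) := Subgroup.isClosed_of_isOpen U hopen
  have hfix : (IntermediateField.fixedField U).fixingSubgroup = U :=
    InfiniteGalois.fixingSubgroup_fixedField ⟨U, hclosed⟩
  rw [← hfix, IntermediateField.mem_fixingSubgroup_iff]
  intro x hx
  exact hg x fun u hu => hx ⟨u, hu⟩

theorem globalLayer : Stmt_globalLayer := by
  intro U _ hU
  have := globalLayer_isGalois
  refine ⟨?_, ?_, ?_⟩
  · have := levAll.fin U hU
    infer_instance
  · refine ⟨fun {a b} h => ?_⟩
    induction a using QuotientGroup.induction_on with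
    | H g =>
      induction b using QuotientGroup.induction_on with
      | H g' =>
        rw [QuotientGroup.eq]
        apply globalLayer_mem_of_fixes U hU
        intro x hx
        have h1 := congrArg Subtype.val (h ⟨x, fun u => hx u.1 u.2⟩)
        have h2 : g x = g' x := h1
        show g⁻¹ (g' x) = x
        rw [← h2]
        exact g.symm_apply_apply x
  · intro a ha
    have hfix : ∀ g : GQ, g (((a : FixedPoints.subfield U Qb) : Qb)) = a := by
      intro g
      have h1 := congrArg (fun z : (FixedPoints.subfield U Qb)ˣ =>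
        ((z : FixedPoints.subfield U Qb) : Qb)) (ha (g : GQ ⧸ U))
      exact h1
    obtain ⟨t, ht⟩ := (InfiniteGalois.mem_range_algebraMap_iff_fixed
      (k := ℚ) (K := AlgebraicClosure ℚ) _).2 hfix
    have ht0 : t ≠ 0 := by
      rintro rfl
      rw [map_zero] at ht
      have h2 : (a : FixedPoints.subfield U Qb) = 0 := Subtype.ext ht.symm
      exact a.ne_zero h2
    exact ⟨Units.mk0 t ht0, Units.ext ht.symm⟩

end Fermat.Agent.CFT.GR

end
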