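/-
TEAM CFT, layer [GLOB-GR], package GR-C2' (HPGR') : the Hasse principle, raw form => layer form.
-/
import Fermat.Agent.CFT.GR.Interface2
import Fermat.Agent.CFT.CycloBridge

set_option autoImplicit false

noncomputable section

namespace Fermat.Agent.CFT.GR

open groupCohomology Fermat.Agent.CFT.Top Fermat.Agent.CFT.Local ExtCitation

attribute [local instance] Units.mulDistribMulActionRight
attribute [local instance] quotAct

/-- the exponent of a power of a primitive `p`-th root of unity is determined modulo `p`. -/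
theorem HPGR_pow_inj {X : Type} [CommMonoid X] {p : ℕ} [NeZero p] {ζ : X}
    (hζ : IsPrimitiveRoot ζ p) {a b : ℕ} (h : ζ ^ a = ζ ^ b) : (a : ZMod p) = (b : ZMod p) := by
  rw [ZMod.natCast_eq_natCast_iff]
  have hpos : 0 < p := Nat.pos_of_ne_zero (NeZero.ne p)
  rw [pow_eq_pow_mod a hζ.pow_eq_one, pow_eq_pow_mod b hζ.pow_eq_one] at h
  exact hζ.pow_inj (Nat.mod_lt _ hpos) (Nat.mod_lt _ hpos) h

theorem hpgr' (h1 : Stmt_DOsub) (h2 : Stmt_DLsub) (h3 : Stmt_HPN) (h4 : Stmt_globalLayer) :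
    Stmt_HPGR' := by
  intro p _ hp2 ζ hζ f U N _ _ hU hUN β hβ hcoc hloc
  have hp : NeZero p := ⟨(Fact.out : p.Prime).ne_zero⟩
  have hζp : ζ ^ p = 1 := hζ.pow_eq_one
  have hact : ∀ g : GQ, g • ζ = ζ ^ ((cycloChar p g : (ZMod p)ˣ) : ZMod p).val := fun g =>
    Fermat.Agent.CFT.apply_eq_pow_cycloChar p g hζp
  have hval : ∀ a b : ZMod p, ζ ^ a.val = ζ ^ b.val → a = b := by
    intro a b h
    have h5 := HPGR_pow_inj hζ h
    simpa only [ZMod.natCast_zmod_val] using h5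
  have lev : ∀ g h : GQ, ∀ u ∈ U, ∀ u' ∈ U, f (g * u, h * u') = f (g, h) := by
    intro g h u hu u' hu'
    apply hval
    rw [← hβ, ← hβ]
    have e1 : ((g * u : GQ) : GQ ⧸ U) = (g : GQ ⧸ U) := by
      rw [QuotientGroup.mk_mul, (QuotientGroup.eq_one_iff u).2 hu, mul_one]
    have e2 : ((h * u' : GQ) : GQ ⧸ U) = (h : GQ ⧸ U) := by
      rw [QuotientGroup.mk_mul, (QuotientGroup.eq_one_iff u').2 hu', mul_one]
    rw [e1, e2]
  have coc : ∀ g h j : GQ, f (g * h, j) + f (g, h) =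
      ((cycloChar p g : (ZMod p)ˣ) : ZMod p) * f (h, j) + f (g, h * j) := by
    intro g h j
    have h5 := hcoc (g : GQ ⧸ U) (h : GQ ⧸ U) (j : GQ ⧸ U)
    rw [← QuotientGroup.mk_mul, ← QuotientGroup.mk_mul] at h5
    have h6 : (((β (((g * h : GQ) : GQ ⧸ U), (j : GQ ⧸ U)) : (FixedPoints.subfield U Qb)ˣ) :
          FixedPoints.subfield U Qb) : Qb) *
        (((β ((g : GQ ⧸ U), (h : GQ ⧸ U)) : (FixedPoints.subfield U Qb)ˣ) :
          FixedPoints.subfield U Qb) : Qb)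
        = g • (((β ((h : GQ ⧸ U), (j : GQ ⧸ U)) : (FixedPoints.subfield U Qb)ˣ) :
          FixedPoints.subfield U Qb) : Qb) *
        (((β ((g : GQ ⧸ U), ((h * j : GQ) : GQ ⧸ U)) : (FixedPoints.subfield U Qb)ˣ) :
          FixedPoints.subfield U Qb) : Qb) :=
      congrArg (fun x : (FixedPoints.subfield U Qb)ˣ => ((x : FixedPoints.subfield U Qb) : Qb)) h5
    rw [hβ, hβ, hβ, hβ, smul_pow', hact, ← pow_mul, ← pow_add, ← pow_add] at h6
    have h7 := HPGR_pow_inj hζ h6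
    push_cast at h7
    simpa only [ZMod.natCast_zmod_val] using h7
  have hlocT : ∀ (q : ℕ) [Fact q.Prime], LocTrivOn p q f (N.comap (localGaloisToGlobal q)) :=
    fun q _ => h1 p q ζ hζ f U N hU hUN β hβ hcoc (hloc q)
  obtain ⟨γ, hγlev, hγ⟩ := h3 p hp2 ζ hζ f U N hU hUN lev coc hlocT
  refine h2 GQ Qb levAll (fun V _ hV => (h4 V hV).2.1) U N hU hUN β hcoc
    ⟨γ, hγlev, fun g hg h hh => Units.ext ?_⟩
  exact (hγ g hg h hh).trans (hβ g h).symm

end Fermat.Agent.CFT.GR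

end

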