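/-
TEAM CFT -> S55, layer [GLOB-GR], package GR-A1 (IC) (helper19).
-/
import Fermat.Agent.CFT.GR.Interface
import Fermat.Agent.CFT.Local.InfCyc
import Fermat.Agent.CFT.Local.H90
import Fermat.Agent.CFT.P0.All

set_option autoImplicit false

noncomputable section

namespace Fermat.Agent.CFT.GR

open CategoryTheory CategoryTheory.Limits groupCohomology Fermat.Agent.CFT.Top
  Fermat.Agent.CFT.Local

attribute [local instance] Units.mulDistribMulActionRight
attribute [local instance] quotAct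

theorem IC_cyc_apply {Q : Type} [Group Q] [Finite Q] (g : Q) {A X : Type} [AddCommGroup A]
    [One X] (f : A → X) (hf : f 0 = 1) (a : A) (x : Q × Q) :
    f (P0.cycCochain g a x) = mcyc g (f a) x := by
  unfold P0.cycCochain mcyc
  split_ifs
  · rfl
  · exact hf

theorem IC_toMul_infCyc (G L : Type) [Group G] [Finite G] [Field L] [MulSemiringAction G L]
    (N : Subgroup G) [N.Normal] (φ : G) (a : Lˣ) (x : G × G) :
    @Additive.toMul Lˣ (infCyc G L N φ a x) = mInf N φ a x :=
  IC_cyc_apply (φ : G ⧸ N) (fun z : Additive Lˣ => Additive.toMul z) rfl (Additive.ofMul a) _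

theorem ic : Stmt_IC := by
  intro G L _ _ _ _ _ N _ φ hφ β hβ hres
  have hz : (Additive.ofMul ∘ β : G × G → unitsRep G L) ∈ cocycles₂ (unitsRep G L) :=
    (cocyclesOfIsMulCocycle₂ hβ).2
  have hzb : (Additive.ofMul ∘ resTo N β : N × N → unitsRep N L) ∈ coboundaries₂ (unitsRep N L) :=
    (coboundariesOfIsMulCoboundary₂ hres).2
  have hzN : (Additive.ofMul ∘ resTo N β : N × N → unitsRep N L) ∈ cocycles₂ (unitsRep N L) :=
    coboundaries₂_le_cocycles₂ _ hzb
  -- the restriction of the class to `N` vanishes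
  have hresx : (P0.resMap (unitsRep G L) N 2).hom ((H2π (unitsRep G L)).hom ⟨_, hz⟩) = 0 := by
    have h1 : (P0.resMap (unitsRep G L) N 2).hom ((H2π (unitsRep G L)).hom ⟨_, hz⟩) =
        (H2π (unitsRep N L)).hom ⟨_, hzN⟩ := by
      refine P0.CycH2.map_H2π_eq (f := N.subtype) (φ := 𝟙 _) _ hz _ hzN ?_
      have h0 : ∀ {c : N × N → unitsRep N L}, c = 0 → c ∈ coboundaries₂ (unitsRep N L) := by
        rintro c rfl
        exact zero_mem _
      apply h0
      funext ⟨x, y⟩
      exact sub_self _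
    rw [h1]
    exact (H2π_eq_zero_iff _).2 hzb
  have : FaithfulSMul N L :=
    ⟨fun hab => Subtype.ext (FaithfulSMul.eq_of_smul_eq_smul (M := G) (α := L) hab)⟩
  obtain ⟨y, hy⟩ := (P0.all_infRes ℤ G (unitsRep G L) N 1 (by
      intro i hi0 hi2
      have hi : i = 1 := by omega
      subst hi
      exact (h90 N L).1)).2 _ hresx
  have hcyc := P0.cycH2 (G ⧸ N) (φ : G ⧸ N) hφ ((unitsRep G L).quotientToInvariants N)
  obtain ⟨a', hco, hinv, ha'⟩ := hcyc.2.1 y
  -- the unit
  have haN : ∀ n ∈ N, n • InfCyc_unit G L N a' = InfCyc_unit G L N a' :=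
    fun n hn => congrArg (@Additive.toMul Lˣ) (a'.2 ⟨n, hn⟩)
  have haG : InfCyc_unit G L N a' ∈ fixedU G L := by
    intro g
    have h1 := congrArg (fun z => (z.1 : Additive Lˣ)) (hinv (g : G ⧸ N))
    simp only at h1
    rw [InfCyc_rho_mk] at h1
    exact congrArg (@Additive.toMul Lˣ) h1
  have hlift : InfCyc_lift G L N (InfCyc_unit G L N a') haN = a' := rfl
  have hc2 : infCyc G L N φ (InfCyc_unit G L N a') ∈ cocycles₂ (unitsRep G L) :=
    infCycCocycle P0.cycH2 G L N φ hφ _ haG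
  have hinf := InfCyc_inf G L N φ (InfCyc_unit G L N a') haN hco hc2
  refine ⟨InfCyc_unit G L N a', haG, ?_⟩
  have heq : (H2π (unitsRep G L)).hom ⟨_, hz⟩ = (H2π (unitsRep G L)).hom ⟨_, hc2⟩ := by
    rw [← hinf, ← hy, ← ha']
    rfl
  have hcob := (H2π_eq_iff _ _).1 heq
  have hfin := isMulCoboundary₂_of_mem_coboundaries₂ _ hcob
  convert hfin using 1
  funext x
  rw [← IC_toMul_infCyc]
  rfl

end Fermat.Agent.CFT.GR

end
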