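/-
TEAM CFT -> S55, layer [GLOB-GR], task GR-D4 (LTO), part (3): roots of unity of order prime to the
residue characteristic, and the growth of the order of Frobenius in the `p`-cyclotomic tower.
-/
import Fermat.Agent.S14.DIDefs
import Fermat.Agent.CFT.CycloBridge

set_option autoImplicit false

namespace Fermat.Agent.CFT.GR.FrobOrd

open Fermat.Agent.S14 (cycH mem_cycH Qb)
open Fermat.Agent.S54.Frob95 (GQ)
open ExtCitation

/-- (3a) roots of unity of order prime to the residue characteristic are distinct modulo the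
maximal ideal. -/
theorem rootsep {L : Type*} [Field L] (A : ValuationSubring L) {q n : ℕ} (hn : n.Coprime q)
    (hA : A.LiesOverPrime q) {s t : L} (hs : s ^ n = 1) (ht : t ^ n = 1)
    (hst : s - t ∈ A.nonunits) : s = t := by
  have hn0 : n ≠ 0 := by
    rintro rfl
    rw [Nat.coprime_zero_left] at hn
    subst hn
    have h1 : ((1 : ℕ) : L) ∈ A.nonunits := hA
    rw [Nat.cast_one, ValuationSubring.mem_nonunits_iff, map_one] at h1
    exact lt_irrefl _ h1
  have hsA : s ∈ A := lc_mem_of_pow_eq_one A hn0 hs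
  have htA : t ∈ A := lc_mem_of_pow_eq_one A hn0 ht
  set s' : A := ⟨s, hsA⟩ with hs'
  set t' : A := ⟨t, htA⟩ with ht'
  have h3 : IsLocalRing.residue A s' = IsLocalRing.residue A t' := by
    rw [← sub_eq_zero, ← map_sub, IsLocalRing.residue_eq_zero_iff,
      ← ValuationSubring.coe_mem_nonunits_iff]
    exact hst
  have ht'p : t' ^ n = 1 := Subtype.ext ht
  have hsp : s' ^ n = 1 := Subtype.ext hs
  have hgeom := Commute.geom_sum₂_mul (Commute.all s' t') n
  rw [hsp, ht'p, sub_self, mul_eq_zero] at hgeom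
  rcases hgeom with hsum | hst'
  · exfalso
    have hres := congrArg (IsLocalRing.residue A) hsum
    rw [map_sum, map_zero] at hres
    set r := IsLocalRing.residue A t' with hr
    have hrp : r ^ n = 1 := by rw [hr, ← map_pow, ht'p, map_one]
    have hr0 : r ≠ 0 := by
      intro h0
      rw [h0, zero_pow hn0] at hrp
      exact zero_ne_one hrp
    have hterm : ∀ i ∈ Finset.range n,
        IsLocalRing.residue A (s' ^ i * t' ^ (n - 1 - i)) = r ^ (n - 1) := by
      intro i hi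
      rw [map_mul, map_pow, map_pow, h3, ← pow_add]
      congr 1
      have := Finset.mem_range.mp hi
      omega
    rw [Finset.sum_congr rfl hterm, Finset.sum_const, Finset.card_range, nsmul_eq_mul,
      mul_eq_zero] at hres
    have hp0 : (n : IsLocalRing.ResidueField A) = 0 :=
      hres.resolve_right (pow_ne_zero _ hr0)
    have hq0 : (q : IsLocalRing.ResidueField A) = 0 := by
      obtain ⟨hqA, hqm⟩ := A.mem_nonunits_iff_exists_mem_maximalIdeal.mp hA
      have := (IsLocalRing.residue_eq_zero_iff _).mpr hqm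
      rw [← this, ← map_natCast (IsLocalRing.residue A) q]
      congr 1
    have hcop : IsCoprime (n : ℤ) (q : ℤ) := Nat.isCoprime_iff_coprime.mpr hn
    obtain ⟨a, b, hab⟩ := hcop
    have := congrArg (Int.cast : ℤ → IsLocalRing.ResidueField A) hab
    push_cast at this
    rw [hp0, hq0, mul_zero, mul_zero, add_zero] at this
    exact zero_ne_one this
  · exact congrArg Subtype.val (sub_eq_zero.mp hst')

/-- elements of the inertia group move elements of `A` by nonunits -/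
theorem inertia_sub_mem {L : Type*} [Field L] {K : Type*} [Field K] [Algebra K L]
    (A : ValuationSubring L) {σ : L ≃ₐ[K] L} (hσ : σ ∈ A.inertiaSubgroupIn K) {t : L}
    (htA : t ∈ A) : σ t - t ∈ A.nonunits := by
  obtain ⟨τ, hτ, rfl⟩ := hσ
  have h1 : MulSemiringAction.toRingAut (A.decompositionSubgroup K)
      (IsLocalRing.ResidueField A) τ = 1 := hτ
  have h2 := congrArg (fun f => f (IsLocalRing.residue A ⟨t, htA⟩)) h1
  have h3 : IsLocalRing.residue A (τ • (⟨t, htA⟩ : A)) = IsLocalRing.residue A ⟨t, htA⟩ := h2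
  rw [← sub_eq_zero, ← map_sub, IsLocalRing.residue_eq_zero_iff,
      ← ValuationSubring.coe_mem_nonunits_iff] at h3
  exact h3

/-- inertia fixes the roots of unity of order prime to the residue characteristic. -/
theorem inertia_le_cycH (A : ValuationSubring Qb) {q n : ℕ} (hn : n.Coprime q)
    (hA : A.LiesOverPrime q) : A.inertiaSubgroupIn ℚ ≤ cycH n := by
  intro σ hσ
  rw [mem_cycH]
  intro ζ hζ
  have hn0 : n ≠ 0 := by
    rintro rfl
    rw [Nat.coprime_zero_left] at hn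
    subst hn
    have h1 : ((1 : ℕ) : Qb) ∈ A.nonunits := hA
    rw [Nat.cast_one, ValuationSubring.mem_nonunits_iff, map_one] at h1
    exact lt_irrefl _ h1
  exact rootsep A hn hA (by rw [← map_pow, hζ, map_one]) hζ
    (inertia_sub_mem A hσ (lc_mem_of_pow_eq_one A hn0 hζ))

/-- a Frobenius raises the roots of unity of order prime to `q` to the `q`-th power. -/
theorem frob_root (A : ValuationSubring Qb) {q n : ℕ} (hn : n.Coprime q)
    (hA : A.LiesOverPrime q) {Fr : GQ}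
    (hFr : ∀ b : Qb, IsIntegral ℤ b → Fr b - b ^ q ∈ A.nonunits) {ζ : Qb} (hζ : ζ ^ n = 1) :
    Fr ζ = ζ ^ q := by
  have hn0 : n ≠ 0 := by
    rintro rfl
    rw [Nat.coprime_zero_left] at hn
    subst hn
    have h1 : ((1 : ℕ) : Qb) ∈ A.nonunits := hA
    rw [Nat.cast_one, ValuationSubring.mem_nonunits_iff, map_one] at h1
    exact lt_irrefl _ h1
  refine rootsep A hn hA (by rw [← map_pow, hζ, map_one])
    (by rw [← pow_mul, mul_comm, pow_mul, hζ, one_pow]) (hFr ζ ?_)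
  exact IsIntegral.of_pow (Nat.pos_of_ne_zero hn0) (by rw [hζ]; exact isIntegral_one)

/-- (3b) `cycH n` is normal. -/
instance cycH_normal (n : ℕ) : (cycH n).Normal := by
  refine ⟨fun σ hσ g => ?_⟩
  rw [mem_cycH] at hσ ⊢
  intro ζ hζ
  have h1 : (g⁻¹ ζ) ^ n = 1 := by rw [← map_pow, hζ, map_one]
  show g (σ (g⁻¹ ζ)) = ζ
  rw [hσ _ h1]
  show (g * g⁻¹) ζ = ζ
  rw [mul_inv_cancel]
  rfl

/-- (3b) `cycH n` is open. -/
theorem cycH_open {n : ℕ} (hn : n ≠ 0) : ∃ F : IntermediateField ℚ Qb,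
    FiniteDimensional ℚ F ∧ F.fixingSubgroup ≤ cycH n := by
  refine ⟨IntermediateField.adjoin ℚ {t : Qb | t ^ n = 1}, ?_, ?_⟩
  · have hfin : Finite {t : Qb | t ^ n = 1} := by
      have hsub : {t : Qb | t ^ n = 1} ⊆ ((Polynomial.nthRoots n (1 : Qb)).toFinset : Set Qb) := by
        intro t ht
        rw [Finset.mem_coe, Multiset.mem_toFinset, Polynomial.mem_nthRoots (Nat.pos_of_ne_zero hn)]
        exact ht
      exact (Set.Finite.subset (Finset.finite_toSet _) hsub)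
    exact IntermediateField.finiteDimensional_adjoin fun x _ => Algebra.IsIntegral.isIntegral x
  · intro σ hσ
    rw [mem_cycH]
    intro ζ hζ
    rw [IntermediateField.mem_fixingSubgroup_iff] at hσ
    exact hσ ζ (IntermediateField.subset_adjoin ℚ _ hζ)

/-- iterating `Fr ζ = ζ ^ q`. -/
theorem frob_pow_root {q n : ℕ} {Fr : GQ} (hFr : ∀ ζ : Qb, ζ ^ n = 1 → Fr ζ = ζ ^ q) (k : ℕ)
    {ζ : Qb} (hζ : ζ ^ n = 1) : (Fr ^ k) ζ = ζ ^ (q ^ k) := by
  induction k with
  | zero => simp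
  | succ k ih =>
    rw [pow_succ', AlgEquiv.mul_apply, ih, map_pow, hFr ζ hζ, ← pow_mul, pow_succ']

/-- (3c), arithmetic core. -/
theorem arith_core {p : ℕ} (hp : p.Prime) {x r t : ℕ} (hx1 : 1 < x) (hxr : x < p ^ r)
    (hxp : x ≡ 1 [MOD p]) (hxt : x ^ t ≡ 1 [MOD p ^ r]) : p ∣ t := by
  by_contra hpt
  have hr : r ≠ 0 := by
    rintro rfl
    simp at hxr
    omega
  obtain ⟨r', rfl⟩ := Nat.exists_eq_succ_of_ne_zero hr
  have h1 : ((x : ℕ) : ZMod (p ^ (r' + 1))) ^ t = 1 := by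
    have := (ZMod.natCast_eq_natCast_iff _ _ _).2 hxt
    simpa using this
  have h2 : ((x : ℕ) : ZMod (p ^ (r' + 1))) ^ (p ^ r') = 1 := by
    have h3 : ((p : ℕ) : ℤ) ∣ (x : ℤ) - 1 := by
      have := (Nat.modEq_iff_dvd.1 hxp.symm)
      simpa using this
    have h4 := dvd_sub_pow_of_dvd_sub h3 r'
    rw [one_pow] at h4
    have h5 : (((x : ℤ) ^ p ^ r' - 1 : ℤ) : ZMod (p ^ (r' + 1))) = 0 := by
      rw [ZMod.intCast_zmod_eq_zero_iff_dvd]
      exact_mod_cast h4
    push_cast at h5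
    exact sub_eq_zero.1 h5
  have h6 : orderOf ((x : ℕ) : ZMod (p ^ (r' + 1))) ∣ Nat.gcd t (p ^ r') :=
    Nat.dvd_gcd (orderOf_dvd_of_pow_eq_one h1) (orderOf_dvd_of_pow_eq_one h2)
  have h7 : Nat.gcd t (p ^ r') = 1 :=
    Nat.Coprime.pow_right _ ((Nat.Prime.coprime_iff_not_dvd hp).2 hpt).symm
  rw [h7, Nat.dvd_one, orderOf_eq_one_iff] at h6
  have h8 : x ≡ 1 [MOD p ^ (r' + 1)] := by
    apply (ZMod.natCast_eq_natCast_iff _ _ _).1
    simpa using h6
  have := Nat.ModEq.eq_of_lt_of_lt h8 hxr (lt_trans hx1 hxr)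
  omega

/-- (3c) growth of the order of Frobenius. -/
theorem ordgrow (p : ℕ) [Fact p.Prime] {q : ℕ} (hq : 1 < q) (W0 : Subgroup GQ)
    (hW0 : ∀ u ∈ W0, cycloChar p u = 1) {Fr : GQ} {r : ℕ}
    (hFr : ∀ ζ : Qb, ζ ^ (p ^ r) = 1 → Fr ζ = ζ ^ q) {n0 : ℕ} (hn0 : n0 ≠ 0)
    (hmem : Fr ^ n0 ∈ W0) (hmin : ∀ k : ℕ, Fr ^ k ∈ W0 → n0 ∣ k) (hr : q ^ n0 < p ^ r) :
    ∀ k : ℕ, Fr ^ k ∈ W0 ⊓ cycH (p ^ r) → n0 * p ∣ k := by
  have hp : p.Prime := Fact.out
  have hr0 : r ≠ 0 := by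
    rintro rfl
    have : 0 < q ^ n0 := pow_pos (by omega) _
    simp at hr
    omega
  rintro k ⟨hk0, hk1⟩
  obtain ⟨t, rfl⟩ := hmin k hk0
  refine Nat.mul_dvd_mul_left _ ?_
  have : NeZero (p ^ r) := ⟨pow_ne_zero _ hp.ne_zero⟩
  have : NeZero p := ⟨hp.ne_zero⟩
  obtain ⟨ω, hω⟩ := HasEnoughRootsOfUnity.exists_primitiveRoot Qb (p ^ r)
  refine arith_core hp (x := q ^ n0) (r := r) (Nat.one_lt_pow hn0 hq) hr ?_ ?_
  · -- `Fr ^ n0` fixes the `p`-th roots of unity
    obtain ⟨ζ, hζ⟩ := HasEnoughRootsOfUnity.exists_primitiveRoot Qb p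
    have h1 : ζ ^ (p ^ r) = 1 := by
      obtain ⟨r', rfl⟩ := Nat.exists_eq_succ_of_ne_zero hr0
      rw [pow_succ', pow_mul, hζ.pow_eq_one, one_pow]
    have h2 := frob_pow_root hFr n0 h1
    have h3 := apply_eq_pow_cycloChar p (Fr ^ n0) hζ.pow_eq_one
    rw [hW0 _ hmem, Units.val_one, ZMod.val_one'' (by
      intro h; exact hp.one_lt.ne' h), pow_one] at h3
    rw [h3] at h2
    have h4 : ζ ^ (q ^ n0) = ζ ^ 1 := by rw [← h2, pow_one]
    have h5 := ((hζ.isOfFinOrder hp.ne_zero).pow_eq_pow_iff_modEq).1 h4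
    rwa [← hζ.eq_orderOf] at h5
  · have h2 := frob_pow_root hFr (n0 * t) hω.pow_eq_one
    rw [(mem_cycH.1 hk1) ω hω.pow_eq_one] at h2
    have h4 : ω ^ ((q ^ n0) ^ t) = ω ^ 1 := by rw [← pow_mul, ← h2, pow_one]
    have h5 := ((hω.isOfFinOrder (pow_ne_zero _ hp.ne_zero)).pow_eq_pow_iff_modEq).1 h4
    rwa [← hω.eq_orderOf] at h5

end Fermat.Agent.CFT.GR.FrobOrd
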