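/-
TEAM CFT -> S55, layer [GLOB-GR], package GR-D4 (LTO): `S`-level cocycles with values in `μ_p` are
locally trivial outside `S` (`H²(ℤ̂, μ_p) = 0`).

Route: Frobenius `Fr` at `A = padicPlace q`; procyclicity of `D_A / I_A` (`GN.LTO.mk_mem_zpowers`);
growth of the order of `Fr` in the `p`-cyclotomic tower (`FrobOrd.ordgrow`); the explicit primitive
(`LTOAlg.exists_primitive`).
-/
import Fermat.Agent.CFT.GR.Interface
import Fermat.Agent.CFT.GR.FrobOrd
import Fermat.Agent.CFT.GR.LTOAlg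
import Fermat.Agent.CFT.GN.LTO
import Fermat.Agent.CFT.LocalBridge
import Fermat.Agent.CFT.Top.CycloTriv

set_option autoImplicit false

noncomputable section

namespace Fermat.Agent.CFT.GR

open groupCohomology Fermat.Agent.CFT.Top Fermat.Agent.CFT.Local ExtCitation

attribute [local instance] Units.mulDistribMulActionRight
attribute [local instance] quotAct

theorem lto : Stmt_LTO := by
  intro p _ S hpS f hf q _ hqS
  have hp : p.Prime := Fact.out
  have hq : q.Prime := Fact.out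
  obtain ⟨hcoc, hC2⟩ := mem_Z2.1 hf
  have coc : ∀ g h j : GQ, f (g * h, j) + f (g, h) =
      ((cycloChar p g : (ZMod p)ˣ) : ZMod p) * f (h, j) + f (g, h * j) := fun g h j => hcoc g h j
  obtain ⟨U₀, hU₀, hlev, -⟩ := mem_C2.1 hC2
  have lev : ∀ g h : GQ, ∀ u ∈ U₀, ∀ u' ∈ U₀, f (g * u, h * u') = f (g, h) := hlev
  obtain ⟨U', hU', hχ'⟩ := stmt_cycloTriv p S hpS
  obtain ⟨W0, hW0, hW0U, hW0U'⟩ := (levS S).dir U₀ hU₀ U' hU'
  have hqp : q ≠ p := fun h => hqS (pPrime p) hpS h.symm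
  have hqS' : (⟨q, hq⟩ : Nat.Primes) ∉ S := fun h => hqS _ h rfl
  -- the place
  set A : ValuationSubring Qb := padicPlace q with hAdef
  have hA : A.LiesOverPrime q := padicPlace_liesOverPrime q
  have hW0n : W0.Normal := (levS S).normal W0 hW0
  have hW0fi : W0.FiniteIndex := (levS S).fin W0 hW0
  have hIW0 : A.inertiaSubgroupIn ℚ ≤ W0 := by
    obtain ⟨-, F, hF, hFW⟩ := hW0
    exact (hF.2 ⟨q, hq⟩ hqS' A hA).trans hFW
  -- Frobenius
  obtain ⟨Fr, -, hFr⟩ := S54.Frob95.exists_stabilizer_frobenius A hq hA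
  have hFr' : ∀ b : Qb, IsIntegral ℤ b → Fr b - b ^ q ∈ A.nonunits := fun b hb =>
    (S54.Frob95.mem_primeOf A _).1 (hFr ⟨b, hb⟩)
  set n0 := orderOf ((Fr : GQ) : GQ ⧸ W0) with hn0def
  have hn0 : n0 ≠ 0 := (orderOf_pos _).ne'
  have hmem : Fr ^ n0 ∈ W0 := by
    rw [← QuotientGroup.eq_one_iff, QuotientGroup.mk_pow, hn0def, pow_orderOf_eq_one]
  have hmin : ∀ k : ℕ, Fr ^ k ∈ W0 → n0 ∣ k := by
    intro k hk
    rw [hn0def]
    apply orderOf_dvd_of_pow_eq_one
    rw [← QuotientGroup.mk_pow, QuotientGroup.eq_one_iff]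
    exact hk
  obtain ⟨r, hr⟩ : ∃ r, q ^ n0 < p ^ r := pow_unbounded_of_one_lt _ hp.one_lt
  have hcop : (p ^ r).Coprime q := Nat.Coprime.pow_left _ ((Nat.coprime_primes hp hq).2 hqp.symm)
  have hFrζ : ∀ ζ : Qb, ζ ^ (p ^ r) = 1 → Fr ζ = ζ ^ q := fun ζ hζ =>
    FrobOrd.frob_root A hcop hA hFr' hζ
  set W1 : Subgroup GQ := W0 ⊓ S14.cycH (p ^ r) with hW1def
  have hW1n : W1.Normal := inferInstance
  have hW1all : W1 ∈ levAll.S := by
    refine ⟨hW1n, ?_⟩
    obtain ⟨-, F, hF, hFW⟩ := levS_subset_levAll S hW0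
    obtain ⟨F', hF', hFW'⟩ := FrobOrd.cycH_open (n := p ^ r) (pow_ne_zero _ hp.ne_zero)
    have := hF; have := hF'
    refine ⟨F ⊔ F', inferInstance, ?_⟩
    rw [IntermediateField.fixingSubgroup_sup]
    exact inf_le_inf hFW hFW'
  have hW1o : IsOpen (W1 : Set GQ) := by
    obtain ⟨-, F, hF, hFW⟩ := hW1all
    have := hF
    exact Subgroup.isOpen_mono hFW F.fixingSubgroup_isOpen
  have hW1fi : W1.FiniteIndex := levAll.fin W1 hW1all
  have hIW1 : A.inertiaSubgroupIn ℚ ≤ W1 := le_inf hIW0 (FrobOrd.inertia_le_cycH A hcop hA)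
  have hord := FrobOrd.ordgrow p hq.one_lt W0 (fun u hu => hχ' u (hW0U' hu)) hFrζ hn0 hmem hmin hr
  obtain ⟨c, hc1, hc2⟩ := LTOAlg.exists_primitive (cycloChar p) f coc W0 W1 inf_le_left
    (fun g h u hu u' hu' => lev g h u (hW0U hu) u' (hW0U hu'))
    (fun u hu => hχ' u (hW0U' hu)) Fr n0 hmem hord
  -- the decomposition group is generated by `Fr` modulo `W1`
  have hgen : ∀ g : Gq q, ∃ i : ℕ, (Fr ^ i)⁻¹ * localGaloisToGlobal q g ∈ W1 := by
    intro g
    have h1 := GN.LTO.mk_mem_zpowers A hq hA Fr hFr W1 hW1o hIW1 (localGaloisToGlobal q g)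
      (GN.LTO.stab_of_mem_decomp A _ (localGaloisToGlobal_mem_decompositionSubgroup q g))
    rw [← mem_powers_iff_mem_zpowers] at h1
    obtain ⟨i, hi⟩ := h1
    refine ⟨i, ?_⟩
    rw [← QuotientGroup.eq, QuotientGroup.mk_pow]
    exact hi
  refine ⟨fun g => c (localGaloisToGlobal q g), ⟨W1.comap (localGaloisToGlobal q),
    ⟨W1, hW1all, rfl⟩, ?_⟩, ?_⟩
  · intro g v hv
    show c (localGaloisToGlobal q (g * v)) = c (localGaloisToGlobal q g)
    rw [map_mul]
    exact hc1 _ _ hv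
  · intro g h
    have h1 := hc2 _ _ (hgen g) (hgen h)
    rw [← map_mul] at h1
    exact h1

end Fermat.Agent.CFT.GR

end
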