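/-
TEAM CFT, layer [GLOB-GR] : GR-A4, norms in a layer = norms in `Ω`.
-/
import Fermat.Agent.CFT.GR.Interface

set_option autoImplicit false

noncomputable section

namespace Fermat.Agent.CFT.GR

open Fermat.Agent.CFT.Top Fermat.Agent.CFT.Local

attribute [local instance] Units.mulDistribMulActionRight
attribute [local instance] Fermat.Agent.CFT.Local.quotAct

section

variable {G L : Type} [Group G] [Field L] [MulSemiringAction G L]

/-- for an `N`-invariant `b`, `g • b` only depends on the coset `g N`. -/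
lemma normLayer_out_smul (N : Subgroup G) (b : Lˣ) (hb : ∀ n ∈ N, n • b = b) (g : G) :
    (Quotient.out (g : G ⧸ N) : G) • b = g • b := by
  obtain ⟨n, hn⟩ := QuotientGroup.mk_out_eq_mul N g
  have : (Quotient.out (g : G ⧸ N) : G) = g * n := hn
  rw [this, mul_smul, hb n n.2]

end

section

variable {𝒢 Ω : Type} [Group 𝒢] [Field Ω] [MulSemiringAction 𝒢 Ω]

lemma normLayer_layU_injective (U : Subgroup 𝒢) : Function.Injective (layU (Ω := Ω) U) := by
  intro x y h
  apply Units.ext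
  apply Subtype.ext
  exact congrArg (fun u : Ωˣ => (u : Ω)) h

lemma normLayer_layU_smul (U : Subgroup 𝒢) [U.Normal] (g : 𝒢) (b : (FixedPoints.subfield U Ω)ˣ) :
    layU U ((g : 𝒢 ⧸ U) • b) = g • layU U b :=
  Units.ext rfl

/-- the map `𝒢 ⧸ N → (𝒢 ⧸ U) ⧸ N₀`. -/
def normLayerMap (U N : Subgroup 𝒢) [U.Normal] (N₀ : Subgroup (𝒢 ⧸ U))
    (hN : N₀.comap (QuotientGroup.mk' U) = N) : 𝒢 ⧸ N → (𝒢 ⧸ U) ⧸ N₀ :=
  Quotient.map' (fun g : 𝒢 => (g : 𝒢 ⧸ U)) (by
    intro a b hab
    rw [QuotientGroup.leftRel_apply] at hab ⊢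
    rw [← hN] at hab
    exact hab)

lemma normLayerMap_mk (U N : Subgroup 𝒢) [U.Normal] (N₀ : Subgroup (𝒢 ⧸ U))
    (hN : N₀.comap (QuotientGroup.mk' U) = N) (g : 𝒢) :
    normLayerMap U N N₀ hN (g : 𝒢 ⧸ N) = (((g : 𝒢 ⧸ U)) : (𝒢 ⧸ U) ⧸ N₀) := rfl

lemma normLayerMap_bijective (U N : Subgroup 𝒢) [U.Normal] (N₀ : Subgroup (𝒢 ⧸ U))
    (hN : N₀.comap (QuotientGroup.mk' U) = N) : Function.Bijective (normLayerMap U N N₀ hN) := by
  constructor
  · intro a b
    induction a using QuotientGroup.induction_on with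
    | H a =>
      induction b using QuotientGroup.induction_on with
      | H b =>
        intro h
        rw [normLayerMap_mk, normLayerMap_mk, QuotientGroup.eq] at h
        rw [QuotientGroup.eq, ← hN]
        exact h
  · intro c
    induction c using QuotientGroup.induction_on with
    | H c =>
      induction c using QuotientGroup.induction_on with
      | H g => exact ⟨(g : 𝒢 ⧸ N), rfl⟩

lemma normLayer_key (U N : Subgroup 𝒢) [U.Normal] (N₀ : Subgroup (𝒢 ⧸ U))
    (hN : N₀.comap (QuotientGroup.mk' U) = N) (b₀ : (FixedPoints.subfield U Ω)ˣ)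
    (hb₀ : ∀ n ∈ N₀, n • b₀ = b₀) :
    (∀ n ∈ N, n • layU U b₀ = layU U b₀) ∧
    layU U (∏ᶠ c : (𝒢 ⧸ U) ⧸ N₀, (Quotient.out c : 𝒢 ⧸ U) • b₀) =
      ∏ᶠ c : 𝒢 ⧸ N, (Quotient.out c : 𝒢) • layU U b₀ := by
  have h1 : ∀ n ∈ N, n • layU U b₀ = layU U b₀ := by
    intro n hn
    rw [← normLayer_layU_smul, hb₀]
    rw [← hN] at hn
    exact hn
  refine ⟨h1, ?_⟩
  rw [MonoidHom.map_finprod_of_injective _ (normLayer_layU_injective U)]
  symm
  refine finprod_eq_of_bijective (normLayerMap U N N₀ hN) (normLayerMap_bijective U N N₀ hN) ?_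
  intro c
  induction c using QuotientGroup.induction_on with
  | H g =>
    rw [normLayerMap_mk, normLayer_out_smul N _ h1, normLayer_out_smul N₀ _ hb₀,
      normLayer_layU_smul]

end

theorem normLayer : Stmt_normLayer := by
  intro 𝒢 Ω _ _ _ U N _ hUN _ N₀ hN a
  constructor
  · rintro ⟨b₀, hb₀, rfl⟩
    obtain ⟨h1, h2⟩ := normLayer_key U N N₀ hN b₀ hb₀
    exact ⟨layU U b₀, h1, h2⟩
  · rintro ⟨b, hb, hab⟩
    have hmem : (b : Ω) ∈ FixedPoints.subfield U Ω := by
      intro u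
      exact congrArg (fun x : Ωˣ => (x : Ω)) (hb u (hUN u.2))
    let b₀ : (FixedPoints.subfield U Ω)ˣ :=
      Units.mk0 (⟨(b : Ω), hmem⟩ : FixedPoints.subfield U Ω)
        (fun h => b.ne_zero (congrArg Subtype.val h))
    have hbb : layU U b₀ = b := Units.ext rfl
    have hb₀ : ∀ n ∈ N₀, n • b₀ = b₀ := by
      intro n hn
      induction n using QuotientGroup.induction_on with
      | H g =>
        apply normLayer_layU_injective U
        rw [normLayer_layU_smul, hbb]
        apply hb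
        rw [← hN]
        exact hn
    obtain ⟨-, h2⟩ := normLayer_key U N N₀ hN b₀ hb₀
    refine ⟨b₀, hb₀, normLayer_layU_injective U ?_⟩
    rw [h2, hbb, hab]

end Fermat.Agent.CFT.GR

end
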