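import Fermat.Agent.CFT.GR.Interface

/-!
# GR-E5 (RECe) : the elementary product formula in `(ℤ/r)ˣ / Hr`
-/

set_option autoImplicit false

namespace Fermat.Agent.CFT.GR.RECe

/-- the class of a natural number prime to `r` (junk value `1` otherwise). -/
noncomputable def U (r : ℕ) (q : ℕ) : (ZMod r)ˣ :=
  if h : q.Coprime r then ZMod.unitOfCoprime q h else 1

lemma coe_U {r q : ℕ} (h : q.Coprime r) : ((U r q : (ZMod r)ˣ) : ZMod r) = (q : ZMod r) := by
  rw [U, dif_pos h, ZMod.coe_unitOfCoprime]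

lemma coprime_of_not_dvd {r : ℕ} (hr : r.Prime) {x : ℕ} (h : ¬ r ∣ x) : x.Coprime r :=
  ((Nat.Prime.coprime_iff_not_dvd hr).mpr h).symm

lemma U_eq_prod {r : ℕ} (hr : r.Prime) {x : ℕ} (hx : x ≠ 0) (hrx : ¬ r ∣ x) (P : Finset ℕ)
    (hP : x.primeFactors ⊆ P) : U r x = ∏ q ∈ P, U r q ^ (x.factorization q) := by
  rw [← Finset.prod_subset hP]
  · apply Units.ext
    rw [coe_U (coprime_of_not_dvd hr hrx), Units.coe_prod]
    conv_lhs => rw [← Nat.prod_factorization_pow_eq_self hx]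
    rw [Finsupp.prod, Nat.support_factorization]
    push_cast
    refine Finset.prod_congr rfl fun q hq => ?_
    have hq' := Nat.mem_primeFactors.mp hq
    have : ¬ r ∣ q := fun h => hrx (h.trans hq'.2.1)
    rw [coe_U (coprime_of_not_dvd hr this)]
  · intro q _ hq
    have : x.factorization q = 0 := by
      rw [← Finsupp.notMem_support_iff, Nat.support_factorization]
      exact hq
    rw [this, pow_zero]

lemma neg_one_mem {G : Type} [CommGroup G] [HasDistribNeg G] (H : Subgroup G) (h : Odd H.index) :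
    (-1 : G) ∈ H := by
  have := H.pow_index_mem (-1 : G)
  rwa [h.neg_one_pow] at this

/-- the valuation of `A` at a prime `q ≠ r`. -/
lemma padicValRat_eq {r q : ℕ} [Fact r.Prime] [hq : Fact q.Prime] (hqr : q ≠ r) {A : ℚ}
    (hA : A ≠ 0) {s : ℤ} (hs : s = 1 ∨ s = -1) {e1 e2 m n : ℕ} (hm : m ≠ 0) (hn : n ≠ 0)
    (h : A * ((r : ℚ) ^ e2 * (n : ℚ)) = (s : ℚ) * ((r : ℚ) ^ e1 * (m : ℚ))) :
    padicValRat q A = (m.factorization q : ℤ) - (n.factorization q : ℤ) := by
  have hr0 : (r : ℚ) ≠ 0 := by exact_mod_cast (Fact.out : r.Prime).ne_zero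
  have hm0 : (m : ℚ) ≠ 0 := by exact_mod_cast hm
  have hn0 : (n : ℚ) ≠ 0 := by exact_mod_cast hn
  have hs0 : (s : ℚ) ≠ 0 := by rcases hs with rfl | rfl <;> norm_num
  have hvr : padicValRat q (r : ℚ) = 0 := by
    rw [padicValRat.of_nat, padicValNat_primes hqr]; rfl
  have hvs : padicValRat q (s : ℚ) = 0 := by
    rcases hs with rfl | rfl
    · simp
    · simp
  have h1 := congrArg (padicValRat q) h
  rw [padicValRat.mul hA (mul_ne_zero (pow_ne_zero _ hr0) hn0),
    padicValRat.mul (pow_ne_zero _ hr0) hn0, padicValRat.mul hs0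
      (mul_ne_zero (pow_ne_zero _ hr0) hm0), padicValRat.mul (pow_ne_zero _ hr0) hm0,
    padicValRat.pow, padicValRat.pow, hvr, hvs, padicValRat.of_nat, padicValRat.of_nat] at h1
  rw [Nat.factorization_def _ hq.out, Nat.factorization_def _ hq.out]
  linarith

end Fermat.Agent.CFT.GR.RECe

namespace Fermat.Agent.CFT.GR

open RECe in
theorem rece : Stmt_RECe := by
  intro r l _ _ Hr hodd hlr a h1 h2 u hu
  classical
  have hr : r.Prime := Fact.out
  have hl : l.Prime := Fact.out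
  set A : ℚ := (a : ℚ) with hAdef
  have hA : A ≠ 0 := a.ne_zero
  have hnum : A.num.natAbs ≠ 0 := Int.natAbs_ne_zero.mpr (Rat.num_ne_zero.mpr hA)
  obtain ⟨e1, m, hmr, hm⟩ := Nat.exists_eq_pow_mul_and_not_dvd hnum r hr.ne_one
  obtain ⟨e2, n, hnr, hn⟩ := Nat.exists_eq_pow_mul_and_not_dvd A.den_ne_zero r hr.ne_one
  have hm0 : m ≠ 0 := by rintro rfl; exact hmr (dvd_zero _)
  have hn0 : n ≠ 0 := by rintro rfl; exact hnr (dvd_zero _)
  have hr0 : (r : ℚ) ≠ 0 := by exact_mod_cast hr.ne_zero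
  -- the sign
  obtain ⟨s, ε, hs, hsnum, hεs, hεH⟩ : ∃ (s : ℤ) (ε : (ZMod r)ˣ), (s = 1 ∨ s = -1) ∧
      A.num = s * (A.num.natAbs : ℤ) ∧ ((ε : ZMod r) = (s : ZMod r)) ∧ ε ∈ Hr := by
    rcases Int.natAbs_eq A.num with h | h
    · exact ⟨1, 1, Or.inl rfl, by rw [one_mul]; exact h, by simp, one_mem _⟩
    · exact ⟨-1, -1, Or.inr rfl, by rw [neg_one_mul]; exact h, by simp, neg_one_mem Hr hodd⟩
  have hkey : A * ((r : ℚ) ^ e2 * (n : ℚ)) = (s : ℚ) * ((r : ℚ) ^ e1 * (m : ℚ)) := by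
    have h3 : A * (A.den : ℚ) = (A.num : ℚ) := Rat.mul_den_eq_num A
    have h4 : (A.den : ℚ) = (r : ℚ) ^ e2 * (n : ℚ) := by exact_mod_cast hn
    have h5 : (A.num : ℚ) = (s : ℚ) * ((r : ℚ) ^ e1 * (m : ℚ)) := by
      rw [hsnum, hm]; push_cast; ring
    rw [← h4, h3, h5]
  have hcm : m.Coprime r := coprime_of_not_dvd hr hmr
  have hcn : n.Coprime r := coprime_of_not_dvd hr hnr
  set u0 : (ZMod r)ˣ := ε * U r m * (U r n)⁻¹ with hu0
  -- `u0` is the unit part of `a`
  have hup : IsUnitPart r a u0 := by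
    refine ⟨(e1 : ℤ) - e2, s * m, n, ?_, ?_, ?_, ?_⟩
    · intro hd
      have : (r : ℤ) ∣ (m : ℤ) := by
        rcases hs with rfl | rfl
        · simpa using hd
        · simpa using hd
      exact hmr (by exact_mod_cast this)
    · intro hd
      exact hnr (by exact_mod_cast hd)
    · rw [zpow_sub₀ hr0, zpow_natCast, zpow_natCast]
      push_cast
      field_simp
      linear_combination hkey
    · have hn1 : ((U r n : (ZMod r)ˣ) : ZMod r) = (n : ZMod r) := coe_U hcn
      have : ((u0 : (ZMod r)ˣ) : ZMod r) * ((U r n : (ZMod r)ˣ) : ZMod r) =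
          (ε : ZMod r) * ((U r m : (ZMod r)ˣ) : ZMod r) := by
        rw [← Units.val_mul, ← Units.val_mul, hu0]
        congr 1
        group
      rw [hn1, coe_U hcm, hεs] at this
      push_cast
      exact this
  have hu0H : u0 ∈ Hr := h2 u0 hup
  set P : Finset ℕ := insert l (m.primeFactors ∪ n.primeFactors) with hP
  have hPprime : ∀ q ∈ P, q.Prime ∧ q ≠ r := by
    intro q hq
    rcases Finset.mem_insert.mp hq with rfl | hq
    · exact ⟨hl, hlr⟩
    · rcases Finset.mem_union.mp hq with hq | hq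
      · have := Nat.mem_primeFactors.mp hq
        exact ⟨this.1, fun h => hmr (h ▸ this.2.1)⟩
      · have := Nat.mem_primeFactors.mp hq
        exact ⟨this.1, fun h => hnr (h ▸ this.2.1)⟩
  have hUm := U_eq_prod hr hm0 hmr P
    (Finset.subset_union_left.trans (Finset.subset_insert _ _))
  have hUn := U_eq_prod hr hn0 hnr P
    (Finset.subset_union_right.trans (Finset.subset_insert _ _))
  have hprod : ∏ q ∈ P, U r q ^ padicValRat q A = U r m * (U r n)⁻¹ := by
    rw [hUm, hUn, ← Finset.prod_inv_distrib, ← Finset.prod_mul_distrib]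
    refine Finset.prod_congr rfl fun q hq => ?_
    obtain ⟨hqp, hqr⟩ := hPprime q hq
    have : Fact q.Prime := ⟨hqp⟩
    rw [padicValRat_eq hqr hA hs hm0 hn0 hkey, zpow_sub, zpow_natCast, zpow_natCast]
  have hlP : l ∈ P := Finset.mem_insert_self _ _
  have herase : ∏ q ∈ P.erase l, U r q ^ padicValRat q A ∈ Hr := by
    refine Subgroup.prod_mem _ fun q hq => ?_
    obtain ⟨hql, hqP⟩ := Finset.mem_erase.mp hq
    obtain ⟨hqp, hqr⟩ := hPprime q hqP
    have : Fact q.Prime := ⟨hqp⟩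
    refine h1 q hqr hql _ (coe_U ?_)
    exact (Nat.coprime_primes hqp hr).mpr hqr
  have hul : u = U r l := by
    apply Units.ext
    rw [hu, coe_U ((Nat.coprime_primes hl hr).mpr hlr)]
  rw [hul]
  have hfinal : U r l ^ padicValRat l A =
      ε⁻¹ * u0 * (∏ q ∈ P.erase l, U r q ^ padicValRat q A)⁻¹ := by
    rw [hu0, mul_assoc ε, ← hprod, ← Finset.mul_prod_erase P _ hlP]
    group
  rw [hfinal]
  exact mul_mem (mul_mem (inv_mem hεH) hu0H) (inv_mem herase)

end Fermat.Agent.CFT.GR
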