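/-
TEAM CFT -> S55, layer [GLOB-GR], GR-E4 (RECt): abstract lemmas (Mathlib only).
-/
import Mathlib

set_option autoImplicit false

noncomputable section

namespace Fermat.Agent.CFT.GR

open Polynomial

/-! ### ultrametric lemmas -/

section Ultra

variable {Ω : Type} [NormedField Ω] [IsUltrametricDist Ω]

theorem RECt_norm_sum_lt {ι : Type} (s : Finset ι) (f : ι → Ω) {C : ℝ} (hC : 0 < C)
    (h : ∀ i ∈ s, ‖f i‖ < C) : ‖∑ i ∈ s, f i‖ < C := by
  classical
  induction s using Finset.induction_on with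
  | empty => simpa using hC
  | insert a s ha ih =>
    rw [Finset.sum_insert ha]
    refine lt_of_le_of_lt (IsUltrametricDist.norm_add_le_max _ _) (max_lt ?_ ?_)
    · exact h a (Finset.mem_insert_self a s)
    · exact ih fun i hi => h i (Finset.mem_insert_of_mem hi)

/-- the principal units -/
def RECt_U1 (Ω : Type) [NormedField Ω] [IsUltrametricDist Ω] : Submonoid Ω where
  carrier := {x | ‖x - 1‖ < 1}
  one_mem' := by simp
  mul_mem' := by
    intro x y hx hy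
    have hx' : ‖x - 1‖ < 1 := hx
    have hy' : ‖y - 1‖ < 1 := hy
    have hy1 : ‖y‖ ≤ 1 := by
      have : y = (y - 1) + 1 := by ring
      rw [this]
      refine (IsUltrametricDist.norm_add_le_max _ _).trans (max_le hy'.le ?_)
      simp
    have e : x * y - 1 = (x - 1) * y + (y - 1) := by ring
    show ‖x * y - 1‖ < 1
    rw [e]
    refine lt_of_le_of_lt (IsUltrametricDist.norm_add_le_max _ _) (max_lt ?_ hy')
    rw [norm_mul]
    calc ‖x - 1‖ * ‖y‖ ≤ ‖x - 1‖ * 1 := by gcongr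
      _ < 1 := by rw [mul_one]; exact hx'

theorem RECt_mem_U1 {x : Ω} : x ∈ RECt_U1 Ω ↔ ‖x - 1‖ < 1 := Iff.rfl

theorem RECt_norm_of_mem_U1 {x : Ω} (hx : x ∈ RECt_U1 Ω) : ‖x‖ = 1 := by
  have hx' : ‖x - 1‖ < 1 := hx
  have : x = (x - 1) + 1 := by ring
  rw [this]
  have h1 : ‖(1 : Ω)‖ = 1 := norm_one
  rw [IsUltrametricDist.norm_add_eq_max_of_norm_ne_norm (by rw [h1]; exact hx'.ne), h1]
  exact max_eq_right hx'.le

theorem RECt_norm_one_sub_pow_le {x : Ω} (hx : ‖x‖ ≤ 1) (n : ℕ) : ‖1 - x ^ n‖ ≤ ‖1 - x‖ := by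
  rw [← mul_neg_geom_sum x n, norm_mul]
  have : ‖∑ i ∈ Finset.range n, x ^ i‖ ≤ 1 := by
    refine IsUltrametricDist.norm_sum_le_of_forall_le_of_nonneg zero_le_one fun i _ => ?_
    rw [norm_pow]
    exact pow_le_one₀ (norm_nonneg _) hx
  calc ‖1 - x‖ * ‖∑ i ∈ Finset.range n, x ^ i‖ ≤ ‖1 - x‖ * 1 := by gcongr
    _ = ‖1 - x‖ := mul_one _

end Ultra

/-! ### the dominant term -/

section Dominant

variable {E Ω : Type} [NormedField E] [NormedField Ω] [IsUltrametricDist Ω] [Algebra E Ω]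

theorem RECt_norm_inj (r : ℕ) (hr : 2 ≤ r) (hval : ∀ x : E, x ≠ 0 → ∃ z : ℤ, ‖x‖ = (r : ℝ) ^ z)
    (ρ : ℝ) (hρ : ρ ^ (r - 1) = (r : ℝ)⁻¹) {c c' : E} (hc : c ≠ 0) (hc' : c' ≠ 0) {j j' : ℕ}
    (hj : j < r - 1) (hj' : j' < r - 1) (h : ‖c‖ * ρ ^ j = ‖c'‖ * ρ ^ j') : j = j' := by
  obtain ⟨z, hz⟩ := hval c hc
  obtain ⟨z', hz'⟩ := hval c' hc'
  have hr0 : (0 : ℝ) < r := by positivity
  have hr1 : (r : ℝ) ≠ 1 := by
    have : (1 : ℝ) < r := by exact_mod_cast (by omega : 1 < r)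
    exact this.ne'
  have h2 := congrArg (fun t : ℝ => t ^ (r - 1)) h
  simp only [mul_pow, ← pow_mul] at h2
  rw [mul_comm j, mul_comm j', pow_mul, pow_mul, hρ, hz, hz'] at h2
  have e : ∀ (z : ℤ) (j : ℕ), ((r : ℝ) ^ z) ^ (r - 1) * ((r : ℝ)⁻¹) ^ j
      = (r : ℝ) ^ (z * ((r - 1 : ℕ) : ℤ) - j) := by
    intro z j
    rw [zpow_sub₀ hr0.ne', zpow_mul, zpow_natCast, zpow_natCast, inv_pow, div_eq_mul_inv]
  rw [e, e] at h2
  have h3 := zpow_right_injective₀ hr0 hr1 h2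
  have h4 : (j : ℤ) = j' + (z - z') * ((r - 1 : ℕ) : ℤ) := by linarith
  have h5 : (j : ℤ) % ((r - 1 : ℕ) : ℤ) = (j' : ℤ) % ((r - 1 : ℕ) : ℤ) := by
    rw [h4, Int.add_mul_emod_self_right]
  rw [Int.emod_eq_of_lt (by positivity) (by exact_mod_cast hj),
    Int.emod_eq_of_lt (by positivity) (by exact_mod_cast hj')] at h5
  exact_mod_cast h5

theorem RECt_dominant (hext : ∀ x : E, ‖algebraMap E Ω x‖ = ‖x‖) (r : ℕ) (hr : 2 ≤ r)
    (hval : ∀ x : E, x ≠ 0 → ∃ z : ℤ, ‖x‖ = (r : ℝ) ^ z) (lam : Ω)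
    (hlam : ‖lam‖ ^ (r - 1) = (r : ℝ)⁻¹) (Q : E[X]) (hQ : Q ≠ 0) (hdeg : Q.natDegree < r - 1) :
    ∃ (c : E) (j : ℕ) (y : Ω), c ≠ 0 ∧ ‖y‖ < 1 ∧
      aeval lam Q = algebraMap E Ω c * lam ^ j * (1 + y) := by
  classical
  have hlam0 : lam ≠ 0 := by
    rintro rfl
    rw [norm_zero, zero_pow (by omega)] at hlam
    have : (0 : ℝ) < (r : ℝ)⁻¹ := by positivity
    exact this.ne hlam
  have hne : Q.support.Nonempty := by
    rwa [Finset.nonempty_iff_ne_empty, Ne, Polynomial.support_eq_empty]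
  set t : ℕ → Ω := fun i => algebraMap E Ω (Q.coeff i) * lam ^ i with ht
  obtain ⟨j₀, hj₀, hmax⟩ := Finset.exists_max_image Q.support (fun i => ‖t i‖) hne
  have hc0 : Q.coeff j₀ ≠ 0 := Polynomial.mem_support_iff.1 hj₀
  have ht0 : t j₀ ≠ 0 := mul_ne_zero ((_root_.map_ne_zero _).2 hc0) (pow_ne_zero _ hlam0)
  have hnt : ∀ i, ‖t i‖ = ‖Q.coeff i‖ * ‖lam‖ ^ i := fun i => by
    rw [ht]; simp only [norm_mul, norm_pow, hext]
  have hlt : ∀ i ∈ Q.support.erase j₀, ‖t i‖ < ‖t j₀‖ := by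
    intro i hi
    obtain ⟨hij, his⟩ := Finset.mem_erase.1 hi
    refine lt_of_le_of_ne (hmax i his) fun h => hij ?_
    rw [hnt, hnt] at h
    have hd : ∀ i ∈ Q.support, i < r - 1 := fun i hi =>
      lt_of_le_of_lt (Polynomial.le_natDegree_of_mem_supp i hi) hdeg
    exact RECt_norm_inj r hr hval ‖lam‖ hlam (Polynomial.mem_support_iff.1 his) hc0
      (hd i his) (hd j₀ hj₀) h
  have hsum : aeval lam Q = t j₀ + ∑ i ∈ Q.support.erase j₀, t i := by
    rw [Finset.add_sum_erase _ _ hj₀, Polynomial.aeval_def, Polynomial.eval₂_eq_sum,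
      Polynomial.sum_def]
  refine ⟨Q.coeff j₀, j₀, (∑ i ∈ Q.support.erase j₀, t i) / t j₀, hc0, ?_, ?_⟩
  · rw [norm_div, div_lt_one (norm_pos_iff.2 ht0)]
    exact RECt_norm_sum_lt _ _ (norm_pos_iff.2 ht0) hlt
  · rw [hsum]
    change _ = t j₀ * _
    field_simp

end Dominant

/-! ### group theory and roots of unity -/

theorem RECt_prod_pow {G Δ M : Type} [Group G] [Group Δ] [Finite Δ] [CommMonoid M] (κ : G →* Δ)
    (hκ : Function.Surjective κ) (Hr : Subgroup Δ) (F : Δ → M)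
    (hF : ∀ d, ∀ h ∈ Hr, F (d * h) = F d) :
    (∏ᶠ c : G ⧸ Hr.comap κ, F (κ (Quotient.out c))) ^ Nat.card Hr = ∏ᶠ d : Δ, F d := by
  classical
  have := Fintype.ofFinite Δ
  let Fb : Δ ⧸ Hr → M := fun c => F (Quotient.out c)
  have hFb : ∀ d, F d = Fb (d : Δ ⧸ Hr) := by
    intro d
    obtain ⟨h, hh⟩ := QuotientGroup.mk_out_eq_mul Hr d
    show F d = F (Quotient.out (d : Δ ⧸ Hr))
    rw [hh, hF d h h.2]
  let φ : G ⧸ Hr.comap κ → Δ ⧸ Hr := Quotient.map' κ (fun a b h => by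
    rw [QuotientGroup.leftRel_apply] at h ⊢
    have : κ (a⁻¹ * b) ∈ Hr := h
    rwa [map_mul, map_inv] at this)
  have hφmk : ∀ g : G, φ (g : G ⧸ Hr.comap κ) = ((κ g : Δ) : Δ ⧸ Hr) := fun g => rfl
  have hφ : Function.Bijective φ := by
    constructor
    · intro a b
      induction a using QuotientGroup.induction_on with
      | H a =>
        induction b using QuotientGroup.induction_on with
        | H b =>
          intro h
          rw [hφmk, hφmk, QuotientGroup.eq] at h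
          rw [QuotientGroup.eq]
          show κ (a⁻¹ * b) ∈ Hr
          rwa [map_mul, map_inv]
    · intro c
      induction c using QuotientGroup.induction_on with
      | H d =>
        obtain ⟨g, rfl⟩ := hκ d
        exact ⟨(g : G ⧸ Hr.comap κ), rfl⟩
  have step1 : ∏ᶠ c : G ⧸ Hr.comap κ, F (κ (Quotient.out c)) = ∏ᶠ c : Δ ⧸ Hr, Fb c := by
    refine finprod_eq_of_bijective φ hφ fun c => ?_
    rw [hFb, ← hφmk, QuotientGroup.out_eq']
  rw [step1, finprod_eq_prod_of_fintype, finprod_eq_prod_of_fintype]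
  have step2 : ∏ d : Δ, F d = ∏ x : (Δ ⧸ Hr) × Hr, Fb x.1 := by
    refine Fintype.prod_equiv (Subgroup.groupEquivQuotientProdSubgroup (s := Hr)) _ _ fun d => ?_
    rw [hFb]
    rfl
  rw [step2, Fintype.prod_prod_type]
  simp only [Finset.prod_const, Finset.card_univ]
  rw [Finset.prod_pow, Nat.card_eq_fintype_card]

theorem RECt_mem_of_pow_card {Δ : Type} [CommGroup Δ] [Finite Δ] [IsCyclic Δ] (H : Subgroup Δ)
    (u : Δ) (hu : u ^ Nat.card H = 1) : u ∈ H := by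
  classical
  have := Fintype.ofFinite Δ
  have hn : 0 < Nat.card H := Nat.card_pos
  have h1 := IsCyclic.card_pow_eq_one_le (α := Δ) hn
  have hsub : (H : Set Δ).toFinset ⊆ Finset.univ.filter fun a : Δ => a ^ Nat.card H = 1 := by
    intro x hx
    rw [Set.mem_toFinset] at hx
    rw [Finset.mem_filter]
    refine ⟨Finset.mem_univ _, ?_⟩
    have := pow_card_eq_one' (x := (⟨x, hx⟩ : H))
    exact congrArg Subtype.val this
  have hcard : (H : Set Δ).toFinset.card = Nat.card H := by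
    rw [Set.toFinset_card, Nat.card_eq_fintype_card]
    rfl
  have heq := Finset.eq_of_subset_of_card_le hsub (by rw [hcard]; exact h1)
  have hu' : u ∈ Finset.univ.filter fun a : Δ => a ^ Nat.card H = 1 := by
    rw [Finset.mem_filter]; exact ⟨Finset.mem_univ _, hu⟩
  rw [← heq, Set.mem_toFinset] at hu'
  exact hu'

theorem RECt_prod_units {Ω : Type} [Field Ω] (r : ℕ) [Fact r.Prime] (w : Ω)
    (hw : IsPrimitiveRoot w r) : ∏ d : (ZMod r)ˣ, (1 - w ^ (d : ZMod r).val) = (r : Ω) := by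
  have hr : r.Prime := Fact.out
  obtain ⟨n, hn⟩ : ∃ n, r = n + 1 := ⟨r - 1, by have := hr.pos; omega⟩
  have h1 : ∏ k ∈ Finset.range n, (1 - w ^ (k + 1)) = (r : Ω) := by
    have := IsPrimitiveRoot.prod_one_sub_pow_eq_order (n := n) (μ := w) (hn ▸ hw)
    rw [this, hn]; push_cast; ring
  rw [← h1]
  refine Finset.prod_bij (fun d _ => (d : ZMod r).val - 1) ?_ ?_ ?_ ?_
  · intro d _
    have h2 := ZMod.val_lt (d : ZMod r)
    have h3 : (d : ZMod r).val ≠ 0 := by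
      rw [Ne, ZMod.val_eq_zero]; exact d.ne_zero
    rw [Finset.mem_range]; omega
  · intro d _ d' _ h
    have h3 : (d : ZMod r).val ≠ 0 := by
      rw [Ne, ZMod.val_eq_zero]; exact d.ne_zero
    have h3' : (d' : ZMod r).val ≠ 0 := by
      rw [Ne, ZMod.val_eq_zero]; exact d'.ne_zero
    apply Units.ext
    apply ZMod.val_injective
    omega
  · intro k hk
    rw [Finset.mem_range] at hk
    have hcop : Nat.Coprime (k + 1) r := by
      rw [Nat.coprime_comm, Nat.Prime.coprime_iff_not_dvd hr]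
      intro hd
      have := Nat.le_of_dvd (by omega) hd
      omega
    refine ⟨ZMod.unitOfCoprime (k + 1) hcop, Finset.mem_univ _, ?_⟩
    rw [ZMod.coe_unitOfCoprime, ZMod.val_natCast_of_lt (by omega)]
    rfl
  · intro d _
    have h3 : (d : ZMod r).val ≠ 0 := by
      rw [Ne, ZMod.val_eq_zero]; exact d.ne_zero
    congr 2
    omega

theorem RECt_pow_val_mul_inv {Ω : Type} [Field Ω] (r : ℕ) [Fact r.Prime] (w : Ω) (hw : w ^ r = 1)
    (d : (ZMod r)ˣ) : (w ^ (d : ZMod r).val) ^ ((d⁻¹ : (ZMod r)ˣ) : ZMod r).val = w := by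
  have : Fact (1 < r) := ⟨(Fact.out : r.Prime).one_lt⟩
  rw [← pow_mul, pow_eq_pow_mod _ hw, ← ZMod.val_mul, Units.mul_inv, ZMod.val_one, pow_one]

theorem RECt_norm_one_sub_pow {Ω : Type} [NormedField Ω] [IsUltrametricDist Ω] (r : ℕ)
    [Fact r.Prime] (w : Ω) (hw : w ^ r = 1) (d : (ZMod r)ˣ) :
    ‖1 - w ^ (d : ZMod r).val‖ = ‖1 - w‖ := by
  have hr : r.Prime := Fact.out
  have hw1 : ‖w‖ = 1 := by
    have h1 : ‖w‖ ^ r = 1 := by rw [← norm_pow, hw, norm_one]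
    exact (pow_eq_one_iff_of_nonneg (norm_nonneg _) hr.ne_zero).1 h1
  refine le_antisymm (RECt_norm_one_sub_pow_le hw1.le _) ?_
  have h1 := RECt_norm_one_sub_pow_le (x := w ^ (d : ZMod r).val)
    (by rw [norm_pow, hw1, one_pow]) ((d⁻¹ : (ZMod r)ˣ) : ZMod r).val
  rwa [RECt_pow_val_mul_inv r w hw d] at h1

theorem RECt_norm_lam {Ω : Type} [NormedField Ω] [IsUltrametricDist Ω] (r : ℕ) [Fact r.Prime]
    (w : Ω) (hw : IsPrimitiveRoot w r) (hnr : ‖(r : Ω)‖ = (r : ℝ)⁻¹) :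
    ‖1 - w‖ ^ (r - 1) = (r : ℝ)⁻¹ := by
  rw [← hnr, ← RECt_prod_units r w hw, norm_prod]
  simp only [RECt_norm_one_sub_pow r w hw.pow_eq_one]
  rw [Finset.prod_const, Finset.card_univ, ZMod.card_units]

end Fermat.Agent.CFT.GR

end
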