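/-
TEAM CFT -> S55, layer [GLOB-GR], GR-E4 (RECt): the totally ramified extension `E(ζ_r)/E`,
abstract form.
-/
import Fermat.Agent.CFT.GR.RECtAbs

set_option autoImplicit false

noncomputable section

namespace Fermat.Agent.CFT.GR

open Polynomial IntermediateField

/-- the abstract situation: `E` a "local field" with value group `r^ℤ`, `Ω/E` Galois with an
invariant ultrametric norm, `w` a primitive `r`-th root of unity, `κ` the cyclotomic character. -/
structure RECtData (E Ω : Type) [NormedField E] [NormedField Ω] [Algebra E Ω] (r : ℕ)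
    (w : Ω) (κ : (Ω ≃ₐ[E] Ω) →* (ZMod r)ˣ) : Prop where
  hext : ∀ x : E, ‖algebraMap E Ω x‖ = ‖x‖
  hval : ∀ x : E, x ≠ 0 → ∃ z : ℤ, ‖x‖ = (r : ℝ) ^ z
  hiso : ∀ (σ : Ω ≃ₐ[E] Ω) (x : Ω), ‖σ x‖ = ‖x‖
  hnr : ‖(r : Ω)‖ = (r : ℝ)⁻¹
  hw : IsPrimitiveRoot w r
  hκ : ∀ σ : Ω ≃ₐ[E] Ω, σ w = w ^ ((κ σ : (ZMod r)ˣ) : ZMod r).val

variable {E Ω : Type} [NormedField E] [NormedField Ω] [IsUltrametricDist Ω] [Algebra E Ω]
  {r : ℕ} [Fact r.Prime] {w : Ω} {κ : (Ω ≃ₐ[E] Ω) →* (ZMod r)ˣ}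

theorem RECtData.expand (D : RECtData E Ω r w κ) (P : E[X]) (hP : P ≠ 0)
    (hdeg : P.natDegree < r - 1) :
    ∃ (c : E) (j : ℕ) (y : Ω), c ≠ 0 ∧ ‖y‖ < 1 ∧
      aeval w P = algebraMap E Ω c * (1 - w) ^ j * (1 + y) := by
  have hr : r.Prime := Fact.out
  have hinv : (P.comp (1 - X)).comp (1 - X) = P := by
    rw [Polynomial.comp_assoc]
    simp
  have hQ : P.comp (1 - X) ≠ 0 := by
    intro h
    rw [h, Polynomial.zero_comp] at hinv
    exact hP hinv.symm
  have hd1 : (1 - X : E[X]).natDegree = 1 := by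
    have : (1 - X : E[X]) = C (-1) * X + C 1 := by simp; ring
    rw [this]
    exact natDegree_linear (by simp)
  have hQd : (P.comp (1 - X)).natDegree < r - 1 := by
    rw [natDegree_comp, hd1, mul_one]; exact hdeg
  obtain ⟨c, j, y, hc, hy, h⟩ := RECt_dominant D.hext r hr.two_le D.hval (1 - w)
    (RECt_norm_lam r w D.hw D.hnr) _ hQ hQd
  refine ⟨c, j, y, hc, hy, ?_⟩
  rw [← h, Polynomial.aeval_comp]
  simp

theorem RECtData.aeval_ne_zero (D : RECtData E Ω r w κ) (P : E[X]) (hP : P ≠ 0)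
    (hdeg : P.natDegree < r - 1) : aeval w P ≠ 0 := by
  have hr : r.Prime := Fact.out
  obtain ⟨c, j, y, hc, hy, h⟩ := D.expand P hP hdeg
  rw [h]
  have h1 : (1 - w) ≠ 0 := by
    intro h0
    exact D.hw.ne_one hr.one_lt (sub_eq_zero.1 h0).symm
  have h2 : 1 + y ≠ 0 := by
    intro h0
    have : y = -1 := by linear_combination h0
    rw [this, norm_neg, norm_one] at hy
    exact lt_irrefl _ hy
  exact mul_ne_zero (mul_ne_zero ((_root_.map_ne_zero _).2 hc) (pow_ne_zero _ h1)) h2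

theorem RECtData.aeval_cyclotomic (D : RECtData E Ω r w κ) {μ : Ω} (hμ : IsPrimitiveRoot μ r) :
    aeval μ (cyclotomic r E) = 0 := by
  have hr : r.Prime := Fact.out
  rw [aeval_def, eval₂_eq_eval_map, map_cyclotomic]
  exact hμ.isRoot_cyclotomic hr.pos

theorem RECtData.natDegree_cyclotomic (r : ℕ) [Fact r.Prime] (E : Type) [Field E] :
    (cyclotomic r E).natDegree = r - 1 := by
  rw [Polynomial.natDegree_cyclotomic, Nat.totient_prime Fact.out]

variable [IsGalois E Ω]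

theorem RECtData.minpoly_eq (D : RECtData E Ω r w κ) : minpoly E w = cyclotomic r E := by
  have hint : IsIntegral E w := Algebra.IsIntegral.isIntegral w
  refine (eq_of_monic_of_dvd_of_natDegree_le (minpoly.monic hint) (cyclotomic.monic r E)
    (minpoly.dvd E w (D.aeval_cyclotomic D.hw)) ?_).symm
  rw [RECtData.natDegree_cyclotomic]
  by_contra hlt
  exact D.aeval_ne_zero _ (minpoly.ne_zero hint) (not_le.1 hlt) (minpoly.aeval E w)

theorem RECtData.eq_of_pow_eq (D : RECtData E Ω r w κ) {d d' : (ZMod r)ˣ}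
    (h : w ^ (d : ZMod r).val = w ^ (d' : ZMod r).val) : d = d' :=
  Units.ext (ZMod.val_injective r (D.hw.pow_inj (ZMod.val_lt _) (ZMod.val_lt _) h))

theorem RECtData.surjective (D : RECtData E Ω r w κ) : Function.Surjective κ := by
  have hr : r.Prime := Fact.out
  intro d
  have hint : IsIntegral E w := Algebra.IsIntegral.isIntegral w
  have hprim : IsPrimitiveRoot (w ^ (d : ZMod r).val) r :=
    D.hw.pow_of_coprime _ (ZMod.val_coe_unit_coprime d)
  have h1 : IsConjRoot E w (w ^ (d : ZMod r).val) := by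
    rw [isConjRoot_iff_aeval_eq_zero hint, D.minpoly_eq]
    exact D.aeval_cyclotomic hprim
  obtain ⟨σ, hσ⟩ := isConjRoot_iff_exists_algEquiv.1 h1.symm
  refine ⟨σ, D.eq_of_pow_eq ?_⟩
  rw [← D.hκ, hσ]

theorem RECtData.exists_poly (D : RECtData E Ω r w κ) (b : Ω)
    (hb : ∀ σ : Ω ≃ₐ[E] Ω, κ σ = 1 → σ b = b) :
    ∃ P : E[X], P.natDegree < r - 1 ∧ aeval w P = b := by
  have hr : r.Prime := Fact.out
  have : Fact (1 < r) := ⟨hr.one_lt⟩
  have hint : IsIntegral E w := Algebra.IsIntegral.isIntegral w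
  have hmem : b ∈ E⟮w⟯ := by
    rw [← InfiniteGalois.fixedField_fixingSubgroup E⟮w⟯, IntermediateField.mem_fixedField_iff]
    intro σ hσ
    apply hb
    have h1 : σ w = w :=
      (IntermediateField.mem_fixingSubgroup_iff _ σ).1 hσ w (mem_adjoin_simple_self E w)
    apply D.eq_of_pow_eq
    rw [← D.hκ, h1, Units.val_one, ZMod.val_one, pow_one]
  have hmem2 : b ∈ Algebra.adjoin E {w} := by
    rw [← IntermediateField.adjoin_simple_toSubalgebra_of_isAlgebraic hint.isAlgebraic]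
    exact hmem
  rw [Algebra.adjoin_singleton_eq_range_aeval] at hmem2
  obtain ⟨P, hP⟩ := hmem2
  refine ⟨P %ₘ cyclotomic r E, ?_, ?_⟩
  · rw [← RECtData.natDegree_cyclotomic r E]
    refine natDegree_modByMonic_lt _ (cyclotomic.monic r E) ?_
    intro h1
    have := RECtData.natDegree_cyclotomic r E
    rw [h1, natDegree_one] at this
    have := hr.two_le
    omega
  · rw [aeval_modByMonic_eq_self_of_root (D.aeval_cyclotomic D.hw)]
    exact hP

/-- the norm from `E(w)` of a nonzero element is `c ^ (r - 1) * r ^ j * (principal unit)`. -/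
theorem RECtData.prod_conj (D : RECtData E Ω r w κ) (b : Ω) (hb0 : b ≠ 0)
    (hb : ∀ σ : Ω ≃ₐ[E] Ω, κ σ = 1 → σ b = b) (s : (ZMod r)ˣ → (Ω ≃ₐ[E] Ω))
    (hs : ∀ d, κ (s d) = d) :
    ∃ (c : E) (j : ℕ) (x : Ω), c ≠ 0 ∧ x ∈ RECt_U1 Ω ∧
      ∏ d : (ZMod r)ˣ, s d b = algebraMap E Ω c ^ (r - 1) * (r : Ω) ^ j * x := by
  obtain ⟨P, hdeg, rfl⟩ := D.exists_poly b hb
  have hP : P ≠ 0 := by
    rintro rfl
    exact hb0 (map_zero _)
  obtain ⟨c, j, y, hc, hy, h⟩ := D.expand P hP hdeg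
  refine ⟨c, j, ∏ d : (ZMod r)ˣ, (1 + s d y), hc, ?_, ?_⟩
  · refine Submonoid.prod_mem _ fun d _ => ?_
    rw [RECt_mem_U1, add_sub_cancel_left, D.hiso]
    exact hy
  · have h1 : ∀ d : (ZMod r)ˣ, s d (aeval w P)
        = algebraMap E Ω c * (1 - w ^ (d : ZMod r).val) ^ j * (1 + s d y) := by
      intro d
      rw [h, map_mul, map_mul, map_pow, map_sub, map_add, map_one, AlgEquiv.commutes, D.hκ, hs]
    simp only [h1]
    rw [Finset.prod_mul_distrib, Finset.prod_mul_distrib, Finset.prod_pow, RECt_prod_units r w D.hw,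
      Finset.prod_const, Finset.card_univ, ZMod.card_units]

end Fermat.Agent.CFT.GR

end
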