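/-
TEAM CFT -> S55, layer [GLOB-GR], GR-E4 (RECt): the tame place `r`: the unit part of a local norm
from `ℚ_r(ζ_r)^{Hr}` lies in `Hr`.
-/
import Fermat.Agent.CFT.GR.Interface
import Fermat.Agent.CFT.GR.RECtGal
import Fermat.Agent.CFT.LocalBridge
import Fermat.Agent.CFT.CycloBridge

set_option autoImplicit false

noncomputable section

namespace Fermat.Agent.CFT.GR

open groupCohomology Fermat.Agent.CFT.Top Fermat.Agent.CFT.Local ExtCitation

attribute [local instance] Units.mulDistribMulActionRight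
attribute [local instance] quotAct

variable (r : ℕ) [Fact r.Prime]

/-- the local cyclotomic character -/
def RECt_kappa : Gq r →* (ZMod r)ˣ := (cycloChar r).comp (localGaloisToGlobal r)

theorem RECt_data {ζ : Qb} (hζ : IsPrimitiveRoot ζ r) :
    RECtData ℚ_[r] (PadicAlgCl r) r (padicEmbedding r ζ) (RECt_kappa r) where
  hext := PadicAlgCl.norm_extends r
  hval x hx := ⟨-x.valuation, Padic.norm_eq_zpow_neg_valuation hx⟩
  hiso σ x := congrArg NNReal.toReal (nnnorm_padicAlgCl_algEquiv r σ x)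
  hnr := lb_norm_natCast_q r
  hw := hζ.map_of_injective (padicEmbedding r).toRingHom.injective
  hκ σ := by
    rw [← padicEmbedding_localGaloisToGlobal, apply_eq_pow_cycloChar r _ hζ.pow_eq_one, map_pow]
    rfl

/-- Fermat's little theorem in `ℤ_r`. -/
theorem RECt_fermat (c : ℚ_[r]) (hc : ‖c‖ = 1) : ‖c ^ (r - 1) - 1‖ < 1 := by
  let u : ℤ_[r] := ⟨c, hc.le⟩
  have hu : PadicInt.toZMod u ≠ 0 := by
    intro h0
    have h1 : u ∈ RingHom.ker (PadicInt.toZMod (p := r)) := h0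
    rw [PadicInt.ker_toZMod, IsLocalRing.mem_maximalIdeal, PadicInt.mem_nonunits] at h1
    have : ‖u‖ = 1 := hc
    rw [this] at h1
    exact lt_irrefl _ h1
  have h2 : u ^ (r - 1) - 1 ∈ RingHom.ker (PadicInt.toZMod (p := r)) := by
    rw [RingHom.mem_ker, map_sub, map_pow, map_one, ZMod.pow_card_sub_one_eq_one hu, sub_self]
  rw [PadicInt.ker_toZMod, IsLocalRing.mem_maximalIdeal, PadicInt.mem_nonunits] at h2
  exact h2

theorem RECt_pow_unit (c : ℚ_[r]) (hc : c ≠ 0) :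
    ∃ z : ℤ, ‖c ^ (r - 1) * (r : ℚ_[r]) ^ z - 1‖ < 1 := by
  have hr0 : (r : ℚ_[r]) ≠ 0 := by exact_mod_cast (Fact.out : r.Prime).ne_zero
  have hrR : (r : ℝ) ≠ 0 := by exact_mod_cast (Fact.out : r.Prime).ne_zero
  refine ⟨(-c.valuation) * ((r - 1 : ℕ) : ℤ), ?_⟩
  have h1 : ‖c * (r : ℚ_[r]) ^ (-c.valuation)‖ = 1 := by
    rw [norm_mul, Padic.norm_p_zpow, Padic.norm_eq_zpow_neg_valuation hc, ← zpow_add₀ hrR]
    simp
  have h2 := RECt_fermat r _ h1
  rwa [mul_pow, ← zpow_natCast ((r : ℚ_[r]) ^ (-c.valuation)), ← zpow_mul] at h2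

theorem RECt_norm_intCast (t : ℤ) : ‖(t : PadicAlgCl r)‖ = ‖(t : ℚ_[r])‖ := by
  rw [← PadicAlgCl.norm_extends, map_intCast]

theorem RECt_norm_intCast_eq_one {t : ℤ} (ht : ¬ (r : ℤ) ∣ t) : ‖(t : PadicAlgCl r)‖ = 1 := by
  rw [RECt_norm_intCast]
  refine le_antisymm (Padic.norm_int_le_one t) (not_lt.1 fun h => ht ?_)
  exact Padic.norm_intCast_lt_one_iff.1 h

/-- the arithmetic conclusion -/
theorem RECt_final (A : PadicAlgCl r) (m : ℕ) (c : ℚ_[r]) (hc : c ≠ 0) (j : ℕ)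
    (x : PadicAlgCl r) (hx : x ∈ RECt_U1 (PadicAlgCl r))
    (hA : A ^ m = algebraMap ℚ_[r] (PadicAlgCl r) c ^ (r - 1) * (r : PadicAlgCl r) ^ j * x)
    (k m₀ n₀ : ℤ) (hm₀ : ¬ (r : ℤ) ∣ m₀) (hn₀ : ¬ (r : ℤ) ∣ n₀)
    (hk : A * (n₀ : PadicAlgCl r) = (r : PadicAlgCl r) ^ k * (m₀ : PadicAlgCl r)) :
    (r : ℤ) ∣ m₀ ^ m - n₀ ^ m := by
  have hr : r.Prime := Fact.out
  have hr0 : (r : PadicAlgCl r) ≠ 0 := by exact_mod_cast hr.ne_zero
  obtain ⟨z, hz⟩ := RECt_pow_unit r c hc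
  -- `x₁ = c ^ (r - 1) * r ^ z` is a principal unit
  set x₁ : PadicAlgCl r := algebraMap ℚ_[r] (PadicAlgCl r) c ^ (r - 1) * (r : PadicAlgCl r) ^ z
    with hx₁
  have hx₁U : x₁ ∈ RECt_U1 (PadicAlgCl r) := by
    rw [RECt_mem_U1]
    have : x₁ - 1 = algebraMap ℚ_[r] (PadicAlgCl r) (c ^ (r - 1) * (r : ℚ_[r]) ^ z - 1) := by
      rw [hx₁, map_sub, map_mul, map_pow, map_zpow₀, map_natCast, map_one]
    rw [this, PadicAlgCl.norm_extends]
    exact hz
  have hxx : x₁ * x ∈ RECt_U1 (PadicAlgCl r) := mul_mem hx₁U hx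
  have e1 : x₁ * x * (r : PadicAlgCl r) ^ (j : ℤ) * (n₀ : PadicAlgCl r) ^ m
      = (r : PadicAlgCl r) ^ (k * m + z) * (m₀ : PadicAlgCl r) ^ m := by
    have h1 : (A * (n₀ : PadicAlgCl r)) ^ m
        = ((r : PadicAlgCl r) ^ k * (m₀ : PadicAlgCl r)) ^ m := by rw [hk]
    rw [mul_pow, mul_pow, hA, ← zpow_natCast ((r : PadicAlgCl r) ^ k), ← zpow_mul] at h1
    rw [zpow_add₀ hr0, zpow_natCast, hx₁]
    linear_combination (r : PadicAlgCl r) ^ z * h1
  have hnr : ‖(r : PadicAlgCl r)‖ = (r : ℝ)⁻¹ := lb_norm_natCast_q r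
  have e2 : (j : ℤ) = k * m + z := by
    have hL : ‖x₁ * x * (r : PadicAlgCl r) ^ (j : ℤ) * (n₀ : PadicAlgCl r) ^ m‖
        = ((r : ℝ)⁻¹) ^ (j : ℤ) := by
      rw [norm_mul, norm_mul (x₁ * x), norm_pow, RECt_norm_of_mem_U1 hxx,
        RECt_norm_intCast_eq_one r hn₀, one_pow, mul_one, one_mul, norm_zpow, hnr]
    have hR : ‖(r : PadicAlgCl r) ^ (k * m + z) * (m₀ : PadicAlgCl r) ^ m‖
        = ((r : ℝ)⁻¹) ^ (k * m + z) := by
      rw [norm_mul, norm_pow, RECt_norm_intCast_eq_one r hm₀, one_pow, mul_one, norm_zpow, hnr]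
    have h2 : ((r : ℝ)⁻¹) ^ (j : ℤ) = ((r : ℝ)⁻¹) ^ (k * m + z) := by
      rw [← hL, ← hR, e1]
    have hpos : (0 : ℝ) < (r : ℝ)⁻¹ := by
      have : (0 : ℝ) < r := by exact_mod_cast hr.pos
      positivity
    have hne : (r : ℝ)⁻¹ ≠ 1 := by
      have : (1 : ℝ) < r := by exact_mod_cast hr.one_lt
      exact (inv_lt_one_of_one_lt₀ this).ne
    exact zpow_right_injective₀ hpos hne h2
  rw [← e2] at e1
  have e3 : x₁ * x * (n₀ : PadicAlgCl r) ^ m = (m₀ : PadicAlgCl r) ^ m := by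
    have h0 : (r : PadicAlgCl r) ^ (j : ℤ) ≠ 0 := zpow_ne_zero _ hr0
    apply mul_left_cancel₀ h0
    linear_combination e1
  rw [← Padic.norm_intCast_lt_one_iff, ← RECt_norm_intCast]
  have e4 : ((m₀ ^ m - n₀ ^ m : ℤ) : PadicAlgCl r) = (x₁ * x - 1) * (n₀ : PadicAlgCl r) ^ m := by
    push_cast
    rw [← e3]; ring
  rw [e4, norm_mul, norm_pow, RECt_norm_intCast_eq_one r hn₀, one_pow, mul_one]
  exact hxx

theorem rect : Stmt_RECt := by
  intro r _ Hr a hloc u hu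
  have hr : r.Prime := Fact.out
  have : NeZero (r : Qb) := ⟨by exact_mod_cast hr.ne_zero⟩
  obtain ⟨ζ, hζ⟩ := HasEnoughRootsOfUnity.exists_primitiveRoot Qb r
  have D := RECt_data r hζ
  have hsurj := D.surjective
  obtain ⟨b, hbfix, hab⟩ := hloc
  choose s hs using hsurj
  -- `σ • b` only depends on `κ σ` modulo `Hr`
  have hdep : ∀ g g' : Gq r, (RECt_kappa r g)⁻¹ * RECt_kappa r g' ∈ Hr → g • b = g' • b := by
    intro g g' h
    have h1 : g⁻¹ * g' ∈ Nq r r Hr := by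
      show RECt_kappa r (g⁻¹ * g') ∈ Hr
      rwa [map_mul, map_inv]
    have h2 := congrArg Units.val (hbfix _ h1)
    apply Units.ext
    change (g⁻¹ * g') (b : PadicAlgCl r) = (b : PadicAlgCl r) at h2
    change g (b : PadicAlgCl r) = g' (b : PadicAlgCl r)
    rw [AlgEquiv.mul_apply] at h2
    have h3 := congrArg g h2
    rw [← h3]
    change g (g.symm (g' (b : PadicAlgCl r))) = g' (b : PadicAlgCl r)
    rw [AlgEquiv.apply_symm_apply]
  have hpow := RECt_prod_pow (RECt_kappa r) D.surjective Hr (fun d => s d • b) (by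
    intro d h hh
    apply hdep
    rw [hs, hs]
    simpa using Hr.inv_mem hh)
  have hab' : Units.map (algebraMap ℚ (PadicAlgCl r) : ℚ →* PadicAlgCl r) a
      = ∏ᶠ c : Gq r ⧸ Hr.comap (RECt_kappa r), s (RECt_kappa r (Quotient.out c)) • b := by
    have hab2 : Units.map (algebraMap ℚ (PadicAlgCl r) : ℚ →* PadicAlgCl r) a
        = ∏ᶠ c : Gq r ⧸ Hr.comap (RECt_kappa r), (Quotient.out c : Gq r) • b := hab
    rw [hab2]
    refine finprod_congr fun c => hdep _ _ ?_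
    rw [hs, inv_mul_cancel]
    exact Hr.one_mem
  rw [← hab', finprod_eq_prod_of_fintype] at hpow
  have hpow' := congrArg (Units.val) hpow
  rw [Units.val_pow_eq_pow_val, Units.coe_prod] at hpow'
  obtain ⟨c, j, x, hc, hx, hprod⟩ := D.prod_conj (b : PadicAlgCl r) b.ne_zero (by
    intro σ hσ
    have h1 : σ ∈ Nq r r Hr := by
      show RECt_kappa r σ ∈ Hr
      rw [hσ]; exact Hr.one_mem
    exact congrArg Units.val (hbfix σ h1)) s hs
  obtain ⟨k, m₀, n₀, hm₀, hn₀, hk, hun⟩ := hu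
  have hk' := congrArg (algebraMap ℚ (PadicAlgCl r)) hk
  rw [map_mul, map_mul, map_zpow₀, map_natCast, map_intCast, map_intCast] at hk'
  have hdvd := RECt_final r (algebraMap ℚ (PadicAlgCl r) (a : ℚ)) (Nat.card Hr) c hc j x hx
    (hpow'.trans hprod) k m₀ n₀ hm₀ hn₀ hk'
  apply RECt_mem_of_pow_card
  have h1 : ((m₀ ^ Nat.card Hr - n₀ ^ Nat.card Hr : ℤ) : ZMod r) = 0 :=
    (ZMod.intCast_zmod_eq_zero_iff_dvd _ r).2 hdvd
  push_cast at h1
  have hn0 : (n₀ : ZMod r) ≠ 0 := by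
    rw [Ne, ZMod.intCast_zmod_eq_zero_iff_dvd]; exact hn₀
  apply Units.ext
  rw [Units.val_pow_eq_pow_val, Units.val_one]
  apply mul_right_cancel₀ (pow_ne_zero (Nat.card Hr) hn0)
  rw [← mul_pow, hun, one_mul]
  exact sub_eq_zero.1 h1

end Fermat.Agent.CFT.GR

end
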