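/-
TEAM CFT, GR-E2 (RECu1) : a local norm at an unramified place has valuation divisible by the order
of Frobenius.
-/
import Fermat.Agent.CFT.GR.Interface
import Fermat.Agent.CFT.LocalBridge

set_option autoImplicit false

noncomputable section

namespace Fermat.Agent.CFT.GR

open groupCohomology Fermat.Agent.CFT.Top Fermat.Agent.CFT.Local ExtCitation

attribute [local instance] Units.mulDistribMulActionRight
attribute [local instance] Fermat.Agent.CFT.Local.quotAct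

theorem RECu1_norm_ratCast (q : ℕ) [Fact q.Prime] (a : ℚ) (ha : a ≠ 0) :
    ‖algebraMap ℚ (PadicAlgCl q) a‖ = ‖(q : PadicAlgCl q)‖ ^ padicValRat q a := by
  have h1 : algebraMap ℚ (PadicAlgCl q) a = algebraMap ℚ_[q] (PadicAlgCl q) (a : ℚ_[q]) := by
    rw [eq_ratCast, map_ratCast]
  rw [h1]
  have h2 := PadicAlgCl.norm_extends q (a : ℚ_[q])
  rw [show ‖algebraMap ℚ_[q] (PadicAlgCl q) (a : ℚ_[q])‖ = ‖(a : ℚ_[q])‖ from h2,
    lb_norm_natCast_q, Padic.eq_padicNorm, padicNorm.eq_zpow_of_nonzero ha]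
  push_cast
  rw [zpow_neg, inv_zpow]

theorem recu1 (h : Stmt_UNR) : Stmt_RECu1 := by
  intro q r _ _ Hr hqr a hloc u hu
  obtain ⟨⟨τ, hτ⟩, _, h3⟩ := h q r hqr
  obtain ⟨b, hbfix, hab⟩ := hloc
  have hfi : (Nq q r Hr).FiniteIndex := by
    refine ⟨?_⟩
    show ((Hr.comap (cycloChar r)).comap (localGaloisToGlobal q)).index ≠ 0
    rw [Subgroup.comap_comap, Subgroup.index_comap]
    exact fun h0 => Hr.index_ne_zero_of_finite (Hr.index_eq_zero_of_relIndex_eq_zero h0)
  have hnormal : (Nq q r Hr).Normal := inferInstance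
  have hfin : Finite (Gq q ⧸ Nq q r Hr) := inferInstance
  have hnorm_smul : ∀ σ : Gq q,
      ‖((σ • b : (PadicAlgCl q)ˣ) : PadicAlgCl q)‖ = ‖(b : PadicAlgCl q)‖ := by
    intro σ
    exact congrArg NNReal.toReal (nnnorm_padicAlgCl_algEquiv q σ (b : PadicAlgCl q))
  have h1 : ‖algebraMap ℚ (PadicAlgCl q) (a : ℚ)‖ =
      ‖(b : PadicAlgCl q)‖ ^ Nat.card (Gq q ⧸ Nq q r Hr) := by
    have e := congrArg (fun z : (PadicAlgCl q)ˣ => ‖(z : PadicAlgCl q)‖) hab
    cases nonempty_fintype (Gq q ⧸ Nq q r Hr)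
    simp only [finprod_eq_prod_of_fintype, Units.coe_prod, norm_prod] at e
    refine e.trans ?_
    rw [Nat.card_eq_fintype_card, ← Finset.card_univ, ← Finset.prod_const]
    exact Finset.prod_congr rfl (fun c _ => hnorm_smul (Quotient.out c))
  obtain ⟨k, hk⟩ := h3 (b : PadicAlgCl q) b.ne_zero (by
    intro σ hσ
    have hmem : σ ∈ Nq q r Hr := by
      show cycloChar r (localGaloisToGlobal q σ) ∈ Hr
      rw [hσ]
      exact Hr.one_mem
    exact congrArg Units.val (hbfix σ hmem))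
  rw [RECu1_norm_ratCast q (a : ℚ) a.ne_zero, hk, ← zpow_natCast, ← zpow_mul] at h1
  have hq1 : (1 : ℝ) < q := by exact_mod_cast (Fact.out : q.Prime).one_lt
  have hpos : 0 < ‖(q : PadicAlgCl q)‖ := by
    rw [lb_norm_natCast_q]; positivity
  have hne1 : ‖(q : PadicAlgCl q)‖ ≠ 1 := by
    rw [lb_norm_natCast_q]
    exact (inv_lt_one_of_one_lt₀ hq1).ne
  have hv : padicValRat q (a : ℚ) = k * (Nat.card (Gq q ⧸ Nq q r Hr) : ℤ) :=
    zpow_right_injective₀ hpos hne1 h1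
  have hτu : cycloChar r (localGaloisToGlobal q τ) = u := Units.ext (hτ.trans hu.symm)
  have hpow : τ ^ Nat.card (Gq q ⧸ Nq q r Hr) ∈ Nq q r Hr := by
    rw [← QuotientGroup.eq_one_iff, QuotientGroup.mk_pow]
    exact pow_card_eq_one'
  have hun : u ^ Nat.card (Gq q ⧸ Nq q r Hr) ∈ Hr := by
    have : cycloChar r (localGaloisToGlobal q (τ ^ Nat.card (Gq q ⧸ Nq q r Hr))) ∈ Hr := hpow
    rwa [map_pow, map_pow, hτu] at this
  rw [hv, mul_comm, zpow_mul, zpow_natCast]
  exact Hr.zpow_mem hun k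

end Fermat.Agent.CFT.GR

end

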