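/-
TEAM CFT -> S55, layer [GLOB-GR], package GR-E3 (RECu2): at an unramified place `q ≠ r`, if
`Frob_q ^ v_q(a)` lies in `Hr` then `a` is a local norm from `L = ℚ(ζ_r)^{Hr}` at `q`.
-/
import Fermat.Agent.CFT.GR.Interface
import Fermat.Agent.CFT.Local.Final
import Fermat.Agent.CFT.CycloBridge

set_option autoImplicit false

noncomputable section

namespace Fermat.Agent.CFT.GR

open groupCohomology Fermat.Agent.CFT.Top Fermat.Agent.CFT.Local ExtCitation

attribute [local instance] Units.mulDistribMulActionRight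
attribute [local instance] Fermat.Agent.CFT.Local.quotAct

/-! ### pure algebra -/

section Alg

variable {𝒢 Ω : Type} [Group 𝒢] [Field Ω] [MulSemiringAction 𝒢 Ω]

/-- an invariant unit of `Ω` as a unit of the layer. -/
def recu2_lift (N : Subgroup 𝒢) (y : Ωˣ) (hy : y ∈ fixedU 𝒢 Ω) :
    (FixedPoints.subfield N Ω)ˣ :=
  Units.mk0 (⟨(y : Ω), fun n => congrArg Units.val (hy n.1)⟩ : FixedPoints.subfield N Ω)
    (fun h => y.ne_zero (congrArg Subtype.val h))

lemma recu2_layU_lift (N : Subgroup 𝒢) (y : Ωˣ) (hy : y ∈ fixedU 𝒢 Ω) :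
    layU N (recu2_lift N y hy) = y := Units.ext rfl

lemma recu2_lift_mem (N : Subgroup 𝒢) [N.Normal] (y : Ωˣ) (hy : y ∈ fixedU 𝒢 Ω) :
    recu2_lift N y hy ∈ fixedU (𝒢 ⧸ N) (FixedPoints.subfield N Ω) := by
  intro g
  induction g using QuotientGroup.induction_on with
  | H σ =>
    apply Units.ext
    apply Subtype.ext
    exact congrArg Units.val (hy σ)

/-- norms from the layer are norms in the sense of `IsNormFrom`. -/
theorem recu2_isNormFrom (N : Subgroup 𝒢) [N.Normal] [Finite (𝒢 ⧸ N)]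
    (x : (FixedPoints.subfield N Ω)ˣ) :
    IsNormFrom 𝒢 Ω N (layU N (normHom (𝒢 ⧸ N) (FixedPoints.subfield N Ω) x)) := by
  refine ⟨layU N x, fun n hn => ?_, ?_⟩
  · apply Units.ext
    exact x.1.2 ⟨n, hn⟩
  · show layU N (∏ᶠ g : 𝒢 ⧸ N, g • x) = _
    rw [MonoidHom.map_finprod _ (Set.toFinite _)]
    refine finprod_congr fun c => ?_
    apply Units.ext
    conv_lhs => rw [← Quotient.out_eq' c]
    rfl

theorem recu2_isNormFrom_of_range (N : Subgroup 𝒢) [N.Normal] [Finite (𝒢 ⧸ N)] (y : Ωˣ)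
    (hy : y ∈ fixedU 𝒢 Ω)
    (h : recu2_lift N y hy ∈ (normHom (𝒢 ⧸ N) (FixedPoints.subfield N Ω)).range) :
    IsNormFrom 𝒢 Ω N y := by
  obtain ⟨x, hx⟩ := h
  have := recu2_isNormFrom N x
  rwa [hx, recu2_layU_lift] at this

end Alg

/-! ### the level -/

section Level

variable (q r : ℕ) [Fact q.Prime] [Fact r.Prime] (Hr : Subgroup (ZMod r)ˣ)

theorem recu2_NQ_mem : NQ r Hr ∈ levAll.S := by
  refine ⟨inferInstance, cycloField r, inferInstance, fun s hs => ?_⟩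
  rw [Subgroup.mem_comap, (cycloChar_eq_one_iff_mem_fixingSubgroup r s).2 hs]
  exact Hr.one_mem

theorem recu2_Nq_mem : Nq q r Hr ∈ (levq q).S := ⟨NQ r Hr, recu2_NQ_mem r Hr, rfl⟩

/-- the norm of a rational number in `PadicAlgCl q`. -/
theorem recu2_norm_rat (a : ℚ) (ha : a ≠ 0) :
    ‖algebraMap ℚ (PadicAlgCl q) a‖ = ‖(q : PadicAlgCl q)‖ ^ padicValRat q a := by
  have h1 : algebraMap ℚ (PadicAlgCl q) a = algebraMap ℚ_[q] (PadicAlgCl q) (a : ℚ_[q]) := by
    rw [eq_ratCast, map_ratCast]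
  have ha' : (a : ℚ_[q]) ≠ 0 := by exact_mod_cast ha
  rw [h1, LN_norm_algebraMap, LN_norm_q, Padic.norm_eq_zpow_neg_valuation ha',
    Padic.valuation_ratCast, inv_zpow, zpow_neg]

end Level

/-- GR-E3 (RECu2), without the layer comparison. -/
theorem recu2_main (h : Stmt_UNR) : Stmt_RECu2 := by
  intro q r _ _ Hr hqr a u hu hv
  obtain ⟨⟨τ, hτ⟩, hpow, hval⟩ := h q r hqr
  have hq := (Fact.out : q.Prime)
  have hNmem : Nq q r Hr ∈ (levq q).S := recu2_Nq_mem q r Hr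
  have hNn : (Nq q r Hr).Normal := (levq q).normal _ hNmem
  have hNf : (Nq q r Hr).FiniteIndex := (levq q).fin _ hNmem
  have hfin : Finite (Gq q ⧸ Nq q r Hr) := inferInstance
  have hLA : LocAct (Gq q ⧸ Nq q r Hr) (FixedPoints.subfield (Nq q r Hr) (PadicAlgCl q)) :=
    (all_padicTower q).layer _ hNmem
  -- the character
  let κ : Gq q →* (ZMod r)ˣ := (cycloChar r).comp (localGaloisToGlobal q)
  have hκτ : κ τ = u := Units.ext (hτ.trans hu.symm)
  have hmemN : ∀ σ : Gq q, σ ∈ Nq q r Hr ↔ κ σ ∈ Hr := fun σ => Iff.rfl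
  -- the layer group is cyclic
  have hgen : ∀ x : Gq q ⧸ Nq q r Hr, x ∈ Subgroup.zpowers (τ : Gq q ⧸ Nq q r Hr) := by
    intro x
    induction x using QuotientGroup.induction_on with
    | H σ =>
      obtain ⟨i, hi⟩ := hpow σ
      refine ⟨(i : ℤ), ?_⟩
      show (τ : Gq q ⧸ Nq q r Hr) ^ (i : ℤ) = (σ : Gq q ⧸ Nq q r Hr)
      have hσ : κ σ = u ^ i := Units.ext (by rw [Units.val_pow_eq_pow_val, hu]; exact hi)
      rw [zpow_natCast, ← QuotientGroup.mk_pow, QuotientGroup.eq, hmemN, map_mul, map_inv,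
        map_pow, hκτ, hσ, inv_mul_cancel]
      exact Hr.one_mem
  have hcyc : IsCyclic (Gq q ⧸ Nq q r Hr) := ⟨⟨_, hgen⟩⟩
  have hord : orderOf (τ : Gq q ⧸ Nq q r Hr) = Nat.card (Gq q ⧸ Nq q r Hr) :=
    orderOf_eq_card_of_forall_mem_zpowers hgen
  have hdvd : (Nat.card (Gq q ⧸ Nq q r Hr) : ℤ) ∣ padicValRat q (a : ℚ) := by
    rw [← hord, orderOf_dvd_iff_zpow_eq_one, ← QuotientGroup.mk_zpow, QuotientGroup.eq_one_iff,
      hmemN, map_zpow, hκτ]
    exact hv
  obtain ⟨m, hm⟩ := hdvd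
  -- the uniformizer
  have hq0 : (q : FixedPoints.subfield (Nq q r Hr) (PadicAlgCl q)) ≠ 0 := by
    intro h0
    have h1 : (q : PadicAlgCl q) = 0 := congrArg Subtype.val h0
    exact hq.ne_zero (by exact_mod_cast h1)
  have hnq : ‖(q : FixedPoints.subfield (Nq q r Hr) (PadicAlgCl q))‖ = ‖(q : PadicAlgCl q)‖ := rfl
  have hunif : IsUnif (q : FixedPoints.subfield (Nq q r Hr) (PadicAlgCl q)) := by
    refine ⟨hq0, ?_, fun x hx => ?_⟩
    · rw [hnq, LN_norm_q]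
      exact inv_lt_one_of_one_lt₀ (by exact_mod_cast hq.one_lt)
    · rw [hnq]
      refine hval (x : PadicAlgCl q) (fun h0 => hx (Subtype.ext h0)) fun σ hσ => ?_
      have hσN : σ ∈ Nq q r Hr := by
        rw [hmemN]
        show cycloChar r (localGaloisToGlobal q σ) ∈ Hr
        rw [hσ]
        exact Hr.one_mem
      exact x.2 ⟨σ, hσN⟩
  have hfixq : ∀ g : Gq q ⧸ Nq q r Hr,
      g • (q : FixedPoints.subfield (Nq q r Hr) (PadicAlgCl q)) = q := fun g =>
    map_natCast (MulSemiringAction.toRingHom (Gq q ⧸ Nq q r Hr)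
      (FixedPoints.subfield (Nq q r Hr) (PadicAlgCl q)) g) q
  -- the element
  have hafix : Units.map (algebraMap ℚ (PadicAlgCl q) : ℚ →* PadicAlgCl q) a
      ∈ fixedU (Gq q) (PadicAlgCl q) := by
    intro σ
    apply Units.ext
    show σ (algebraMap ℚ (PadicAlgCl q) (a : ℚ)) = algebraMap ℚ (PadicAlgCl q) (a : ℚ)
    rw [eq_ratCast, map_ratCast]
  refine recu2_isNormFrom_of_range (Nq q r Hr) _ hafix ?_
  refine (all_unramNorm _ _ hLA hcyc ⟨_, hunif, hfixq⟩ _ (recu2_lift_mem _ _ hafix)).2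
    ⟨Units.mk0 _ hq0 ^ m, ?_⟩
  have h1 : ‖((recu2_lift (Nq q r Hr) _ hafix : (FixedPoints.subfield (Nq q r Hr) (PadicAlgCl q))ˣ) :
      FixedPoints.subfield (Nq q r Hr) (PadicAlgCl q))‖
      = ‖algebraMap ℚ (PadicAlgCl q) (a : ℚ)‖ := rfl
  rw [h1, recu2_norm_rat q _ a.ne_zero, hm, Units.val_zpow_eq_zpow_val, Units.val_mk0, norm_zpow,
    hnq, ← zpow_natCast, ← zpow_mul, mul_comm]

/-- GR-E3 (RECu2). -/
theorem recu2 (h : Stmt_UNR) (_hN : Stmt_normLayer) : Stmt_RECu2 := recu2_main h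

end Fermat.Agent.CFT.GR

end
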