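/-
TEAM CFT, layer [GLOB-GR], package GR-A2 (RIC): the pull back of an inflated cyclic cochain along
`(G, L) → (G', L')` splits iff `j a` is a norm from `L'^(f⁻¹ N)`.
-/
import Fermat.Agent.CFT.GR.Interface
import Fermat.Agent.CFT.Local.All

set_option autoImplicit false

noncomputable section

namespace Fermat.Agent.CFT.GR

open groupCohomology Fermat.Agent.CFT.Top Fermat.Agent.CFT.Local

attribute [local instance] Units.mulDistribMulActionRight
attribute [local instance] Fermat.Agent.CFT.Local.quotAct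

section Dlog

/-- discrete logarithms are invariant under injective homomorphisms -/
theorem RIC_dlog_map {A B : Type} [Group A] [Group B] (e : A →* B) (he : Function.Injective e)
    (g x : A) : P0.dlog (e g) (e x) = P0.dlog g x := by
  unfold P0.dlog
  congr 1
  ext k
  simp only [Set.mem_ofPred_eq, ← map_pow, he.eq_iff]

/-- a finite group embedded in a cyclic group: generator and discrete logarithms -/
theorem RIC_exists_gen {C C' : Type} [Group C] [Finite C] [Group C'] [Finite C'] (g : C)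
    (hg : ∀ x : C, x ∈ Subgroup.zpowers g) (ι : C' →* C) (hι : Function.Injective ι) :
    ∃ (ψ : C') (i : ℕ), (∀ x : C', x ∈ Subgroup.zpowers ψ) ∧ Nat.card C = Nat.card C' * i ∧
      0 < i ∧ ∀ x : C', P0.dlog g (ι x) = i * P0.dlog ψ x := by
  have hcomm : ∀ x y : C, x * y = y * x := by
    intro x y
    obtain ⟨k, rfl⟩ := P0.CycH2.exists_pow_of_gen hg x
    obtain ⟨l, rfl⟩ := P0.CycH2.exists_pow_of_gen hg y
    rw [← pow_add, ← pow_add, add_comm]
  have hnorm : (ι.range).Normal := ⟨fun h hh c => by rwa [hcomm c h, mul_inv_cancel_right]⟩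
  let e : C' ≃* ι.range := MonoidHom.ofInjective hι
  let gH : ι.range := ⟨g ^ (ι.range).index, Subgroup.pow_index_mem _ g⟩
  obtain ⟨hgenH, hd⟩ := P0.CycH2.dlog_subgroup hg ι.range gH rfl
  refine ⟨e.symm gH, (ι.range).index, ?_, ?_, ?_, ?_⟩
  · intro x
    obtain ⟨k, hk⟩ := hgenH (e x)
    refine ⟨k, ?_⟩
    apply e.injective
    simpa using hk
  · rw [← (ι.range).card_mul_index, Nat.card_congr e.toEquiv]
  · exact Nat.pos_of_ne_zero (ι.range).index_ne_zero_of_finite
  · intro x
    have h1 : ι x = ((e x : ι.range) : C) := rfl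
    rw [h1, hd (e x)]
    congr 1
    have h2 := RIC_dlog_map e.toMonoidHom e.injective (e.symm gH) x
    rw [← h2]
    simp

end Dlog

section Cochain

variable {G L : Type} [Group G] [Finite G] [Field L] [MulSemiringAction G L]

theorem RIC_infCyc_eq (N : Subgroup G) [N.Normal] (φ : G) (a : Lˣ) :
    infCyc G L N φ a = Additive.ofMul ∘ mInf N φ a := by
  funext x
  simp only [infCyc, mInf, mcyc, P0.cycCochain, Function.comp_apply]
  split_ifs <;> rfl

theorem RIC_coboundary_iff (N : Subgroup G) [N.Normal] (φ : G) (a : Lˣ)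
    (h : infCyc G L N φ a ∈ cocycles₂ (unitsRep G L)) :
    IsMulCoboundary₂ (mInf N φ a) ↔ (H2π (unitsRep G L)).hom ⟨_, h⟩ = 0 := by
  rw [H2π_eq_zero_iff]
  constructor
  · intro hb
    have := (coboundariesOfIsMulCoboundary₂ hb).2
    change infCyc G L N φ a ∈ coboundaries₂ (unitsRep G L)
    rw [RIC_infCyc_eq]
    exact this
  · intro hb
    have := isMulCoboundary₂_of_mem_coboundaries₂ _ hb
    change IsMulCoboundary₂ (Additive.toMul ∘ infCyc G L N φ a : G × G → Lˣ) at this
    have h2 : (Additive.toMul ∘ infCyc G L N φ a : G × G → Lˣ) = mInf N φ a := by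
      rw [RIC_infCyc_eq]
      rfl
    rwa [h2] at this

/-- the norm from `L^N`, for `G ⧸ N` cyclic -/
theorem RIC_norm_eq (N : Subgroup G) [N.Normal] (φ : G)
    (hφ : ∀ x : G ⧸ N, x ∈ Subgroup.zpowers (φ : G ⧸ N)) (b : Lˣ) (hb : ∀ n ∈ N, n • b = b) :
    ∏ᶠ c : G ⧸ N, (Quotient.out c : G) • b =
      ∏ i ∈ Finset.range (Nat.card (G ⧸ N)), φ ^ i • b := by
  rw [H90_finprod_eq (φ : G ⧸ N) hφ (fun c : G ⧸ N => (Quotient.out c : G) • b)]
  refine Finset.prod_congr rfl fun i _ => ?_
  have h1 : ((φ : G ⧸ N) ^ i) = ((φ ^ i : G) : G ⧸ N) := rfl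
  obtain ⟨n, hn⟩ := QuotientGroup.mk_out_eq_mul N (φ ^ i)
  simp only [h1]
  rw [hn, mul_smul, hb n n.2]

end Cochain

/-- GR-A2 (RIC) -/
theorem ric : Stmt_RIC := by
  intro G L G' L' _ _ _ _ _ _ _ _ _ X N _ φ hφ a ha
  have hinj : Function.Injective (QuotientGroup.map (N.comap X.f) N X.f le_rfl) := by
    rw [injective_iff_map_eq_one]
    intro x
    induction x using QuotientGroup.induction_on with
    | H z =>
      intro h
      rw [QuotientGroup.map_mk, QuotientGroup.eq_one_iff] at h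
      exact (QuotientGroup.eq_one_iff z).2 h
  obtain ⟨ψ'', i, hgen, hcard, hi, hd⟩ := RIC_exists_gen (φ : G ⧸ N) hφ _ hinj
  obtain ⟨ψ, rfl⟩ := QuotientGroup.mk_surjective ψ''
  have hpull : X.pull₂ (mInf N φ a) = mInf (N.comap X.f) ψ (X.u a) := by
    funext ⟨x, y⟩
    have hx := hd (x : G' ⧸ N.comap X.f)
    have hy := hd (y : G' ⧸ N.comap X.f)
    rw [QuotientGroup.map_mk] at hx hy
    simp only [ActHom.pull₂, mInf, mcyc]
    rw [hx, hy, hcard, apply_ite X.u, map_one]
    refine if_congr ?_ rfl rfl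
    rw [← mul_add, mul_comm i]
    exact Nat.mul_le_mul_right_iff hi
  have ha' : X.u a ∈ fixedU G' L' := fun g => by rw [← X.u_smul, ha (X.f g)]
  have hc := all_infCycCocycle G' L' (N.comap X.f) ψ hgen
  have h3 := (all_infCyc G' L' (N.comap X.f) ψ hgen hc).2 (X.u a) ha'
  rw [hpull, RIC_coboundary_iff _ _ _ (hc _ ha'), h3]
  constructor
  · rintro ⟨b, hb, hab⟩
    exact ⟨b, hb, by rw [RIC_norm_eq _ ψ hgen b hb]; exact hab⟩
  · rintro ⟨b, hb, hab⟩
    exact ⟨b, hb, by rw [← RIC_norm_eq _ ψ hgen b hb]; exact hab⟩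

end Fermat.Agent.CFT.GR

end
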