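/-
TEAM CFT -> S55, layer [GLOB-GR], package GR-E1 (UNR) (helper9):
`ℚ_q(ζ_r)/ℚ_q`, `q ≠ r`: Frobenius and the value group.
-/
import Fermat.Agent.CFT.GR.Interface
import Fermat.Agent.CFT.Local.Final
import Fermat.Agent.CFT.CycloBridge

set_option autoImplicit false

noncomputable section

namespace Fermat.Agent.CFT.GR

open Fermat.Agent.CFT.Top Fermat.Agent.CFT.Local ExtCitation

attribute [local instance] Units.mulDistribMulActionRight
attribute [local instance] Fermat.Agent.CFT.Local.quotAct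

/-- the unramified extension generated by a root of unity `Z` of order `Q ^ s - 1` in a tower. -/
theorem UNR_level (𝒢 Ω : Type) [Group 𝒢] [NormedField Ω] [MulSemiringAction 𝒢 Ω] (𝒰 : LevelSys 𝒢)
    (hT : LocTower 𝒢 Ω 𝒰) (s : ℕ) (hs : 0 < s) (Z : Ω)
    (hZ : IsPrimitiveRoot Z (resCard (FixedPoints.subfield 𝒢 Ω) ^ s - 1))
    (ht0 : resCard (FixedPoints.subfield 𝒢 Ω) ^ s - 1 ≠ 0) (y ϖ : Ω) :
    (∃ φ : 𝒢, φ • Z = Z ^ resCard (FixedPoints.subfield 𝒢 Ω)) ∧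
    (∀ g : 𝒢, ∃ i : ℕ, g • Z = Z ^ (resCard (FixedPoints.subfield 𝒢 Ω) ^ i)) ∧
    (IsUnifFix (⊤ : Subgroup 𝒢) ϖ → y ≠ 0 → (∀ g : 𝒢, g • Z = Z → g • y = y) →
      ∃ k : ℤ, ‖y‖ = ‖ϖ‖ ^ k) := by
  obtain ⟨-, -, hres⟩ := all_towerBase 𝒢 Ω 𝒰 hT
  obtain ⟨V1, hV1, hfix1⟩ := hT.disc Z
  obtain ⟨V2, hV2, hfix2⟩ := hT.disc y
  obtain ⟨V3, hV3, hfix3⟩ := hT.disc ϖ
  obtain ⟨V4, hV4, h41, h42⟩ := 𝒰.dir V1 hV1 V2 hV2
  obtain ⟨V, hV, hV4', hV3'⟩ := 𝒰.dir V4 hV4 V3 hV3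
  have := 𝒰.normal V hV
  have := 𝒰.fin V hV
  have : Finite (𝒢 ⧸ V) := Subgroup.finite_quotient_of_finiteIndex
  have hact := hT.layer V hV
  let Z' : FixedPoints.subfield V Ω := ⟨Z, fun v => hfix1 v (h41 (hV4' v.2))⟩
  let y' : FixedPoints.subfield V Ω := ⟨y, fun v => hfix2 v (h42 (hV4' v.2))⟩
  let ϖ' : FixedPoints.subfield V Ω := ⟨ϖ, fun v => hfix3 v (hV3' v.2)⟩
  have hZ' : IsPrimitiveRoot Z' (resCard (FixedPoints.subfield 𝒢 Ω) ^ s - 1) :=
    IsPrimitiveRoot.of_map_of_injective (f := (FixedPoints.subfield V Ω).subtype) hZ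
      Subtype.val_injective
  have := towerIndex_normal (G := 𝒢 ⧸ V) ht0 hZ'
  have hZ'' : IsPrimitiveRoot Z'
      (resCard (FixedPoints.subfield (𝒢 ⧸ V) (FixedPoints.subfield V Ω)) ^ s - 1) := by
    rw [hres V hV]
    exact hZ'
  obtain ⟨-, ⟨φ, hφ, -⟩, hunif⟩ := all_unram (𝒢 ⧸ V) (FixedPoints.subfield V Ω) hact s Z' hs hZ''
    (MulAction.stabilizer (𝒢 ⧸ V) Z') (fun g => MulAction.mem_stabilizer_iff)
  have hfrob := all_frobPow (𝒢 ⧸ V) (FixedPoints.subfield V Ω) hact s Z' hs hZ''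
  rw [hres V hV] at hφ hfrob
  refine ⟨?_, ?_, ?_⟩
  · induction φ using QuotientGroup.induction_on with
    | H φ => exact ⟨φ, congrArg Subtype.val hφ⟩
  · intro g
    obtain ⟨i, -, hi⟩ := hfrob (g : 𝒢 ⧸ V)
    exact ⟨i, congrArg Subtype.val hi⟩
  · intro hϖ hy hfix
    have h1 : IsUnifFix (⊤ : Subgroup (𝒢 ⧸ V)) ϖ' := by
      refine ⟨fun h => hϖ.1 (congrArg Subtype.val h), hϖ.2.1, ?_, ?_⟩
      · intro h _
        induction h using QuotientGroup.induction_on with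
        | H g => exact Subtype.ext (hϖ.2.2.1 g (Subgroup.mem_top g))
      · intro x hx hxfix
        exact hϖ.2.2.2 (x : Ω) (fun h => hx (Subtype.ext h)) fun g _ =>
          congrArg Subtype.val (hxfix (g : 𝒢 ⧸ V) (Subgroup.mem_top _))
    obtain ⟨k, hk⟩ := (hunif ϖ' h1).2.2.2 y' (fun h => hy (congrArg Subtype.val h)) (by
      intro h hh
      induction h using QuotientGroup.induction_on with
      | H g =>
        rw [MulAction.mem_stabilizer_iff] at hh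
        exact Subtype.ext (hfix g (congrArg Subtype.val hh)))
    exact ⟨k, hk⟩

section Padic

variable (q r : ℕ) [Fact q.Prime] [Fact r.Prime]

/-- the local cyclotomic character acts on the `r`-th roots of unity of `PadicAlgCl q`. -/
theorem UNR_apply_root (τ : Gq q) {w : PadicAlgCl q} (hw : w ^ r = 1) :
    τ w = w ^ ((cycloChar r (localGaloisToGlobal q τ) : (ZMod r)ˣ) : ZMod r).val := by
  have hr : r.Prime := Fact.out
  have : NeZero r := ⟨hr.ne_zero⟩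
  have : NeZero ((r : ℕ) : AlgebraicClosure ℚ) := ⟨Nat.cast_ne_zero.mpr hr.ne_zero⟩
  obtain ⟨ζ0, hζ0⟩ := HasEnoughRootsOfUnity.exists_primitiveRoot (AlgebraicClosure ℚ) r
  have hζ1 : IsPrimitiveRoot (padicEmbedding q ζ0) r :=
    hζ0.map_of_injective (padicEmbedding q).toRingHom.injective
  obtain ⟨i, -, rfl⟩ := hζ1.eq_pow_of_pow_eq_one hw
  have ht : (ζ0 ^ i) ^ r = 1 := by rw [← pow_mul, mul_comm, pow_mul, hζ0.pow_eq_one, one_pow]
  rw [← map_pow, ← padicEmbedding_localGaloisToGlobal, apply_eq_pow_cycloChar r _ ht, map_pow]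

end Padic

theorem unr : Stmt_UNR := by
  intro q r _ _ hqr
  have hq : q.Prime := Fact.out
  have hr : r.Prime := Fact.out
  have : NeZero r := ⟨hr.ne_zero⟩
  have hT := all_padicTower q
  have hQ : resCard (FixedPoints.subfield (Gq q) (PadicAlgCl q)) = q :=
    LN_resCard q reps (all_towerBase _ _ _ hT).1
  have hs : 0 < r - 1 := by have := hr.two_le; omega
  have hq0 : (q : ZMod r) ≠ 0 := by
    rw [Ne, ZMod.natCast_eq_zero_iff]
    intro h
    exact hqr ((Nat.prime_dvd_prime_iff_eq hr hq).1 h).symm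
  have hdvd : r ∣ q ^ (r - 1) - 1 := by
    have h1 : (q : ZMod r) ^ (r - 1) = 1 := ZMod.pow_card_sub_one_eq_one hq0
    rw [← ZMod.natCast_eq_zero_iff, Nat.cast_sub (Nat.one_le_pow _ _ hq.pos), Nat.cast_pow, h1]
    simp
  have hge : 2 ≤ q ^ (r - 1) := calc
    2 ≤ q := hq.two_le
    _ = q ^ 1 := (pow_one q).symm
    _ ≤ q ^ (r - 1) := Nat.pow_le_pow_right hq.pos hs
  have ht0 : q ^ (r - 1) - 1 ≠ 0 := by omega
  obtain ⟨m, hm⟩ := hdvd
  have : NeZero ((q ^ (r - 1) - 1 : ℕ) : PadicAlgCl q) := ⟨Nat.cast_ne_zero.mpr ht0⟩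
  obtain ⟨Z, hZ⟩ := HasEnoughRootsOfUnity.exists_primitiveRoot (PadicAlgCl q) (q ^ (r - 1) - 1)
  have hw : IsPrimitiveRoot (Z ^ m) r :=
    hZ.pow (Nat.pos_of_ne_zero ht0) (by rw [hm, mul_comm])
  have key := fun y => UNR_level (Gq q) (PadicAlgCl q) (levq q) hT (r - 1) hs Z
    (by rw [hQ]; exact hZ) (by rw [hQ]; exact ht0) y (q : PadicAlgCl q)
  simp only [hQ] at key
  have hcmp : ∀ (τ : Gq q) (n : ℕ), τ • Z = Z ^ n →
      ((cycloChar r (localGaloisToGlobal q τ) : (ZMod r)ˣ) : ZMod r) = (n : ZMod r) := by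
    intro τ n h
    have h0 : τ Z = Z ^ n := h
    have h1 : τ (Z ^ m) = (Z ^ m) ^ n := by
      rw [map_pow, h0, ← pow_mul, ← pow_mul, mul_comm]
    rw [UNR_apply_root q r τ hw.pow_eq_one] at h1
    have hfin : IsOfFinOrder (Z ^ m) := isOfFinOrder_iff_pow_eq_one.2 ⟨r, hr.pos, hw.pow_eq_one⟩
    have h2 := hfin.pow_eq_pow_iff_modEq.1 h1
    rw [← hw.eq_orderOf] at h2
    have h3 := (ZMod.natCast_eq_natCast_iff _ _ _).2 h2
    rwa [ZMod.natCast_zmod_val] at h3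
  refine ⟨?_, ?_, ?_⟩
  · obtain ⟨φ, hφ⟩ := (key 0).1
    exact ⟨φ, hcmp φ q hφ⟩
  · intro τ
    obtain ⟨i, hi⟩ := (key 0).2.1 τ
    exact ⟨i, by rw [hcmp τ _ hi, Nat.cast_pow]⟩
  · intro y hy hfix
    refine (key y).2.2 (LN_isUnifFix_q q) hy ?_
    intro g hg
    apply hfix
    apply Units.ext
    rw [hcmp g 1 (by rw [hg, pow_one])]
    simp

end Fermat.Agent.CFT.GR

end
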