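/-
TEAM CFT -> S55, layer [GLOB-GR] (helper74): all landed packages put together.
-/
import Fermat.Agent.CFT.GR.Final
import Fermat.Agent.CFT.GR.IC
import Fermat.Agent.CFT.GR.RIC
import Fermat.Agent.CFT.GR.DL
import Fermat.Agent.CFT.GR.DLsub
import Fermat.Agent.CFT.GR.NormLayer
import Fermat.Agent.CFT.GR.DK
import Fermat.Agent.CFT.GR.GlobalLayer
import Fermat.Agent.CFT.GR.DI1
import Fermat.Agent.CFT.GR.DI2
import Fermat.Agent.CFT.GR.DO
import Fermat.Agent.CFT.GR.DOsub
import Fermat.Agent.CFT.GR.HlcLoc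
import Fermat.Agent.CFT.GR.HPGR
import Fermat.Agent.CFT.GR.RECu1
import Fermat.Agent.CFT.GR.RECu2
import Fermat.Agent.CFT.GR.RECe
import Fermat.Agent.CFT.GR.AuxPrime
import Fermat.Agent.CFT.GR.UNR
import Fermat.Agent.CFT.GR.RECt
import Fermat.Agent.CFT.GR.LTO

set_option autoImplicit false

namespace Fermat.Agent.CFT.GR

open Fermat.Agent.CFT.Local

theorem all_rec : Stmt_REC := rec_of (recu1 unr) (recu2_main unr) rect rece

theorem all_hpgr' (h : Stmt_HPN) : Stmt_HPGR' := hpgr' dOsub dlsub h globalLayer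

/-- weak reciprocity, modulo the only package still missing: the Hasse principle `Stmt_HPN`. -/
theorem all_grw (hHPN : Stmt_HPN) : Stmt_GRw :=
  grw ic ric normLayer dk globalLayer (all_hpgr' hHPN) di1 (di2 dl) dO unr all_rec gr_aux
    all_padicTower lto hlcLoc

end Fermat.Agent.CFT.GR
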