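/-
TEAM CFT -> S55, layer [GLOB-GR] (architect helper74): third interface file:
from `HPG.Stmt_HPraw2` (helper56) to `GR.Stmt_HPN`.
-/
import Fermat.Agent.CFT.GR.Interface2
import Fermat.Agent.CFT.HPG.Interface

set_option autoImplicit false

noncomputable section

namespace Fermat.Agent.CFT.GR

open groupCohomology Fermat.Agent.CFT.Top Fermat.Agent.CFT.Local ExtCitation

attribute [local instance] Units.mulDistribMulActionRight
attribute [local instance] quotAct

/-- `f` is a twisted (`μ_p`-valued) 2-cocycle on `G_ℚ`, invariant under the subgroup `U`. -/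
structure IsTwCoc (p : ℕ) [Fact p.Prime] (f : GQ × GQ → ZMod p) (U : Subgroup GQ) : Prop where
  lev : ∀ g h : GQ, ∀ u ∈ U, ∀ u' ∈ U, f (g * u, h * u') = f (g, h)
  coc : ∀ g h j : GQ, f (g * h, j) + f (g, h) =
      ((cycloChar p g : (ZMod p)ˣ) : ZMod p) * f (h, j) + f (g, h * j)

/-- raw local triviality of `f` on `D_A ∩ N`. -/
def LocTrivA (p : ℕ) [Fact p.Prime] (f : GQ × GQ → ZMod p) (N : Subgroup GQ)
    (A : ValuationSubring Qb) : Prop :=
  ∃ x : GQ → ZMod p, HPG.FinLev x ∧ ∀ σ ∈ HPG.Dec A, ∀ τ ∈ HPG.Dec A, σ ∈ N → τ ∈ N →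
    f (σ, τ) = ((cycloChar p σ : (ZMod p)ˣ) : ZMod p) * x τ - x (σ * τ) + x σ

/-- GR-C3a (LocStd) : from the local Galois group to the decomposition group of the standard
place. -/
def Stmt_LocStd : Prop :=
  ∀ (p q : ℕ) [Fact p.Prime] [Fact q.Prime] (f : GQ × GQ → ZMod p) (N : Subgroup GQ),
    LocTrivOn p q f (N.comap (localGaloisToGlobal q)) → LocTrivA p f N (padicPlace q)

/-- GR-C3b (LocConj) : conjugate places. -/
def Stmt_LocConj : Prop :=
  ∀ (p : ℕ) [Fact p.Prime] (f : GQ × GQ → ZMod p) (U N : Subgroup GQ) [U.Normal] [N.Normal],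
    U ∈ levAll.S → IsTwCoc p f U → ∀ (A A' : ValuationSubring Qb) (g : GQ),
    (∀ x : Qb, g x ∈ A' ↔ x ∈ A) → LocTrivA p f N A → LocTrivA p f N A'

/-- GR-C3c : the assembly `HPG.Stmt_HPraw2 → Stmt_HPN`. -/
def Stmt_HPNglue : Prop :=
  HPG.Stmt_HPraw2 → Stmt_LocStd → Stmt_LocConj → GN.Stmt_DictA → GN.Stmt_DictD → Stmt_HPN

end Fermat.Agent.CFT.GR

end
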