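/-
TEAM CFT -> S55, layer [GLOB-GR], GR-C3c (helper74): `HPG.Stmt_HPraw2 ⟹ GR.Stmt_HPN`.
-/
import Fermat.Agent.CFT.GR.Interface3
import Fermat.Agent.CFT.Num.DC
import Fermat.Agent.CFT.CycloBridge
import Fermat.Agent.CFT.LocalBridge
import Fermat.Agent.CFT.Top.BridgeLevels

set_option autoImplicit false

noncomputable section

namespace Fermat.Agent.CFT.GR

open groupCohomology Fermat.Agent.CFT.Top Fermat.Agent.CFT.Local ExtCitation

attribute [local instance] Units.mulDistribMulActionRight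
attribute [local instance] quotAct

section Exp

variable {p : ℕ} [Fact p.Prime] {ζ : Qb}

/-- `a ↦ ζ ^ a` as a unit. -/
def HPNglue_e (hζ : IsPrimitiveRoot ζ p) (a : ZMod p) : Qbˣ :=
  Units.mk0 (ζ ^ a.val) (pow_ne_zero _ (hζ.ne_zero (Fact.out : p.Prime).ne_zero))

theorem HPNglue_e_val (hζ : IsPrimitiveRoot ζ p) (a : ZMod p) :
    ((HPNglue_e hζ a : Qbˣ) : Qb) = ζ ^ a.val := rfl

theorem HPNglue_e_add (hζ : IsPrimitiveRoot ζ p) (a b : ZMod p) :
    ζ ^ (a + b).val = ζ ^ a.val * ζ ^ b.val := by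
  rw [ZMod.val_add, ← pow_eq_pow_mod _ hζ.pow_eq_one, pow_add]

theorem HPNglue_e_mul (hζ : IsPrimitiveRoot ζ p) (a b : ZMod p) :
    ζ ^ (a * b).val = (ζ ^ b.val) ^ a.val := by
  rw [ZMod.val_mul, ← pow_eq_pow_mod _ hζ.pow_eq_one, ← pow_mul, mul_comm]

theorem HPNglue_e_apply (hζ : IsPrimitiveRoot ζ p) (g : GQ) (a : ZMod p) :
    g (ζ ^ a.val) = ζ ^ (((cycloChar p g : (ZMod p)ˣ) : ZMod p) * a).val := by
  rw [HPNglue_e_mul hζ]
  apply apply_eq_pow_cycloChar
  rw [← pow_mul, mul_comm, pow_mul, hζ.pow_eq_one, one_pow]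

end Exp

theorem hpnGlue : Stmt_HPNglue := by
  intro hHP hStd hConj hA hD p _ hp2 ζ hζ f U N _ _ hU hUN hlev hcoc hloc
  have hp : p.Prime := Fact.out
  obtain ⟨-, F₀, hF₀, hF₀U⟩ := hU
  obtain ⟨k, hk, -, hkN⟩ := lc_exists_field_of_le N F₀ (hF₀U.trans hUN)
  have hUS : U ∈ levAll.S := ⟨inferInstance, F₀, hF₀, hF₀U⟩
  obtain ⟨γ, ⟨F, hF, hγF⟩, hγ⟩ := hHP p k hp hp2 hk (fun x => HPNglue_e hζ (f x))
    ⟨F₀, hF₀, fun g g' s s' hs hs' => by
      show HPNglue_e hζ (f _) = HPNglue_e hζ (f _)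
      rw [hlev g g' s (hF₀U hs) s' (hF₀U hs')]⟩
    (fun x => by
      apply Units.ext
      rw [Units.val_pow_eq_pow_val, HPNglue_e_val, ← pow_mul, mul_comm, pow_mul, hζ.pow_eq_one,
        one_pow, Units.val_one])
    (fun g _ h _ j _ => by
      rw [HPNglue_e_val, HPNglue_e_val, HPNglue_e_val, HPNglue_e_val, HPNglue_e_apply hζ,
        ← HPNglue_e_add hζ, ← HPNglue_e_add hζ, hcoc])
    (fun q hq A hAq => by
      have : Fact q.Prime := ⟨hq⟩
      obtain ⟨g, hg⟩ := Num.DC_transitive hA hD hq (padicPlace_liesOverPrime q) hAq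
      obtain ⟨x, hx, hx2⟩ := hConj p f U N hUS ⟨hlev, hcoc⟩ (padicPlace q) A g hg
        (hStd p q f N (hloc q))
      obtain ⟨F₁, hF₁, hxF₁⟩ := hx
      refine ⟨fun s => HPNglue_e hζ (x s), ⟨F₁, hF₁, fun g s hs => by
        show HPNglue_e hζ (x _) = HPNglue_e hζ (x _)
        rw [hxF₁ g s hs]⟩, fun σ hσ τ hτ hσk hτk => ?_⟩
      rw [hkN] at hσk hτk
      rw [HPNglue_e_val, HPNglue_e_val, HPNglue_e_val, HPNglue_e_val, HPNglue_e_apply hζ,
        ← HPNglue_e_add hζ, ← HPNglue_e_add hζ, hx2 σ hσ τ hτ hσk hτk]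
      congr 2
      ring)
  -- the output shape
  have hfinI := finiteIndex_fixingSubgroup F
  have hfin : (Set.range fun g : GQ => ((γ g : Qbˣ) : Qb)).Finite := by
    have : Finite (GQ ⧸ F.fixingSubgroup) := Subgroup.finite_quotient_of_finiteIndex
    have hsub : (Set.range fun g : GQ => ((γ g : Qbˣ) : Qb)) ⊆
        Set.range fun y : GQ ⧸ F.fixingSubgroup => ((γ y.out : Qbˣ) : Qb) := by
      rintro _ ⟨g, rfl⟩
      refine ⟨(g : GQ ⧸ F.fixingSubgroup), ?_⟩
      obtain ⟨s, hs⟩ := QuotientGroup.mk_out_eq_mul F.fixingSubgroup g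
      show ((γ _ : Qbˣ) : Qb) = _
      rw [hs, hγF g s s.2]
    exact (Set.finite_range _).subset hsub
  let T : Set Qb := Set.range fun g : GQ => ((γ g : Qbˣ) : Qb)
  let F' : IntermediateField ℚ Qb := F ⊔ IntermediateField.adjoin ℚ T
  have hF' : FiniteDimensional ℚ F' := by
    have : FiniteDimensional ℚ (IntermediateField.adjoin ℚ T) := by
      have : Finite T := hfin
      have : Algebra.IsAlgebraic ℚ Qb := AlgebraicClosure.isAlgebraic ℚ
      exact IntermediateField.finiteDimensional_adjoin fun x _ => Algebra.IsIntegral.isIntegral x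
    exact IntermediateField.finiteDimensional_sup _ _
  refine ⟨γ, ⟨F'.fixingSubgroup.normalCore, BrLev.normalCore_mem_levAll hF', ?_, ?_⟩, ?_⟩
  · intro g v hv
    apply hγF
    have h1 := Subgroup.normalCore_le _ hv
    exact IntermediateField.fixingSubgroup_antitone le_sup_left h1
  · intro g v hv
    have h1 := Subgroup.normalCore_le _ hv
    rw [IntermediateField.mem_fixingSubgroup_iff] at h1
    apply Units.ext
    exact h1 _ ((le_sup_right : _ ≤ F') (IntermediateField.subset_adjoin ℚ T ⟨g, rfl⟩))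
  · intro g hg h hh
    rw [← hkN] at hg hh
    have h1 := hγ g hg h hh
    rw [HPNglue_e_val] at h1
    have h0 : ((γ (g * h) : Qbˣ) : Qb) ≠ 0 := (γ (g * h)).ne_zero
    rw [Units.val_mul, Units.val_div_eq_div_val]
    have h2 : (((g • γ h : Qbˣ)) : Qb) = g ((γ h : Qbˣ) : Qb) := rfl
    rw [h2, div_mul_eq_mul_div, div_eq_iff h0, h1, mul_comm]

end Fermat.Agent.CFT.GR

end
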