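/-
TEAM CFT -> S55, layer [GLOB-GR], GR-C3b (helper86): raw local triviality at conjugate places.
-/
import Fermat.Agent.CFT.GR.Interface3
import Fermat.Agent.CFT.GN.H90gen

set_option autoImplicit false

noncomputable section

namespace Fermat.Agent.CFT.GR

open groupCohomology Fermat.Agent.CFT.Top Fermat.Agent.CFT.Local ExtCitation
open scoped Pointwise

attribute [local instance] Units.mulDistribMulActionRight
attribute [local instance] quotAct

theorem LocConj_aux {A : Type} [AddCommGroup A] (R P X2 X3 A1 Q Y2 Y1 F A2 : A)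
    (c1 : P + X2 = R + X3) (c2 : P + Y2 = A1 + Q) (c3 : Y1 + F = A2 + Q) :
    R - F = (A1 - A2) - (X3 - Y1) + (X2 - Y2) := by
  have hR := eq_sub_of_add_eq c1.symm
  have hP := eq_sub_of_add_eq c2
  have hQ := eq_sub_of_add_eq' c3.symm
  rw [hR, hP, hQ]
  abel

theorem LocConj_mem_dec_iff (A : ValuationSubring Qb) (a : GQ) :
    a ∈ HPG.Dec A ↔ ∀ x : Qb, a x ∈ A ↔ x ∈ A := by
  change a ∈ A.decompositionSubgroup ℚ ↔ _
  rw [MulAction.mem_stabilizer_iff]
  constructor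
  · intro h x
    have h1 : a • x ∈ a • A ↔ x ∈ A := ValuationSubring.smul_mem_pointwise_smul_iff
    rw [h] at h1
    exact h1
  · intro h
    ext y
    rw [ValuationSubring.mem_pointwise_smul_iff_inv_smul_mem, ← h (a⁻¹ • y)]
    have : a (a⁻¹ • y) = y := by
      change a (a⁻¹ y) = y
      rw [← AlgEquiv.mul_apply, mul_inv_cancel, AlgEquiv.one_apply]
    rw [this]

theorem LocConj_conj_mem_dec {A A' : ValuationSubring Qb} {g : GQ}
    (hg : ∀ x : Qb, g x ∈ A' ↔ x ∈ A) {σ : GQ} (hσ : σ ∈ HPG.Dec A') :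
    g⁻¹ * σ * g ∈ HPG.Dec A := by
  rw [LocConj_mem_dec_iff] at hσ ⊢
  intro y
  rw [← hg, ← hg y, ← hσ (g y)]
  have e : g ((g⁻¹ * σ * g) y) = σ (g y) := by
    rw [← AlgEquiv.mul_apply, ← AlgEquiv.mul_apply]
    congr 1
    group
  rw [e]

/-- **GR-C3b.** -/
theorem locConj : Stmt_LocConj := by
  intro p _ f U N hUn hNn hU hf A A' g hg ⟨x, ⟨F, hFfd, hxF⟩, hx⟩
  obtain ⟨-, FU, hFUfd, hFU⟩ := hU
  obtain ⟨M, hM₀, hMfd, hMn⟩ := GN.fieldClass_fin.nc (F ⊔ FU)
    (IntermediateField.finiteDimensional_sup F FU)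
  have hFM : F ≤ M := le_sup_left.trans hM₀
  have hFUM : FU ≤ M := le_sup_right.trans hM₀
  set χ : GQ → ZMod p := fun a => ((cycloChar p a : (ZMod p)ˣ) : ZMod p) with hχ
  have hχconj : ∀ a, χ (g⁻¹ * a * g) = χ a := by
    intro a
    simp only [hχ, map_mul, map_inv]
    rw [mul_comm ((cycloChar p g)⁻¹) _, mul_assoc, inv_mul_cancel, mul_one]
  refine ⟨fun a => χ g * x (g⁻¹ * a * g) - (f (g, g⁻¹ * a * g) - f (a, g)), ⟨M, hMfd, ?_⟩, ?_⟩
  · intro a s hs
    have e1 : g⁻¹ * (a * s) * g = (g⁻¹ * a * g) * (g⁻¹ * s * g) := by group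
    have hsU : s ∈ U := hFU (IntermediateField.fixingSubgroup_antitone hFUM hs)
    have hsU' : g⁻¹ * s * g ∈ U := by simpa using hUn.conj_mem s hsU g⁻¹
    have hsF : g⁻¹ * s * g ∈ F.fixingSubgroup := by
      rw [IntermediateField.mem_fixingSubgroup_iff]
      intro y hy
      have h1 : g y ∈ M := GN.H90gen.map_mem_of_normal hMn g (hFM hy)
      have h2 : s (g y) = g y := (IntermediateField.mem_fixingSubgroup_iff M _).1 hs _ h1
      change g⁻¹ (s (g y)) = y
      rw [h2, ← AlgEquiv.mul_apply, inv_mul_cancel, AlgEquiv.one_apply]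
    have k1 := hf.lev g (g⁻¹ * a * g) 1 U.one_mem _ hsU'
    have k2 := hf.lev a g s hsU 1 U.one_mem
    rw [mul_one] at k1 k2
    simp only []
    rw [e1, hxF _ _ hsF, k1, k2]
  · intro σ hσ τ hτ hσN hτN
    have c1 := hf.coc g (g⁻¹ * σ * g) (g⁻¹ * τ * g)
    have c2 := hf.coc σ g (g⁻¹ * τ * g)
    have c3 := hf.coc σ τ g
    have e1 : g * (g⁻¹ * σ * g) = σ * g := by group
    have e2 : g * (g⁻¹ * τ * g) = τ * g := by group
    have e3 : g⁻¹ * σ * g * (g⁻¹ * τ * g) = g⁻¹ * (σ * τ) * g := by group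
    rw [e1, e3] at c1
    rw [e2] at c2
    have key := LocConj_aux _ _ _ _ _ _ _ _ _ _ c1 c2 c3
    have hσN' : g⁻¹ * σ * g ∈ N := by simpa using hNn.conj_mem σ hσN g⁻¹
    have hτN' : g⁻¹ * τ * g ∈ N := by simpa using hNn.conj_mem τ hτN g⁻¹
    have h1 := hx _ (LocConj_conj_mem_dec hg hσ) _ (LocConj_conj_mem_dec hg hτ) hσN' hτN'
    rw [e3] at h1
    have h2 : ((cycloChar p (g⁻¹ * σ * g) : (ZMod p)ˣ) : ZMod p) = χ σ := hχconj σ
    rw [h2] at h1
    rw [h1] at key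
    simp only [hχ] at key ⊢
    linear_combination (-1 : ZMod p) * key

end Fermat.Agent.CFT.GR

end
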