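/-
TEAM CFT -> S55, layer [GLOB-GR], package GR-C3a (helper32):
from the local Galois group to the decomposition group of the standard place (`Stmt_LocStd`).
-/
import Fermat.Agent.CFT.GR.Interface3
import Fermat.Agent.CFT.ShaBridge

set_option autoImplicit false

noncomputable section

namespace Fermat.Agent.CFT.GR

open groupCohomology Fermat.Agent.CFT.Top Fermat.Agent.CFT.Local ExtCitation

attribute [local instance] Units.mulDistribMulActionRight
attribute [local instance] quotAct

/-- **GR-C3a (LocStd)** -/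
theorem locStd : Stmt_LocStd := by
  intro p q _ _ f N h
  obtain ⟨c, ⟨V, hV, hc⟩, hid⟩ := h
  obtain ⟨V0, ⟨_, F, hF, hFV0⟩, rfl⟩ := hV
  have hlc : IsLevelConstant₁ (localGaloisToGlobal q) c :=
    ⟨F, hF, fun g s hs => hc g s (Subgroup.mem_comap.2 (hFV0 hs))⟩
  obtain ⟨x, ⟨F', hF', hx'⟩, hx⟩ := la_exists_extension (localGaloisToGlobal q) c hlc
  refine ⟨x, ⟨F', hF', fun g s hs => hx' g s hs⟩, fun σ hσ τ hτ hσN hτN => ?_⟩
  have hσ' : σ ∈ (localGaloisToGlobal q).range := by
    rw [range_localGaloisToGlobal]; exact hσ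
  have hτ' : τ ∈ (localGaloisToGlobal q).range := by
    rw [range_localGaloisToGlobal]; exact hτ
  obtain ⟨g, rfl⟩ := hσ'
  obtain ⟨h, rfl⟩ := hτ'
  rw [← map_mul, hx, hx, hx]
  exact hid g (Subgroup.mem_comap.2 hσN) h (Subgroup.mem_comap.2 hτN)

end Fermat.Agent.CFT.GR

end
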