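/-
TEAM CFT -> S55, layer [GLOB-GR] (helper74): weak reciprocity from the raw Hasse principle.
-/
import Fermat.Agent.CFT.GR.All
import Fermat.Agent.CFT.GR.HPNglue
import Fermat.Agent.CFT.GR.LocStd
import Fermat.Agent.CFT.GR.LocConj
import Fermat.Agent.CFT.GN.DictAB
import Fermat.Agent.CFT.GN.DictD
import Fermat.Agent.CFT.Num.Interface

set_option autoImplicit false

namespace Fermat.Agent.CFT.GR

theorem all_hpn (h : HPG.Stmt_HPraw2) : Stmt_HPN := hpnGlue h locStd locConj GN.dictA GN.dictD

/-- **weak reciprocity** (`= Num.Stmt_qGR`) from the raw Hasse principle of block [HPG]. -/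
theorem final_grw (h : HPG.Stmt_HPraw2) : Stmt_GRw := all_grw (all_hpn h)

/-- the same with the name used by [NUM]. -/
theorem final_qGR (h : HPG.Stmt_HPraw2) : Num.Stmt_qGR := final_grw h

end Fermat.Agent.CFT.GR
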