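/-
TEAM CFT -> S55, layer [GLOB-GR] (helper74): weak reciprocity, unconditionally.
-/
import Fermat.Agent.CFT.GR.All2
import Fermat.Agent.CFT.HP.FinalGN

set_option autoImplicit false

namespace Fermat.Agent.CFT.GR

/-- **weak reciprocity** for `qDatum`, unconditionally. -/
theorem done_qGR : Num.Stmt_qGR := final_qGR HP.all_hpraw2

end Fermat.Agent.CFT.GR
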