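/-
TEAM CFT -> S55, layer [GLOB-GR], package GR-D5 (HlcLoc): `LocTrivAt` is the vanishing of the
restriction in `Hlc`.
-/
import Fermat.Agent.CFT.GR.Interface
import Fermat.Agent.CFT.CycloBridge

set_option autoImplicit false

noncomputable section

namespace Fermat.Agent.CFT.GR

open groupCohomology Fermat.Agent.CFT.Top Fermat.Agent.CFT.Local ExtCitation

attribute [local instance] Units.mulDistribMulActionRight
attribute [local instance] Fermat.Agent.CFT.Local.quotAct

/-- the kernel of the cyclotomic character is a level of `G_ℚ`. -/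
lemma ker_cycloChar_mem_levAll (p : ℕ) [Fact p.Prime] : (cycloChar p).ker ∈ levAll.S := by
  refine ⟨inferInstance, Fermat.Agent.CFT.cycloField p, inferInstance, ?_⟩
  intro s hs
  rw [MonoidHom.mem_ker]
  exact (Fermat.Agent.CFT.cycloChar_eq_one_iff_mem_fixingSubgroup p s).2 hs

/-- `μ_p` restricted to `G_{ℚ_q}` is trivial on a level. -/
lemma isTrivOn_res_mu (p q : ℕ) [Fact p.Prime] [Fact q.Prime] :
    IsTrivOn (levq q) (Rep.res (localGaloisToGlobal q) (muRep (ZMod p) (cycloChar p))) := by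
  refine ⟨(cycloChar p).ker.comap (localGaloisToGlobal q),
    ⟨_, ker_cycloChar_mem_levAll p, rfl⟩, ?_⟩
  intro u hu m
  have h1 : cycloChar p (localGaloisToGlobal q u) = 1 := hu
  show ((cycloChar p (localGaloisToGlobal q u) : (ZMod p)ˣ) : ZMod p) • m = m
  rw [h1, Units.val_one, one_smul]

/-- the core statement, at the prime `q`. -/
lemma hlcLoc_aux (p q : ℕ) [Fact p.Prime] [Fact q.Prime] (S : Finset Nat.Primes)
    (hc : LevelSys.IsCont (levq q) (levS S) (localGaloisToGlobal q))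
    (f : Z2 (levS S) (muRep (ZMod p) (cycloChar p))) :
    ((lcRes (localGaloisToGlobal q) hc (muRep (ZMod p) (cycloChar p))).mapH 2
        (cls2 (levS S) (muRep (ZMod p) (cycloChar p)) f) = 0 ↔
      LocTrivAt p q (f.1 : GQ × GQ → ZMod p)) := by
  unfold lcRes
  rw [mapH_cls2, cls2_eq_zero_iff]
  constructor
  · rintro ⟨c, hc1, h⟩
    rw [mem_C1_of_isTrivOn (isTrivOn_res_mu p q)] at hc1
    obtain ⟨U, hU, hUc⟩ := hc1
    exact ⟨c, ⟨U, hU, hUc⟩, fun g g' => h g g'⟩
  · rintro ⟨c, ⟨U, hU, hUc⟩, h⟩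
    refine ⟨c, ?_, fun g g' => h g g'⟩
    rw [mem_C1_of_isTrivOn (isTrivOn_res_mu p q)]
    exact ⟨U, hU, hUc⟩

/-- **GR-D5 (HlcLoc)**. -/
theorem hlcLoc : Stmt_HlcLoc := by
  intro p _ S h w q _ hq f
  subst hq
  exact hlcLoc_aux p _ S _ f

end Fermat.Agent.CFT.GR

end
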