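/-
TEAM CFT -> S55, layer [GLOB-GR], task GR-D4 (LTO), part (4): the abstract group lemma.

`f` a 2-cocycle of `G` with values in `𝔽_p(χ)`, of level `W0`; `σ ∈ G`, `σ ^ n0 ∈ W0`;
`W1 ≤ W0` such that `σ ^ k ∈ W1 → n0 * p ∣ k`.  Then `f = d c` on `⟨σ⟩ W1`, with `c` of level `W1`:
`c (σ ^ i) = f (1, 1) - ∑_{l < i} f (σ ^ l, σ)`.
-/
import Mathlib

set_option autoImplicit false

namespace Fermat.Agent.CFT.GR.LTOAlg

variable {G : Type} [Group G] {p : ℕ}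

/-- the explicit primitive, as a function of the exponent -/
def ct (f : G × G → ZMod p) (σ : G) (i : ℕ) : ZMod p :=
  f (1, 1) - ∑ l ∈ Finset.range i, f (σ ^ l, σ)

lemma ct_succ (f : G × G → ZMod p) (σ : G) (i : ℕ) :
    ct f σ (i + 1) = ct f σ i - f (σ ^ i, σ) := by
  unfold ct
  rw [Finset.sum_range_succ]
  ring

/-- sums of a periodic function over a multiple of the period -/
lemma sum_periodic (a : ℕ → ZMod p) (n0 : ℕ) (ha : ∀ l, a (l + n0) = a l) (i t : ℕ) :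
    ∑ l ∈ Finset.range (n0 * t), a (i + l) = t • ∑ l ∈ Finset.range n0, a (i + l) := by
  have hper : ∀ t l, a (l + n0 * t) = a l := by
    intro t
    induction t with
    | zero => intro l; simp
    | succ t ih =>
      intro l
      rw [Nat.mul_succ, ← add_assoc, ha, ih]
  induction t with
  | zero => simp
  | succ t ih =>
    rw [Nat.mul_succ, Finset.sum_range_add, ih, succ_nsmul]
    congr 1
    refine Finset.sum_congr rfl fun l _ => ?_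
    rw [show i + (n0 * t + l) = (i + l) + n0 * t by ring, hper]

lemma ct_add_mul (f : G × G → ZMod p) (σ : G) (n0 : ℕ)
    (ha : ∀ l, f (σ ^ (l + n0), σ) = f (σ ^ l, σ)) (i t : ℕ) :
    ct f σ (i + n0 * p * t) = ct f σ i := by
  unfold ct
  rw [Finset.sum_range_add, mul_assoc, sum_periodic (fun l => f (σ ^ l, σ)) n0 ha i (p * t)]
  rw [nsmul_eq_mul, Nat.cast_mul, CharP.cast_eq_zero (ZMod p) p]
  ring

variable (χ : G →* (ZMod p)ˣ) (f : G × G → ZMod p)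

lemma f_pow_pow
    (hcoc : ∀ g h j, f (g * h, j) + f (g, h) = ((χ g : (ZMod p)ˣ) : ZMod p) * f (h, j) + f (g, h * j))
    (σ : G) (i j : ℕ) :
    f (σ ^ i, σ ^ j) =
      ((χ (σ ^ i) : (ZMod p)ˣ) : ZMod p) * ct f σ j - ct f σ (i + j) + ct f σ i := by
  induction j with
  | zero =>
    have h := hcoc (σ ^ i) 1 1
    rw [mul_one, mul_one] at h
    have h2 : f (σ ^ i, 1) = ((χ (σ ^ i) : (ZMod p)ˣ) : ZMod p) * f (1, 1) := add_right_cancel h
    rw [pow_zero, h2, add_zero]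
    simp [ct]
  | succ j ih =>
    have h := hcoc (σ ^ i) (σ ^ j) σ
    rw [← pow_add, ← pow_succ] at h
    rw [← add_assoc, ct_succ, ct_succ]
    have h3 : f (σ ^ i, σ ^ (j + 1)) =
        f (σ ^ (i + j), σ) + f (σ ^ i, σ ^ j) - ((χ (σ ^ i) : (ZMod p)ˣ) : ZMod p) * f (σ ^ j, σ) := by
      rw [h]; ring
    rw [h3, ih]
    ring

theorem exists_primitive
    (hcoc : ∀ g h j, f (g * h, j) + f (g, h) = ((χ g : (ZMod p)ˣ) : ZMod p) * f (h, j) + f (g, h * j))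
    (W0 W1 : Subgroup G) [W1.Normal] (hle : W1 ≤ W0)
    (hlev : ∀ g h, ∀ u ∈ W0, ∀ u' ∈ W0, f (g * u, h * u') = f (g, h))
    (hχ : ∀ u ∈ W0, χ u = 1)
    (σ : G) (n0 : ℕ) (hn0 : σ ^ n0 ∈ W0) (hord : ∀ k : ℕ, σ ^ k ∈ W1 → n0 * p ∣ k) :
    ∃ c : G → ZMod p, (∀ g, ∀ w ∈ W1, c (g * w) = c g) ∧
      ∀ g h : G, (∃ i : ℕ, (σ ^ i)⁻¹ * g ∈ W1) → (∃ j : ℕ, (σ ^ j)⁻¹ * h ∈ W1) →
        f (g, h) = ((χ g : (ZMod p)ˣ) : ZMod p) * c h - c (g * h) + c g := by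
  classical
  have ha : ∀ l, f (σ ^ (l + n0), σ) = f (σ ^ l, σ) := by
    intro l
    have := hlev (σ ^ l) σ _ hn0 1 W0.one_mem
    rwa [mul_one, ← pow_add] at this
  -- well-definedness
  have hwd1 : ∀ i j : ℕ, i ≤ j → (σ ^ i)⁻¹ * σ ^ j ∈ W1 → ct f σ i = ct f σ j := by
    intro i j hij h
    obtain ⟨k, rfl⟩ := Nat.exists_eq_add_of_le hij
    rw [pow_add, inv_mul_cancel_left] at h
    obtain ⟨t, rfl⟩ := hord k h
    rw [ct_add_mul f σ n0 ha]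
  have hwd : ∀ (g : G) (i j : ℕ), (σ ^ i)⁻¹ * g ∈ W1 → (σ ^ j)⁻¹ * g ∈ W1 →
      ct f σ i = ct f σ j := by
    intro g i j hi hj
    have h1 : (σ ^ i)⁻¹ * σ ^ j ∈ W1 := by
      have := W1.mul_mem hi (W1.inv_mem hj)
      simpa [mul_assoc] using this
    rcases le_total i j with hij | hij
    · exact hwd1 i j hij h1
    · refine (hwd1 j i hij ?_).symm
      have := W1.inv_mem h1
      simpa using this
  let c : G → ZMod p := fun g =>
    if h : ∃ i : ℕ, (σ ^ i)⁻¹ * g ∈ W1 then ct f σ h.choose else 0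
  have hc : ∀ (g : G) (i : ℕ), (σ ^ i)⁻¹ * g ∈ W1 → c g = ct f σ i := by
    intro g i hi
    have h : ∃ i : ℕ, (σ ^ i)⁻¹ * g ∈ W1 := ⟨i, hi⟩
    show (if h : ∃ i : ℕ, (σ ^ i)⁻¹ * g ∈ W1 then ct f σ h.choose else 0) = _
    rw [dif_pos h]
    exact hwd g _ _ h.choose_spec hi
  refine ⟨c, ?_, ?_⟩
  · intro g w hw
    by_cases h : ∃ i : ℕ, (σ ^ i)⁻¹ * g ∈ W1
    · obtain ⟨i, hi⟩ := h
      rw [hc g i hi, hc (g * w) i (by rw [← mul_assoc]; exact W1.mul_mem hi hw)]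
    · have h' : ¬ ∃ i : ℕ, (σ ^ i)⁻¹ * (g * w) ∈ W1 := by
        rintro ⟨i, hi⟩
        apply h
        refine ⟨i, ?_⟩
        have := W1.mul_mem hi (W1.inv_mem hw)
        simpa [mul_assoc] using this
      show (if h : ∃ i : ℕ, (σ ^ i)⁻¹ * (g * w) ∈ W1 then ct f σ h.choose else 0) =
        (if h : ∃ i : ℕ, (σ ^ i)⁻¹ * g ∈ W1 then ct f σ h.choose else 0)
      rw [dif_neg h, dif_neg h']
  · rintro g h ⟨i, hi⟩ ⟨j, hj⟩
    have hg : g = σ ^ i * ((σ ^ i)⁻¹ * g) := by rw [mul_inv_cancel_left]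
    have hh : h = σ ^ j * ((σ ^ j)⁻¹ * h) := by rw [mul_inv_cancel_left]
    have h1 : f (g, h) = f (σ ^ i, σ ^ j) := by
      have := hlev (σ ^ i) (σ ^ j) _ (hle hi) _ (hle hj)
      rwa [← hg, ← hh] at this
    have h2 : χ g = χ (σ ^ i) := by
      conv_lhs => rw [hg, map_mul, hχ _ (hle hi), mul_one]
    have h3 : (σ ^ (i + j))⁻¹ * (g * h) ∈ W1 := by
      have e : (σ ^ (i + j))⁻¹ * (g * h) =
          ((σ ^ j)⁻¹ * ((σ ^ i)⁻¹ * g) * (σ ^ j)⁻¹⁻¹) * ((σ ^ j)⁻¹ * h) := by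
        rw [pow_add]
        group
      rw [e]
      exact W1.mul_mem (‹W1.Normal›.conj_mem _ hi _) hj
    rw [h1, h2, hc g i hi, hc h j hj, hc (g * h) (i + j) h3]
    exact f_pow_pow χ f hcoc σ i j

end Fermat.Agent.CFT.GR.LTOAlg
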